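import Mathlib

/-!
# PROJECT G (S13), complex uniformisation (A6): the addition theorem of the Weierstrass `℘`

`L : PeriodPair` (Mathlib), `℘ = ℘[L]`, `℘' = ℘'[L]`, `Λ = L.lattice`.

* `det_eq_zero` / `det_eq_zero'` : for `u, v, u + v ∉ Λ` the points `(℘ u, ℘' u)`, `(℘ v, ℘' v)`,
  `(℘ (u + v), - ℘' (u + v))` are collinear (Liouville only: the determinant is an elliptic
  function of `u` without poles, antisymmetric under `u ↦ c - u`).
* `weierstrassP_add`, `derivWeierstrassP_add` : the addition formulas for `℘ u ≠ ℘ v`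
  (degenerate positions by the identity principle on the complement of a countable set).
* `weierstrassP_two_mul`, `derivWeierstrassP_two_mul` : the duplication formulas for `℘' u ≠ 0`
  (limit `v → u`), with `hasDerivAt_derivWeierstrassP : ℘'' = 6 ℘ ^ 2 - g₂ / 2` at such points.
* `eventually_lt_norm_weierstrassP` : `‖℘ z‖ → ∞` as `z → 0`.
-/

set_option autoImplicit false

open Filter Topology
open scoped PeriodPair

noncomputable section

namespace Fermat.Agent.S13.CU.AddThm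

variable (L : PeriodPair)

/-! ### Generalities -/

theorem analyticAt_dslope {f : ℂ → ℂ} {z₀ : ℂ} (hf : AnalyticAt ℂ f z₀) :
    AnalyticAt ℂ (dslope f z₀) z₀ := by
  obtain ⟨p, hp⟩ := hf
  exact ⟨_, hp.has_fpower_series_dslope_fslope⟩

/-- `℘ z = ℘[L - 0] z + 1 / z ^ 2` for every `z` -/
theorem weierstrassP_eq_except (z : ℂ) :
    ℘[L] z = ℘[L - (0 : ℂ)] z + 1 / z ^ 2 := by
  have h := L.weierstrassPExcept_def (0 : L.lattice) z
  simp only [ZeroMemClass.coe_zero, sub_zero] at h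
  rw [h]
  simp

theorem analyticAt_weierstrassP {z : ℂ} (hz : z ∉ L.lattice) : AnalyticAt ℂ ℘[L] z :=
  L.analyticOnNhd_weierstrassP z hz

theorem analyticAt_derivWeierstrassP {z : ℂ} (hz : z ∉ L.lattice) : AnalyticAt ℂ ℘'[L] z :=
  L.analyticOnNhd_derivWeierstrassP z hz

theorem hasDerivAt_weierstrassP {z : ℂ} (hz : z ∉ L.lattice) :
    HasDerivAt ℘[L] (℘'[L] z) z := by
  have h := (analyticAt_weierstrassP L hz).differentiableAt.hasDerivAt
  rwa [L.deriv_weierstrassP] at h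

theorem eventually_notMem_lattice {z : ℂ} (hz : z ∉ L.lattice) :
    ∀ᶠ w in 𝓝 z, w ∉ L.lattice :=
  L.isClosed_lattice.isOpen_compl.mem_nhds hz

theorem eventually_ne_notMem_lattice_zero : ∀ᶠ w in 𝓝[≠] (0 : ℂ), w ∉ L.lattice := by
  have h := L.compl_lattice_sdiff_singleton_mem_nhds 0
  filter_upwards [mem_nhdsWithin_of_mem_nhds h, self_mem_nhdsWithin] with w hw hw0
  intro hwl
  exact hw ⟨hwl, hw0⟩

/-! ### The determinant -/

variable (c : ℂ)

/-- the determinant of the rows `(℘ u, ℘' u, 1)`, `(℘ (c - u), ℘' (c - u), 1)`, `(℘ c, -℘' c, 1)` -/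
def Phi (u : ℂ) : ℂ :=
  ℘[L] u * (℘'[L] (c - u) + ℘'[L] c) - ℘'[L] u * (℘[L] (c - u) - ℘[L] c) -
    (℘[L] (c - u) * ℘'[L] c + ℘'[L] (c - u) * ℘[L] c)

theorem Phi_antisymm (u : ℂ) : Phi L c (c - u) = - Phi L c u := by
  simp only [Phi, sub_sub_cancel]
  ring

theorem Phi_add_coe (u : ℂ) (l : L.lattice) : Phi L c (u + l) = Phi L c u := by
  have h1 : c - (u + l) = c - u - l := by ring
  simp only [Phi, h1, L.weierstrassP_add_coe, L.derivWeierstrassP_add_coe,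
    L.weierstrassP_sub_coe, L.derivWeierstrassP_sub_coe]

theorem analyticAt_Phi {u : ℂ} (hu : u ∉ L.lattice) (hcu : c - u ∉ L.lattice) :
    AnalyticAt ℂ (Phi L c) u := by
  have h1 : AnalyticAt ℂ (fun w : ℂ => c - w) u := by fun_prop
  have h2 : AnalyticAt ℂ (fun w : ℂ => ℘[L] (c - w)) u :=
    (analyticAt_weierstrassP L hcu).comp (f := fun w : ℂ => c - w) h1
  have h3 : AnalyticAt ℂ (fun w : ℂ => ℘'[L] (c - w)) u :=
    (analyticAt_derivWeierstrassP L hcu).comp (f := fun w : ℂ => c - w) h1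
  have h4 := analyticAt_weierstrassP L hu
  have h5 := analyticAt_derivWeierstrassP L hu
  unfold Phi
  fun_prop

/-- the auxiliary function `B u = ℘ (c - u) - ℘ c` -/
def Bfun (u : ℂ) : ℂ := ℘[L] (c - u) - ℘[L] c

theorem Bfun_zero : Bfun L c 0 = 0 := by simp [Bfun]

theorem hasDerivAt_Bfun {u : ℂ} (hcu : c - u ∉ L.lattice) :
    HasDerivAt (Bfun L c) (-℘'[L] (c - u)) u := by
  have h1 : HasDerivAt (fun w : ℂ => c - w) (-1) u := by
    simpa using (hasDerivAt_id u).const_sub c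
  have h2 := (hasDerivAt_weierstrassP L hcu).comp u h1
  have h3 : HasDerivAt (fun w : ℂ => ℘[L] (c - w) - ℘[L] c) (℘'[L] (c - u) * -1) u :=
    h2.sub_const _
  have h4 : (fun w : ℂ => ℘[L] (c - w) - ℘[L] c) = Bfun L c := rfl
  rw [h4, mul_neg_one] at h3
  exact h3

theorem analyticAt_Bfun {u : ℂ} (hcu : c - u ∉ L.lattice) : AnalyticAt ℂ (Bfun L c) u := by
  have h1 : AnalyticAt ℂ (fun w : ℂ => c - w) u := by fun_prop
  have h2 : AnalyticAt ℂ (fun w : ℂ => ℘[L] (c - w)) u :=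
    (analyticAt_weierstrassP L hcu).comp (f := fun w : ℂ => c - w) h1
  unfold Bfun
  fun_prop

/-- `Φ = -(℘ B)' + ℘' c * ℘ - C` -/
theorem Phi_eq_deriv {u : ℂ} (hu : u ∉ L.lattice) (hcu : c - u ∉ L.lattice) :
    Phi L c u = - deriv (fun w => ℘[L] w * Bfun L c w) u + ℘'[L] c * ℘[L] u -
      (℘[L] (c - u) * ℘'[L] c + ℘'[L] (c - u) * ℘[L] c) := by
  have h : deriv (fun w => ℘[L] w * Bfun L c w) u =
      ℘'[L] u * Bfun L c u + ℘[L] u * -℘'[L] (c - u) :=
    ((hasDerivAt_weierstrassP L hu).mul (hasDerivAt_Bfun L c hcu)).deriv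
  rw [h]
  simp only [Phi, Bfun]
  ring

/-- the analytic part of `℘ * B` at `0` -/
def Hfun (u : ℂ) : ℂ :=
  ℘[L - (0 : ℂ)] u * Bfun L c u + dslope (dslope (Bfun L c) 0) 0 u

theorem analyticAt_Hfun (hc : c ∉ L.lattice) : AnalyticAt ℂ (Hfun L c) 0 := by
  have hB : AnalyticAt ℂ (Bfun L c) 0 := analyticAt_Bfun L c (by simpa using hc)
  have h1 := analyticAt_dslope (analyticAt_dslope hB)
  have h2 : AnalyticAt ℂ ℘[L - (0 : ℂ)] 0 := L.analyticAt_weierstrassPExcept 0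
  unfold Hfun
  fun_prop

theorem weierstrassP_mul_Bfun (hc : c ∉ L.lattice) {u : ℂ} (hu : u ≠ 0) :
    ℘[L] u * Bfun L c u = Hfun L c u - ℘'[L] c / u := by
  have h1 : Bfun L c u = u * dslope (Bfun L c) 0 u := by
    have := sub_smul_dslope (Bfun L c) 0 u
    simp only [sub_zero, smul_eq_mul, Bfun_zero] at this
    exact this.symm
  have h2 : dslope (Bfun L c) 0 u = - ℘'[L] c + u * dslope (dslope (Bfun L c) 0) 0 u := by
    have := sub_smul_dslope (dslope (Bfun L c) 0) 0 u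
    simp only [sub_zero, smul_eq_mul, dslope_same] at this
    have hd : deriv (Bfun L c) 0 = - ℘'[L] c := by
      have := (hasDerivAt_Bfun L c (u := 0) (by simpa using hc)).deriv
      simpa using this
    rw [hd] at this
    linear_combination -this
  rw [weierstrassP_eq_except, Hfun]
  have h3 : (1 / u ^ 2) * Bfun L c u = dslope (dslope (Bfun L c) 0) 0 u - ℘'[L] c / u := by
    rw [h1, h2]
    field_simp
    ring
  linear_combination h3

theorem deriv_weierstrassP_mul_Bfun (hc : c ∉ L.lattice) :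
    ∀ᶠ u in 𝓝[≠] (0 : ℂ), deriv (fun w => ℘[L] w * Bfun L c w) u =
      deriv (Hfun L c) u + ℘'[L] c / u ^ 2 := by
  have hH := (analyticAt_Hfun L c hc).eventually_analyticAt
  filter_upwards [mem_nhdsWithin_of_mem_nhds hH, self_mem_nhdsWithin] with u hu hu0
  have hu0' : u ≠ 0 := hu0
  have h1 : (fun w => ℘[L] w * Bfun L c w) =ᶠ[𝓝 u] fun w => Hfun L c w - ℘'[L] c / w := by
    filter_upwards [isOpen_ne.mem_nhds hu0'] with w hw
    exact weierstrassP_mul_Bfun L c hc hw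
  rw [h1.deriv_eq]
  have h2 : HasDerivAt (fun w : ℂ => ℘'[L] c / w) (-(℘'[L] c) / u ^ 2) u := by
    have := (hasDerivAt_inv hu0').const_mul (℘'[L] c)
    simpa [div_eq_mul_inv, neg_div] using this
  have h3 : HasDerivAt (fun w => Hfun L c w - ℘'[L] c / w)
      (deriv (Hfun L c) u - -(℘'[L] c) / u ^ 2) u := hu.differentiableAt.hasDerivAt.sub h2
  rw [h3.deriv]
  ring

/-- the analytic continuation of `Φ` at `0` -/
def Gfun (u : ℂ) : ℂ :=
  - deriv (Hfun L c) u + ℘'[L] c * ℘[L - (0 : ℂ)] u -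
    (℘[L] (c - u) * ℘'[L] c + ℘'[L] (c - u) * ℘[L] c)

theorem analyticAt_Gfun (hc : c ∉ L.lattice) : AnalyticAt ℂ (Gfun L c) 0 := by
  have hc0 : c - 0 ∉ L.lattice := by simpa using hc
  have h0 : AnalyticAt ℂ (fun w : ℂ => c - w) 0 := by fun_prop
  have h1 : AnalyticAt ℂ (fun w : ℂ => ℘[L] (c - w)) 0 :=
    (analyticAt_weierstrassP L hc0).comp (f := fun w : ℂ => c - w) h0
  have h2 : AnalyticAt ℂ (fun w : ℂ => ℘'[L] (c - w)) 0 :=
    (analyticAt_derivWeierstrassP L hc0).comp (f := fun w : ℂ => c - w) h0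
  have h3 : AnalyticAt ℂ ℘[L - (0 : ℂ)] 0 := L.analyticAt_weierstrassPExcept 0
  have h4 : AnalyticAt ℂ (deriv (Hfun L c)) 0 := (analyticAt_Hfun L c hc).deriv
  unfold Gfun
  fun_prop

theorem Phi_eq_Gfun (hc : c ∉ L.lattice) :
    ∀ᶠ u in 𝓝[≠] (0 : ℂ), Phi L c u = Gfun L c u := by
  have h1 : ∀ᶠ u in 𝓝 (0 : ℂ), c - u ∉ L.lattice := by
    have hcont : ContinuousAt (fun u : ℂ => c - u) 0 := by fun_prop
    have : ∀ᶠ w in 𝓝 (c - 0), w ∉ L.lattice := eventually_notMem_lattice L (by simpa using hc)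
    exact hcont.eventually this
  filter_upwards [mem_nhdsWithin_of_mem_nhds h1, eventually_ne_notMem_lattice_zero L,
    deriv_weierstrassP_mul_Bfun L c hc, self_mem_nhdsWithin] with u hcu hu hd hu0
  have hu0' : u ≠ 0 := hu0
  rw [Phi_eq_deriv L c hu hcu, hd, Gfun, weierstrassP_eq_except L u]
  field_simp
  ring

/-! ### The entire extension and Liouville -/

open scoped Classical in
/-- the entire extension of `Φ` -/
def Efun (u : ℂ) : ℂ :=
  if u ∈ L.lattice then Gfun L c 0 else if u - c ∈ L.lattice then - Gfun L c 0 else Phi L c u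

theorem Efun_of_notMem {u : ℂ} (hu : u ∉ L.lattice) (hcu : c - u ∉ L.lattice) :
    Efun L c u = Phi L c u := by
  have h : u - c ∉ L.lattice := fun h => hcu (by simpa using L.lattice.neg_mem h)
  simp [Efun, hu, h]

theorem Efun_add_coe (u : ℂ) (l : L.lattice) : Efun L c (u + l) = Efun L c u := by
  have h1 : u + l ∈ L.lattice ↔ u ∈ L.lattice := L.lattice.add_mem_iff_left l.2
  have h2 : u + l - c ∈ L.lattice ↔ u - c ∈ L.lattice := by
    rw [show u + (l : ℂ) - c = (u - c) + l by ring]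
    exact L.lattice.add_mem_iff_left l.2
  unfold Efun
  rw [Phi_add_coe]
  by_cases hu : u ∈ L.lattice
  · rw [if_pos (h1.mpr hu), if_pos hu]
  · rw [if_neg (fun h => hu (h1.mp h)), if_neg hu]
    by_cases hcu : u - c ∈ L.lattice
    · rw [if_pos (h2.mpr hcu), if_pos hcu]
    · rw [if_neg (fun h => hcu (h2.mp h)), if_neg hcu]

theorem Efun_sub_coe (u : ℂ) (l : L.lattice) : Efun L c (u - l) = Efun L c u := by
  rw [← Efun_add_coe L c (u - l) l, sub_add_cancel]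

theorem Efun_antisymm (hc : c ∉ L.lattice) (u : ℂ) : Efun L c (c - u) = - Efun L c u := by
  by_cases hu : u ∈ L.lattice
  · have h1 : c - u ∉ L.lattice := fun h => hc (by simpa using L.lattice.add_mem h hu)
    have h2 : c - u - c ∈ L.lattice := by simpa using hu
    simp [Efun, hu, h1]
  · by_cases hcu : u - c ∈ L.lattice
    · have h1 : c - u ∈ L.lattice := by simpa using L.lattice.neg_mem hcu
      simp [Efun, hu, hcu, h1]
    · have h1 : c - u ∉ L.lattice := fun h => hcu (by simpa using L.lattice.neg_mem h)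
      have h2 : c - u - c ∉ L.lattice := by simpa using hu
      simp [Efun, hu, hcu, h1, Phi_antisymm]

theorem Efun_eventuallyEq_zero (hc : c ∉ L.lattice) : Efun L c =ᶠ[𝓝 0] Gfun L c := by
  have h1 : ∀ᶠ u in 𝓝 (0 : ℂ), c - u ∉ L.lattice := by
    have hcont : ContinuousAt (fun u : ℂ => c - u) 0 := by fun_prop
    have : ∀ᶠ w in 𝓝 (c - 0), w ∉ L.lattice := eventually_notMem_lattice L (by simpa using hc)
    exact hcont.eventually this
  have h2 := eventually_nhdsWithin_iff.mp (Phi_eq_Gfun L c hc)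
  have h3 := eventually_nhdsWithin_iff.mp (eventually_ne_notMem_lattice_zero L)
  filter_upwards [h1, h2, h3] with u hcu hΦ hu
  by_cases hu0 : u = 0
  · subst hu0
    simp [Efun]
  · rw [Efun_of_notMem L c (hu hu0) hcu, hΦ hu0]

theorem analyticAt_Efun (hc : c ∉ L.lattice) (u : ℂ) : AnalyticAt ℂ (Efun L c) u := by
  have h0 : AnalyticAt ℂ (Efun L c) 0 :=
    (analyticAt_Gfun L c hc).congr (Efun_eventuallyEq_zero L c hc).symm
  have hlat : ∀ l : L.lattice, AnalyticAt ℂ (Efun L c) l := by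
    intro l
    have h1 : Efun L c = fun w => Efun L c (w - l) := by
      funext w
      rw [Efun_sub_coe]
    rw [h1]
    have h2 : AnalyticAt ℂ (fun w : ℂ => w - l) (l : ℂ) := by fun_prop
    have h3 : AnalyticAt ℂ (Efun L c) ((l : ℂ) - l) := by simpa using h0
    exact h3.comp (f := fun w : ℂ => w - l) h2
  by_cases hu : u ∈ L.lattice
  · exact hlat ⟨u, hu⟩
  · by_cases hcu : c - u ∈ L.lattice
    · have h1 : Efun L c = fun w => - Efun L c (c - w) := by
        funext w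
        rw [Efun_antisymm L c hc, neg_neg]
      rw [h1]
      have h2 : AnalyticAt ℂ (fun w : ℂ => c - w) u := by fun_prop
      have h3 : AnalyticAt ℂ (Efun L c) (c - u) := hlat ⟨c - u, hcu⟩
      exact (h3.comp (f := fun w : ℂ => c - w) h2).neg
    · refine (analyticAt_Phi L c hu hcu).congr ?_
      have h1 : ∀ᶠ w in 𝓝 u, c - w ∉ L.lattice := by
        have hcont : ContinuousAt (fun w : ℂ => c - w) u := by fun_prop
        exact hcont.eventually (eventually_notMem_lattice L hcu)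
      filter_upwards [eventually_notMem_lattice L hu, h1] with w hw hcw
      exact (Efun_of_notMem L c hw hcw).symm

theorem Efun_eq_zero (hc : c ∉ L.lattice) (u : ℂ) : Efun L c u = 0 := by
  have hd : Differentiable ℂ (Efun L c) := fun z => (analyticAt_Efun L c hc z).differentiableAt
  have hb := (IsZLattice.isCompact_range_of_periodic L.lattice _ hd.continuous
    fun z w hw => Efun_add_coe L c z ⟨w, hw⟩).isBounded
  have h1 : Efun L c u = Efun L c (c / 2) := hd.apply_eq_apply_of_bounded hb u (c / 2)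
  have h2 : Efun L c (c / 2) = - Efun L c (c / 2) := by
    have := Efun_antisymm L c hc (c / 2)
    rwa [show c - c / 2 = c / 2 by ring] at this
  have h3 : Efun L c (c / 2) = 0 := by
    have : (2 : ℂ) * Efun L c (c / 2) = 0 := by linear_combination h2
    simpa using this
  rw [h1, h3]

/-- **collinearity** of `P_u`, `P_{c-u}`, `P_{-c}` -/
theorem det_eq_zero {u c : ℂ} (hc : c ∉ L.lattice) (hu : u ∉ L.lattice)
    (hcu : c - u ∉ L.lattice) :
    ℘[L] u * (℘'[L] (c - u) + ℘'[L] c) - ℘'[L] u * (℘[L] (c - u) - ℘[L] c) -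
      (℘[L] (c - u) * ℘'[L] c + ℘'[L] (c - u) * ℘[L] c) = 0 := by
  have h := Efun_eq_zero L c hc u
  rwa [Efun_of_notMem L c hu hcu] at h

/-- symmetric form of the collinearity -/
theorem det_eq_zero' {u v : ℂ} (hu : u ∉ L.lattice) (hv : v ∉ L.lattice)
    (huv : u + v ∉ L.lattice) :
    ℘[L] u * (℘'[L] v + ℘'[L] (u + v)) - ℘'[L] u * (℘[L] v - ℘[L] (u + v)) -
      (℘[L] v * ℘'[L] (u + v) + ℘'[L] v * ℘[L] (u + v)) = 0 := by
  have h := det_eq_zero L (u := u) (c := u + v) huv hu (by simpa using hv)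
  simpa using h

/-! ### The pole of `℘` -/

theorem eventually_lt_norm_weierstrassP (M : ℝ) : ∀ᶠ z in 𝓝[≠] (0 : ℂ), M < ‖℘[L] z‖ := by
  have h1 : Tendsto (fun z : ℂ => ‖z⁻¹‖ ^ 2) (𝓝[≠] 0) atTop :=
    (tendsto_pow_atTop two_ne_zero).comp tendsto_norm_inv_nhdsNE_zero_atTop
  have h2 : ContinuousAt ℘[L - (0 : ℂ)] 0 := (L.analyticAt_weierstrassPExcept 0).continuousAt
  have h3 : ∀ᶠ z in 𝓝 (0 : ℂ), ‖℘[L - (0 : ℂ)] z‖ < 1 := by
    have := h2.norm
    rw [ContinuousAt, L.weierstrassPExcept_zero, norm_zero] at this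
    exact this.eventually (gt_mem_nhds zero_lt_one)
  filter_upwards [h1.eventually (eventually_gt_atTop (M + 1)), mem_nhdsWithin_of_mem_nhds h3]
    with z hz1 hz3
  rw [weierstrassP_eq_except]
  have h4 : ‖(1 : ℂ) / z ^ 2‖ = ‖z⁻¹‖ ^ 2 := by
    rw [one_div, ← inv_pow, norm_pow]
  have h5 := norm_sub_norm_le (1 / z ^ 2) (-℘[L - (0 : ℂ)] z)
  rw [norm_neg, sub_neg_eq_add, add_comm (1 / z ^ 2)] at h5
  linarith

/-! ### The identity principle for products -/

theorem eqOn_zero_of_mul_eqOn_zero {f g : ℂ → ℂ} {U : Set ℂ} (hf : AnalyticOnNhd ℂ f U)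
    (hg : AnalyticOnNhd ℂ g U) (hU : IsPreconnected U) (hUo : IsOpen U)
    (h : ∀ z ∈ U, f z * g z = 0) {z₁ : ℂ} (hz₁ : z₁ ∈ U) (hfz₁ : f z₁ ≠ 0) :
    ∀ z ∈ U, g z = 0 := by
  have h1 : ∀ᶠ z in 𝓝 z₁, f z ≠ 0 := (hf z₁ hz₁).continuousAt.eventually_ne hfz₁
  have h2 : g =ᶠ[𝓝 z₁] 0 := by
    filter_upwards [h1, hUo.mem_nhds hz₁] with z hz hzU
    exact (mul_eq_zero.mp (h z hzU)).resolve_left hz
  exact fun z hz => hg.eqOn_zero_of_preconnected_of_eventuallyEq_zero hU hz₁ h2 hz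

theorem countable_lattice : (L.lattice : Set ℂ).Countable :=
  countable_of_Lindelof_of_discrete (X := L.lattice)

/-- the domain of `v ↦ (℘ v, ℘ (u + v))` -/
def dom (u : ℂ) : Set ℂ := {v | v ∉ L.lattice ∧ u + v ∉ L.lattice}

theorem isOpen_dom (u : ℂ) : IsOpen (dom L u) := by
  have h1 : IsOpen {v : ℂ | v ∉ L.lattice} := L.isClosed_lattice.isOpen_compl
  have h2 : IsOpen {v : ℂ | u + v ∉ L.lattice} :=
    L.isClosed_lattice.isOpen_compl.preimage (by fun_prop : Continuous fun v : ℂ => u + v)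
  exact h1.inter h2

theorem isPreconnected_dom (u : ℂ) : IsPreconnected (dom L u) := by
  have h : dom L u = ((L.lattice : Set ℂ) ∪ (fun l : ℂ => l - u) '' (L.lattice : Set ℂ))ᶜ := by
    ext v
    simp only [dom, Set.mem_ofPred_eq, Set.mem_compl_iff, Set.mem_union, SetLike.mem_coe,
      Set.mem_image, not_or, not_exists, not_and]
    constructor
    · rintro ⟨h1, h2⟩
      refine ⟨h1, fun l hl hlv => h2 ?_⟩
      rw [← hlv]
      simpa using hl
    · rintro ⟨h1, h2⟩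
      exact ⟨h1, fun h => h2 (u + v) h (by ring)⟩
  rw [h]
  refine (Set.Countable.isConnected_compl_of_one_lt_rank (by simp) ?_).isPreconnected
  exact (countable_lattice L).union ((countable_lattice L).image _)

/-! ### The addition formula -/

/-- pure algebra: three collinear points of the cubic -/
theorem collinear_algebra {K : Type*} [CommRing K] (g2 g3 x1 y1 x2 y2 x3 y3 : K)
    (h1 : y1 ^ 2 = 4 * x1 ^ 3 - g2 * x1 - g3) (h2 : y2 ^ 2 = 4 * x2 ^ 3 - g2 * x2 - g3)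
    (h3 : y3 ^ 2 = 4 * x3 ^ 3 - g2 * x3 - g3)
    (hdet : x1 * (y2 - y3) - y1 * (x2 - x3) + (x2 * y3 - x3 * y2) = 0) :
    (4 * x3 * (x1 - x2) ^ 2 - (y1 - y2) ^ 2 + 4 * (x1 + x2) * (x1 - x2) ^ 2) *
      (x3 - x1) * (x3 - x2) = 0 := by
  linear_combination (-((x1 - x2) ^ 2)) * h3 -
    ((x1 - x2) * y3 + y1 * (x1 - x2) + (y1 - y2) * (x3 - x1)) * hdet +
    (x1 - x2) * (x3 - x2) * h1 - (x1 - x2) * (x3 - x1) * h2

/-- the numerator of the addition formula -/
def Rfun (u v : ℂ) : ℂ :=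
  4 * ℘[L] (u + v) * (℘[L] u - ℘[L] v) ^ 2 - (℘'[L] u - ℘'[L] v) ^ 2 +
    4 * (℘[L] u + ℘[L] v) * (℘[L] u - ℘[L] v) ^ 2

theorem Rfun_mul_eq_zero {u v : ℂ} (hu : u ∉ L.lattice) (hv : v ∉ L.lattice)
    (huv : u + v ∉ L.lattice) :
    Rfun L u v * (℘[L] (u + v) - ℘[L] u) * (℘[L] (u + v) - ℘[L] v) = 0 := by
  have h1 := L.derivWeierstrassP_sq u hu
  have h2 := L.derivWeierstrassP_sq v hv
  have h3 := L.derivWeierstrassP_sq (u + v) huv
  have hdet := det_eq_zero' L hu hv huv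
  refine collinear_algebra L.g₂ L.g₃ (℘[L] u) (℘'[L] u) (℘[L] v) (℘'[L] v) (℘[L] (u + v))
    (-℘'[L] (u + v)) h1 h2 (by rw [neg_sq]; exact h3) ?_
  linear_combination hdet

theorem analyticOnNhd_add_left (u : ℂ) :
    AnalyticOnNhd ℂ (fun v => ℘[L] (u + v)) (dom L u) := by
  intro v hv
  have h1 : AnalyticAt ℂ (fun w : ℂ => u + w) v := by fun_prop
  exact (analyticAt_weierstrassP L hv.2).comp (f := fun w : ℂ => u + w) h1

theorem analyticOnNhd_Rfun (u : ℂ) : AnalyticOnNhd ℂ (Rfun L u) (dom L u) := by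
  intro v hv
  have h1 := analyticOnNhd_add_left L u v hv
  have h2 := analyticAt_weierstrassP L hv.1
  have h3 := analyticAt_derivWeierstrassP L hv.1
  unfold Rfun
  fun_prop

theorem exists_mem_dom_ne_left {u : ℂ} (hu : u ∉ L.lattice) :
    ∃ v ∈ dom L u, ℘[L] (u + v) - ℘[L] u ≠ 0 := by
  have h1 := eventually_lt_norm_weierstrassP L ‖℘[L] u‖
  have h2 := eventually_ne_notMem_lattice_zero L
  have h3 : ∀ᶠ w in 𝓝 (0 : ℂ), w - u ∉ L.lattice := by
    have hcont : ContinuousAt (fun w : ℂ => w - u) 0 := by fun_prop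
    have hu' : (0 : ℂ) - u ∉ L.lattice := by
      intro h
      exact hu (by simpa using L.lattice.neg_mem h)
    exact hcont.eventually (eventually_notMem_lattice L hu')
  obtain ⟨w, hw1, hw2, hw3⟩ := (h1.and (h2.and (mem_nhdsWithin_of_mem_nhds h3))).exists
  refine ⟨w - u, ⟨hw3, by simpa using hw2⟩, ?_⟩
  rw [add_sub_cancel]
  intro h
  rw [sub_eq_zero] at h
  rw [h] at hw1
  exact lt_irrefl _ hw1

theorem exists_mem_dom_ne_right {u : ℂ} (hu : u ∉ L.lattice) :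
    ∃ v ∈ dom L u, ℘[L] (u + v) - ℘[L] v ≠ 0 := by
  have h2 := eventually_ne_notMem_lattice_zero L
  have hcont : ContinuousAt (fun w : ℂ => u + w) 0 := by fun_prop
  have h3 : ∀ᶠ w in 𝓝 (0 : ℂ), u + w ∉ L.lattice :=
    hcont.eventually (eventually_notMem_lattice L (by simpa using hu))
  have h4 : ∀ᶠ w in 𝓝 (0 : ℂ), ‖℘[L] (u + w)‖ < ‖℘[L] u‖ + 1 := by
    have hc : ContinuousAt (fun w : ℂ => ‖℘[L] (u + w)‖) 0 := by
      have : ContinuousAt ℘[L] (u + 0) := by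
        simpa using (analyticAt_weierstrassP L hu).continuousAt
      exact (this.comp (f := fun w : ℂ => u + w) hcont).norm
    have hlt : ‖℘[L] (u + 0)‖ < ‖℘[L] u‖ + 1 := by simp
    exact hc.eventually (gt_mem_nhds hlt)
  have h1 := eventually_lt_norm_weierstrassP L (‖℘[L] u‖ + 1)
  obtain ⟨w, hw1, hw2, hw3, hw4⟩ :=
    (h1.and (h2.and (mem_nhdsWithin_of_mem_nhds (h3.and h4)))).exists
  refine ⟨w, ⟨hw2, hw3⟩, ?_⟩
  intro h
  rw [sub_eq_zero] at h
  rw [h] at hw4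
  exact lt_irrefl _ (hw4.trans hw1)

theorem Rfun_eq_zero {u v : ℂ} (hu : u ∉ L.lattice) (hv : v ∉ L.lattice)
    (huv : u + v ∉ L.lattice) : Rfun L u v = 0 := by
  have hR := analyticOnNhd_Rfun L u
  have hP : AnalyticOnNhd ℂ (fun v => ℘[L] v) (dom L u) :=
    fun v hv => analyticAt_weierstrassP L hv.1
  have hf1 : AnalyticOnNhd ℂ (fun v => ℘[L] (u + v) - ℘[L] u) (dom L u) :=
    (analyticOnNhd_add_left L u).sub analyticOnNhd_const
  have hf2 : AnalyticOnNhd ℂ (fun v => ℘[L] (u + v) - ℘[L] v) (dom L u) :=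
    (analyticOnNhd_add_left L u).sub hP
  obtain ⟨v₁, hv₁, hne₁⟩ := exists_mem_dom_ne_left L hu
  obtain ⟨v₂, hv₂, hne₂⟩ := exists_mem_dom_ne_right L hu
  have step1 : ∀ z ∈ dom L u, Rfun L u z * (℘[L] (u + z) - ℘[L] z) = 0 := by
    refine eqOn_zero_of_mul_eqOn_zero hf1 (hR.mul hf2) (isPreconnected_dom L u) (isOpen_dom L u)
      (fun z hz => ?_) hv₁ hne₁
    have := Rfun_mul_eq_zero L hu hz.1 hz.2
    linear_combination this
  have step2 : ∀ z ∈ dom L u, Rfun L u z = 0 := by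
    refine eqOn_zero_of_mul_eqOn_zero hf2 hR (isPreconnected_dom L u) (isOpen_dom L u)
      (fun z hz => ?_) hv₂ hne₂
    have := step1 z hz
    linear_combination this
  exact step2 v ⟨hv, huv⟩

/-- **Addition theorem** for `℘` -/
theorem weierstrassP_add {u v : ℂ} (hu : u ∉ L.lattice) (hv : v ∉ L.lattice)
    (huv : u + v ∉ L.lattice) (hne : ℘[L] u ≠ ℘[L] v) :
    ℘[L] (u + v) = ((℘'[L] u - ℘'[L] v) / (℘[L] u - ℘[L] v)) ^ 2 / 4 - ℘[L] u - ℘[L] v := by
  have h := Rfun_eq_zero L hu hv huv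
  have hd : ℘[L] u - ℘[L] v ≠ 0 := sub_ne_zero.mpr hne
  unfold Rfun at h
  field_simp
  linear_combination h

/-- **Addition theorem** for `℘'` -/
theorem derivWeierstrassP_add {u v : ℂ} (hu : u ∉ L.lattice) (hv : v ∉ L.lattice)
    (huv : u + v ∉ L.lattice) (hne : ℘[L] u ≠ ℘[L] v) :
    ℘'[L] (u + v) = -((℘'[L] u - ℘'[L] v) / (℘[L] u - ℘[L] v) * (℘[L] (u + v) - ℘[L] u) +
      ℘'[L] u) := by
  have h := det_eq_zero' L hu hv huv
  have hd : ℘[L] u - ℘[L] v ≠ 0 := sub_ne_zero.mpr hne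
  field_simp
  linear_combination h

/-! ### Duplication -/

theorem hasDerivAt_derivWeierstrassP {u : ℂ} (hu : u ∉ L.lattice) (hd : ℘'[L] u ≠ 0) :
    HasDerivAt ℘'[L] (6 * ℘[L] u ^ 2 - L.g₂ / 2) u := by
  have h1 : HasDerivAt ℘'[L] (deriv ℘'[L] u) u :=
    (analyticAt_derivWeierstrassP L hu).differentiableAt.hasDerivAt
  have h2 := hasDerivAt_weierstrassP L hu
  have h3 : HasDerivAt (fun z => ℘'[L] z ^ 2) (2 * ℘'[L] u * deriv ℘'[L] u) u := by
    have := h1.fun_pow 2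
    simpa using this
  have h4 : HasDerivAt (fun z => 4 * ℘[L] z ^ 3 - L.g₂ * ℘[L] z - L.g₃)
      (4 * (3 * ℘[L] u ^ 2 * ℘'[L] u) - L.g₂ * ℘'[L] u) u := by
    have := (((h2.fun_pow 3).const_mul 4).sub (h2.const_mul L.g₂)).sub_const L.g₃
    simpa using this
  have h5 : (fun z => ℘'[L] z ^ 2) =ᶠ[𝓝 u] fun z => 4 * ℘[L] z ^ 3 - L.g₂ * ℘[L] z - L.g₃ := by
    filter_upwards [eventually_notMem_lattice L hu] with z hz
    exact L.derivWeierstrassP_sq z hz
  have h6 := (h3.congr_of_eventuallyEq h5.symm).unique h4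
  have h7 : deriv ℘'[L] u = 6 * ℘[L] u ^ 2 - L.g₂ / 2 := by
    have : 2 * ℘'[L] u ≠ 0 := mul_ne_zero two_ne_zero hd
    apply mul_left_cancel₀ this
    rw [h6]
    ring
  rwa [h7] at h1

/-- the limit of the slope of the chord -/
theorem tendsto_chord_slope {u : ℂ} (hu : u ∉ L.lattice) (hd : ℘'[L] u ≠ 0) :
    Tendsto (fun v => (℘'[L] u - ℘'[L] v) / (℘[L] u - ℘[L] v)) (𝓝[≠] u)
      (𝓝 ((6 * ℘[L] u ^ 2 - L.g₂ / 2) / ℘'[L] u)) := by
  have h1 := hasDerivAt_iff_tendsto_slope.mp (hasDerivAt_derivWeierstrassP L hu hd)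
  have h2 := hasDerivAt_iff_tendsto_slope.mp (hasDerivAt_weierstrassP L hu)
  have h3 := h1.div h2 hd
  refine h3.congr' ?_
  filter_upwards [self_mem_nhdsWithin] with v hv
  have hv' : v - u ≠ 0 := sub_ne_zero.mpr hv
  simp only [Pi.div_apply, slope, vsub_eq_sub, smul_eq_mul]
  rw [mul_div_mul_left _ _ (inv_ne_zero hv'), ← neg_sub (℘'[L] u), ← neg_sub (℘[L] u),
    neg_div_neg_eq]

theorem tendsto_add_self {f : ℂ → ℂ} {u : ℂ} (hf : ContinuousAt f (2 * u)) :
    Tendsto (fun v => f (u + v)) (𝓝[≠] u) (𝓝 (f (2 * u))) := by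
  have h1 : ContinuousAt (fun v : ℂ => u + v) u := by fun_prop
  have h2 : ContinuousAt f (u + u) := by rwa [← two_mul]
  have h3 := (h2.comp (f := fun v : ℂ => u + v) h1).tendsto
  rw [Function.comp_apply, ← two_mul] at h3
  exact h3.mono_left nhdsWithin_le_nhds

theorem eventually_add_props {u : ℂ} (hu : u ∉ L.lattice) (h2 : 2 * u ∉ L.lattice)
    (hd : ℘'[L] u ≠ 0) :
    ∀ᶠ v in 𝓝[≠] u, v ∉ L.lattice ∧ u + v ∉ L.lattice ∧ ℘[L] u ≠ ℘[L] v := by
  have h1 : ContinuousAt (fun v : ℂ => u + v) u := by fun_prop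
  have h3 : ∀ᶠ v in 𝓝 u, u + v ∉ L.lattice :=
    h1.eventually (eventually_notMem_lattice L (by show u + u ∉ L.lattice; rwa [← two_mul]))
  have h4 : ∀ᶠ z in 𝓝[≠] u, ℘[L] z ≠ ℘[L] u :=
    (hasDerivAt_weierstrassP L hu).eventually_ne hd
  filter_upwards [mem_nhdsWithin_of_mem_nhds (eventually_notMem_lattice L hu),
    mem_nhdsWithin_of_mem_nhds h3, h4] with v hv1 hv2 hv3
  exact ⟨hv1, hv2, fun h => hv3 h.symm⟩

/-- **Duplication formula** for `℘` -/
theorem weierstrassP_two_mul {u : ℂ} (hu : u ∉ L.lattice) (h2 : 2 * u ∉ L.lattice)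
    (hd : ℘'[L] u ≠ 0) :
    ℘[L] (2 * u) = ((6 * ℘[L] u ^ 2 - L.g₂ / 2) / ℘'[L] u) ^ 2 / 4 - 2 * ℘[L] u := by
  have hlhs : Tendsto (fun v => ℘[L] (u + v)) (𝓝[≠] u) (𝓝 (℘[L] (2 * u))) :=
    tendsto_add_self (analyticAt_weierstrassP L h2).continuousAt
  have hP : Tendsto (fun v => ℘[L] v) (𝓝[≠] u) (𝓝 (℘[L] u)) :=
    ((analyticAt_weierstrassP L hu).continuousAt.tendsto).mono_left nhdsWithin_le_nhds
  have hrhs : Tendsto (fun v => ((℘'[L] u - ℘'[L] v) / (℘[L] u - ℘[L] v)) ^ 2 / 4 -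
      ℘[L] u - ℘[L] v) (𝓝[≠] u)
      (𝓝 (((6 * ℘[L] u ^ 2 - L.g₂ / 2) / ℘'[L] u) ^ 2 / 4 - ℘[L] u - ℘[L] u)) :=
    ((((tendsto_chord_slope L hu hd).pow 2).div_const 4).sub tendsto_const_nhds).sub hP
  have heq : (fun v => ℘[L] (u + v)) =ᶠ[𝓝[≠] u] fun v =>
      ((℘'[L] u - ℘'[L] v) / (℘[L] u - ℘[L] v)) ^ 2 / 4 - ℘[L] u - ℘[L] v := by
    filter_upwards [eventually_add_props L hu h2 hd] with v hv
    exact weierstrassP_add L hu hv.1 hv.2.1 hv.2.2
  have := tendsto_nhds_unique (hlhs.congr' heq) hrhs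
  rw [this]
  ring

/-- **Duplication formula** for `℘'` -/
theorem derivWeierstrassP_two_mul {u : ℂ} (hu : u ∉ L.lattice) (h2 : 2 * u ∉ L.lattice)
    (hd : ℘'[L] u ≠ 0) :
    ℘'[L] (2 * u) = -((6 * ℘[L] u ^ 2 - L.g₂ / 2) / ℘'[L] u * (℘[L] (2 * u) - ℘[L] u) +
      ℘'[L] u) := by
  have hlhs : Tendsto (fun v => ℘'[L] (u + v)) (𝓝[≠] u) (𝓝 (℘'[L] (2 * u))) :=
    tendsto_add_self (analyticAt_derivWeierstrassP L h2).continuousAt
  have hP : Tendsto (fun v => ℘[L] (u + v)) (𝓝[≠] u) (𝓝 (℘[L] (2 * u))) :=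
    tendsto_add_self (analyticAt_weierstrassP L h2).continuousAt
  have hrhs : Tendsto (fun v => -((℘'[L] u - ℘'[L] v) / (℘[L] u - ℘[L] v) *
      (℘[L] (u + v) - ℘[L] u) + ℘'[L] u)) (𝓝[≠] u)
      (𝓝 (-((6 * ℘[L] u ^ 2 - L.g₂ / 2) / ℘'[L] u * (℘[L] (2 * u) - ℘[L] u) + ℘'[L] u))) :=
    (((tendsto_chord_slope L hu hd).mul (hP.sub tendsto_const_nhds)).add
      tendsto_const_nhds).neg
  have heq : (fun v => ℘'[L] (u + v)) =ᶠ[𝓝[≠] u] fun v =>
      -((℘'[L] u - ℘'[L] v) / (℘[L] u - ℘[L] v) * (℘[L] (u + v) - ℘[L] u) + ℘'[L] u) := by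
    filter_upwards [eventually_add_props L hu h2 hd] with v hv
    exact derivWeierstrassP_add L hu hv.1 hv.2.1 hv.2.2
  exact tendsto_nhds_unique (hlhs.congr' heq) hrhs

end Fermat.Agent.S13.CU.AddThm
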