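/-
PROJECT G (S13), complex uniformisation, part 1 (helper22): Liouville for doubly periodic functions.

* `eq_const_of_periodic` (A2): an entire function periodic w.r.t. a lattice is constant.
* `exists_const_of_periodic_of_order_nonneg` (A2'): a meromorphic lattice-periodic function without
  poles is constant off a discrete set (one call for products such as `(℘(z+s) - e)(℘ z - e)`).
* orders of `℘ - c`; `exists_weierstrassP_eq`, `exists_point` (A5): `z ↦ (℘ z, ℘' z)` is onto the
  affine curve `y² = 4x³ - g₂x - g₃`.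
Only Mathlib is used.
-/
import Mathlib

set_option autoImplicit false

noncomputable section

namespace Fermat.Agent.S13.CU.Liouville

open Complex Filter Topology
open scoped PeriodPair

variable (L : PeriodPair)

/-! ### (A2) Liouville for doubly periodic functions -/

/-- **(A2)** An entire function which is periodic with respect to a lattice is constant. -/
theorem eq_const_of_periodic {f : ℂ → ℂ} (hf : Differentiable ℂ f)
    (hper : ∀ z, ∀ l ∈ L.lattice, f (z + l) = f z) (z w : ℂ) : f z = f w :=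
  hf.apply_eq_apply_of_bounded (IsZLattice.isCompact_range_of_periodic L.lattice _
    hf.continuous fun z w hw => hper z w hw).isBounded z w

/-- **(A2')** A meromorphic function on `ℂ` which is periodic with respect to a lattice and has no
poles is constant on the complement of a discrete set: there is a constant `c` such that `f = c` on a
punctured neighbourhood of every point. -/
theorem exists_const_of_periodic_of_order_nonneg {f : ℂ → ℂ} (hf : Meromorphic f)
    (hper : ∀ z, ∀ l ∈ L.lattice, f (z + l) = f z)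
    (hord : ∀ z, 0 ≤ meromorphicOrderAt f z) :
    ∃ c : ℂ, ∀ z, f =ᶠ[𝓝[≠] z] fun _ => c := by
  have hfU : MeromorphicOn f Set.univ := meromorphicOn_univ.mpr hf
  set g : ℂ → ℂ := toMeromorphicNFOn f Set.univ with hg
  have hgf : ∀ z, g =ᶠ[𝓝[≠] z] f := fun z =>
    hfU.toMeromorphicNFOn_eq_self_on_nhdsNE (Set.mem_univ z)
  have hgNF : MeromorphicNFOn g Set.univ := meromorphicNFOn_toMeromorphicNFOn f Set.univ
  have hgan : ∀ z, AnalyticAt ℂ g z := by
    intro z
    rw [← (hgNF (Set.mem_univ z)).meromorphicOrderAt_nonneg_iff_analyticAt,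
      meromorphicOrderAt_congr (hgf z)]
    exact hord z
  have hgdiff : Differentiable ℂ g := fun z => (hgan z).differentiableAt
  have hgper : ∀ z, ∀ l ∈ L.lattice, g (z + l) = g z := by
    intro z l hl
    have h1 : Tendsto (fun w => g (w + l)) (𝓝[≠] z) (𝓝 (g (z + l))) := by
      have : ContinuousAt (fun w => g (w + l)) z :=
        (hgdiff.continuous.comp (continuous_id.add continuous_const)).continuousAt
      exact this.tendsto.mono_left nhdsWithin_le_nhds
    have h2 : Tendsto g (𝓝[≠] z) (𝓝 (g z)) :=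
      hgdiff.continuous.continuousAt.tendsto.mono_left nhdsWithin_le_nhds
    have h3 : (fun w => g (w + l)) =ᶠ[𝓝[≠] z] g := by
      have hmap : Tendsto (fun w => w + l) (𝓝[≠] z) (𝓝[≠] (z + l)) := by
        refine tendsto_nhdsWithin_of_tendsto_nhds_of_eventually_within _
          ((continuous_id.add continuous_const).continuousAt.tendsto.mono_left
            nhdsWithin_le_nhds) ?_
        filter_upwards [self_mem_nhdsWithin] with w hw
        simpa using hw
      filter_upwards [hmap.eventually (hgf (z + l)), hgf z] with w hw1 hw2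
      rw [hw1, hw2, hper w l hl]
    exact tendsto_nhds_unique (h1.congr' h3) h2
  refine ⟨g 0, fun z => ?_⟩
  filter_upwards [hgf z] with w hw
  rw [← hw]
  exact eq_const_of_periodic L hgdiff hgper w 0

/-- If moreover `f` is continuous at `z`, then `f z` is the constant. -/
theorem eq_of_eventuallyEq_const {f : ℂ → ℂ} {c z : ℂ} (h : f =ᶠ[𝓝[≠] z] fun _ => c)
    (hc : ContinuousAt f z) : f z = c := by
  have h1 : Tendsto f (𝓝[≠] z) (𝓝 (f z)) := hc.tendsto.mono_left nhdsWithin_le_nhds
  have h2 : Tendsto f (𝓝[≠] z) (𝓝 c) := tendsto_const_nhds.congr' h.symm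
  exact tendsto_nhds_unique h1 h2

/-! ### Orders of `℘ - c` -/

theorem meromorphicAt_weierstrassP_sub_const (c z : ℂ) :
    MeromorphicAt (fun w => ℘[L] w - c) z :=
  (L.meromorphic_weierstrassP z).sub (MeromorphicAt.const c z)

theorem meromorphic_weierstrassP_sub_const (c : ℂ) : Meromorphic (fun w => ℘[L] w - c) :=
  fun z => meromorphicAt_weierstrassP_sub_const L c z

theorem order_weierstrassP_sub_const (c : ℂ) {l₀ : ℂ} (h : l₀ ∈ L.lattice) :
    meromorphicOrderAt (fun w => ℘[L] w - c) l₀ = -2 := by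
  have h1 : (fun w => ℘[L] w - c) = ℘[L] + fun _ => -c := by
    funext w
    simp [sub_eq_add_neg]
  have hc : MeromorphicAt (fun _ : ℂ => -c) l₀ := MeromorphicAt.const _ _
  have hlt : meromorphicOrderAt ℘[L] l₀ < meromorphicOrderAt (fun _ : ℂ => -c) l₀ := by
    rw [L.order_weierstrassP l₀ h]
    have h2 : ((-2 : ℤ) : WithTop ℤ) < 0 := by exact_mod_cast (by norm_num : (-2 : ℤ) < 0)
    exact lt_of_lt_of_le h2 (analyticAt_const.meromorphicOrderAt_nonneg)
  rw [h1, meromorphicOrderAt_add_eq_left_of_lt hc hlt, L.order_weierstrassP l₀ h]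

theorem analyticAt_weierstrassP_sub_const (c : ℂ) {z : ℂ} (hz : z ∉ L.lattice) :
    AnalyticAt ℂ (fun w => ℘[L] w - c) z :=
  (L.analyticOnNhd_weierstrassP z hz).sub analyticAt_const

theorem weierstrassP_add_mem (z : ℂ) {l : ℂ} (hl : l ∈ L.lattice) : ℘[L] (z + l) = ℘[L] z :=
  L.weierstrassP_add_coe z ⟨l, hl⟩

theorem derivWeierstrassP_add_mem (z : ℂ) {l : ℂ} (hl : l ∈ L.lattice) :
    ℘'[L] (z + l) = ℘'[L] z :=
  L.derivWeierstrassP_add_coe z ⟨l, hl⟩

/-! ### (A5) Surjectivity -/

/-- **(A5)** `℘` takes every value. -/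
theorem exists_weierstrassP_eq (x₀ : ℂ) : ∃ z, z ∉ L.lattice ∧ ℘[L] z = x₀ := by
  by_contra hcon
  push Not at hcon
  set f : ℂ → ℂ := fun z => (℘[L] z - x₀)⁻¹ with hf
  have hmer : Meromorphic f := fun z => (meromorphicAt_weierstrassP_sub_const L x₀ z).inv
  have hper : ∀ z, ∀ l ∈ L.lattice, f (z + l) = f z := by
    intro z l hl
    simp only [hf, weierstrassP_add_mem L z hl]
  have hinv : ∀ z, meromorphicOrderAt f z = -meromorphicOrderAt (fun w => ℘[L] w - x₀) z :=
    fun z => meromorphicOrderAt_inv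
  have hord : ∀ z, 0 ≤ meromorphicOrderAt f z := by
    intro z
    rw [hinv]
    by_cases hz : z ∈ L.lattice
    · rw [order_weierstrassP_sub_const L x₀ hz]
      norm_num
    · have han := analyticAt_weierstrassP_sub_const L x₀ hz
      have hne : ℘[L] z - x₀ ≠ 0 := sub_ne_zero.mpr (hcon z hz)
      rw [han.meromorphicOrderAt_eq, han.analyticOrderAt_eq_zero.mpr hne]
      simp
  obtain ⟨c, hc⟩ := exists_const_of_periodic_of_order_nonneg L hmer hper hord
  have h0 : meromorphicOrderAt f 0 = 2 := by
    rw [hinv, order_weierstrassP_sub_const L x₀ (zero_mem _)]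
    norm_num
  have h1 : meromorphicOrderAt f 0 = meromorphicOrderAt (fun _ : ℂ => c) 0 :=
    meromorphicOrderAt_congr (hc 0)
  classical
  rw [h0, meromorphicOrderAt_const] at h1
  split_ifs at h1 <;> simp at h1

/-- **(A5)** Every point of the affine curve `y² = 4x³ - g₂x - g₃` is `(℘ z, ℘' z)`. -/
theorem exists_point {x y : ℂ} (h : y ^ 2 = 4 * x ^ 3 - L.g₂ * x - L.g₃) :
    ∃ z, z ∉ L.lattice ∧ ℘[L] z = x ∧ ℘'[L] z = y := by
  obtain ⟨z, hz, hzx⟩ := exists_weierstrassP_eq L x
  have hsq : ℘'[L] z ^ 2 = y ^ 2 := by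
    rw [L.derivWeierstrassP_sq z hz, hzx, h]
  rcases sq_eq_sq_iff_eq_or_eq_neg.mp hsq with h1 | h1
  · exact ⟨z, hz, hzx, h1⟩
  · refine ⟨-z, ?_, ?_, ?_⟩
    · intro hmem
      exact hz (by simpa using L.lattice.neg_mem hmem)
    · rw [L.weierstrassP_neg, hzx]
    · rw [L.derivWeierstrassP_neg, h1, neg_neg]

end Fermat.Agent.S13.CU.Liouville
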