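/-
PROJECT G (S13), complex uniformisation, part 2 (helper22): the half periods (A3).

For a half period `h` (`h ∉ Λ`, `2h ∈ Λ`): `℘' h = 0`, `℘ - ℘ h` vanishes to order `≥ 2` at `h`, and the
**half-period identity** `(℘ (z + h) - ℘ h)(℘ z - ℘ h) = c ≠ 0` (Liouville).  Consequences: distinct
half periods give distinct values, `e₁, e₂, e₃` are pairwise distinct, `e₁ + e₂ + e₃ = 0`,
`4x³ - g₂x - g₃ = 4(x - e₁)(x - e₂)(x - e₃)`, `g₂³ - 27 g₃² ≠ 0`, and the constant is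
`(e' - e)(e'' - e)`.
-/
import Fermat.Agent.S13.CU.Liouville

set_option autoImplicit false

noncomputable section

namespace Fermat.Agent.S13.CU.HalfPeriods

open Complex Filter Topology
open scoped PeriodPair
open Fermat.Agent.S13.CU.Liouville

variable (L : PeriodPair)

/-! ### Half periods -/

/-- `℘'` vanishes at the half periods. -/
theorem derivWeierstrassP_half {h : ℂ} (h2 : 2 * h ∈ L.lattice) : ℘'[L] h = 0 := by
  have h1 : ℘'[L] h = ℘'[L] (-h) := by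
    have : -h = h - (2 * h) := by ring
    rw [this, L.derivWeierstrassP_sub_coe h ⟨2 * h, h2⟩]
  rw [L.derivWeierstrassP_neg] at h1
  have : (2 : ℂ) * ℘'[L] h = 0 := by linear_combination h1
  simpa using this

/-- `℘ - c` has finite order everywhere. -/
theorem order_weierstrassP_sub_const_ne_top (c z : ℂ) :
    meromorphicOrderAt (fun w => ℘[L] w - c) z ≠ ⊤ := by
  have hmer : MeromorphicOn (fun w => ℘[L] w - c) Set.univ :=
    meromorphicOn_univ.mpr (meromorphic_weierstrassP_sub_const L c)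
  refine hmer.meromorphicOrderAt_ne_top_of_isPreconnected isPreconnected_univ
    (Set.mem_univ (0 : ℂ)) (Set.mem_univ z) ?_
  rw [order_weierstrassP_sub_const L c (zero_mem _)]
  exact WithTop.coe_ne_top

/-- `℘ - ℘ h` vanishes to order at least two at a half period `h`. -/
theorem two_le_order_half {h : ℂ} (hh : h ∉ L.lattice) (h2 : 2 * h ∈ L.lattice) :
    2 ≤ meromorphicOrderAt (fun w => ℘[L] w - ℘[L] h) h := by
  have han := analyticAt_weierstrassP_sub_const L (℘[L] h) hh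
  have h2' : ((2 : ℕ) : ℕ∞) ≤ analyticOrderAt (fun w => ℘[L] w - ℘[L] h) h := by
    rw [natCast_le_analyticOrderAt_iff_iteratedDeriv_eq_zero han]
    intro i hi
    interval_cases i
    · simp
    · rw [iteratedDeriv_one]
      have hd : deriv (fun w => ℘[L] w - ℘[L] h) h = deriv ℘[L] h := by
        rw [deriv_sub_const]
      rw [hd, L.deriv_weierstrassP, derivWeierstrassP_half L h2]
  rw [han.meromorphicOrderAt_eq]
  cases hn : analyticOrderAt (fun w => ℘[L] w - ℘[L] h) h with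
  | top => simp
  | coe n =>
    rw [hn] at h2'
    have : 2 ≤ n := by exact_mod_cast h2'
    simp only [ENat.map_natCast]
    have h3 : (2 : ℤ) ≤ (n : ℤ) := by exact_mod_cast this
    have h4 : ((2 : ℤ) : WithTop ℤ) ≤ ((n : ℤ) : WithTop ℤ) := WithTop.coe_le_coe.mpr h3
    exact h4

/-- The order of `℘ - c` is invariant under translation by the lattice. -/
theorem order_weierstrassP_sub_const_add_mem (c z : ℂ) {l : ℂ} (hl : l ∈ L.lattice) :
    meromorphicOrderAt (fun w => ℘[L] w - c) (z + l) =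
      meromorphicOrderAt (fun w => ℘[L] w - c) z := by
  have h1 : (fun w => (fun w => ℘[L] w - c) (w + l)) = fun w => ℘[L] w - c := by
    funext w
    simp only [weierstrassP_add_mem L w hl]
  rw [← meromorphicOrderAt_fun_comp_add_const_eq_meromorphicOrderAt
    (f := fun w => ℘[L] w - c) (c := l) (x := z), h1]

/-- Orders of `℘ - c` off the lattice are nonnegative. -/
theorem order_weierstrassP_sub_const_nonneg (c : ℂ) {z : ℂ} (hz : z ∉ L.lattice) :
    0 ≤ meromorphicOrderAt (fun w => ℘[L] w - c) z :=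
  (analyticAt_weierstrassP_sub_const L c hz).meromorphicOrderAt_nonneg

/-- The half-period product `(℘ (z + h) - ℘ h) (℘ z - ℘ h)`. -/
def halfProd (h z : ℂ) : ℂ := (℘[L] (z + h) - ℘[L] h) * (℘[L] z - ℘[L] h)

theorem halfProd_order_nonneg {h : ℂ} (hh : h ∉ L.lattice) (h2 : 2 * h ∈ L.lattice) (z : ℂ) :
    0 ≤ meromorphicOrderAt (halfProd L h) z := by
  set A : ℂ → ℂ := fun w => ℘[L] w - ℘[L] h with hA
  have hAm : Meromorphic A := meromorphic_weierstrassP_sub_const L _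
  have hBm : Meromorphic (fun w => A (w + h)) :=
    Meromorphic.meromorphic_fun_comp_add_const_iff_meromorphic.mpr hAm
  have hprod : halfProd L h = (fun w => A (w + h)) * A := by
    funext w
    simp [halfProd, hA]
  have hordB : meromorphicOrderAt (fun w => A (w + h)) z = meromorphicOrderAt A (z + h) :=
    meromorphicOrderAt_fun_comp_add_const_eq_meromorphicOrderAt
  rw [hprod, meromorphicOrderAt_mul (hBm z) (hAm z), hordB]
  by_cases hz : z ∈ L.lattice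
  · -- `z ∈ Λ`: `A` has a double pole at `z` and a double zero at `z + h`
    have h1 : meromorphicOrderAt A z = -2 := order_weierstrassP_sub_const L _ hz
    have h3 : meromorphicOrderAt A (z + h) = meromorphicOrderAt A h := by
      rw [add_comm]
      exact order_weierstrassP_sub_const_add_mem L _ h hz
    have h4 := two_le_order_half L hh h2
    rw [h1, h3]
    calc (0 : WithTop ℤ) = 2 + (-2) := by norm_num
      _ ≤ meromorphicOrderAt A h + (-2) := add_le_add_left h4 _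
  · by_cases hzh : z + h ∈ L.lattice
    · -- `z + h ∈ Λ`: `A` has a double pole at `z + h` and a double zero at `z`
      have h1 : meromorphicOrderAt A (z + h) = -2 := order_weierstrassP_sub_const L _ hzh
      have hz' : z = h + (z + h - 2 * h) := by ring
      have hmem : z + h - 2 * h ∈ L.lattice := L.lattice.sub_mem hzh h2
      have h3 : meromorphicOrderAt A z = meromorphicOrderAt A h := by
        conv_lhs => rw [hz']
        exact order_weierstrassP_sub_const_add_mem L _ h hmem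
      have h4 := two_le_order_half L hh h2
      rw [h1, h3]
      calc (0 : WithTop ℤ) = (-2) + 2 := by norm_num
        _ ≤ (-2) + meromorphicOrderAt A h := add_le_add_right h4 _
    · exact add_nonneg (order_weierstrassP_sub_const_nonneg L _ hzh)
        (order_weierstrassP_sub_const_nonneg L _ hz)

theorem halfProd_add_mem (h z : ℂ) {l : ℂ} (hl : l ∈ L.lattice) :
    halfProd L h (z + l) = halfProd L h z := by
  have : z + l + h = z + h + l := by ring
  simp only [halfProd, this, weierstrassP_add_mem L _ hl]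

theorem meromorphic_halfProd (h : ℂ) : Meromorphic (halfProd L h) := by
  have hAm : Meromorphic (fun w => ℘[L] w - ℘[L] h) := meromorphic_weierstrassP_sub_const L _
  have hBm : Meromorphic (fun w => (fun w => ℘[L] w - ℘[L] h) (w + h)) :=
    Meromorphic.meromorphic_fun_comp_add_const_iff_meromorphic.mpr hAm
  intro z
  exact (hBm z).mul (hAm z)

theorem continuousAt_halfProd (h : ℂ) {z : ℂ} (hz : z ∉ L.lattice) (hzh : z + h ∉ L.lattice) :
    ContinuousAt (halfProd L h) z := by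
  have h1 : ContinuousAt ℘[L] z := (L.analyticOnNhd_weierstrassP z hz).continuousAt
  have h2 : ContinuousAt ℘[L] (z + h) := (L.analyticOnNhd_weierstrassP (z + h) hzh).continuousAt
  have h3 : ContinuousAt (fun w => ℘[L] (w + h)) z :=
    ContinuousAt.comp (f := fun w : ℂ => w + h) (g := ℘[L]) h2
      (continuous_id.add continuous_const).continuousAt
  exact (h3.sub continuousAt_const).mul (h1.sub continuousAt_const)

/-- **The half-period identity**: `(℘ (z + h) - ℘ h) (℘ z - ℘ h)` is a nonzero constant. -/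
theorem exists_halfProd_eq {h : ℂ} (hh : h ∉ L.lattice) (h2 : 2 * h ∈ L.lattice) :
    ∃ c : ℂ, c ≠ 0 ∧ ∀ z, z ∉ L.lattice → z + h ∉ L.lattice → halfProd L h z = c := by
  obtain ⟨c, hc⟩ := exists_const_of_periodic_of_order_nonneg L (meromorphic_halfProd L h)
    (fun z l hl => halfProd_add_mem L h z hl) (halfProd_order_nonneg L hh h2)
  refine ⟨c, ?_, fun z hz hzh => eq_of_eventuallyEq_const (hc z) (continuousAt_halfProd L h hz hzh)⟩
  rintro rfl
  -- the order of the product at `0` would be `⊤`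
  have htop : meromorphicOrderAt (halfProd L h) 0 = ⊤ :=
    meromorphicOrderAt_eq_top_iff.mpr (hc 0)
  set A : ℂ → ℂ := fun w => ℘[L] w - ℘[L] h with hA
  have hAm : Meromorphic A := meromorphic_weierstrassP_sub_const L _
  have hBm : Meromorphic (fun w => A (w + h)) :=
    Meromorphic.meromorphic_fun_comp_add_const_iff_meromorphic.mpr hAm
  have hprod : halfProd L h = (fun w => A (w + h)) * A := by
    funext w
    simp [halfProd, hA]
  have hordB : meromorphicOrderAt (fun w => A (w + h)) 0 = meromorphicOrderAt A (0 + h) :=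
    meromorphicOrderAt_fun_comp_add_const_eq_meromorphicOrderAt
  rw [hprod, meromorphicOrderAt_mul (hBm 0) (hAm 0), hordB] at htop
  rcases WithTop.add_eq_top.mp htop with h1 | h1
  · exact order_weierstrassP_sub_const_ne_top L _ _ h1
  · exact order_weierstrassP_sub_const_ne_top L _ _ h1

/-- **Distinct half periods give distinct values of `℘`.** -/
theorem weierstrassP_half_ne {h h' : ℂ} (hh : h ∉ L.lattice) (h2 : 2 * h ∈ L.lattice)
    (hh' : h' ∉ L.lattice) (hne : h' - h ∉ L.lattice) : ℘[L] h' ≠ ℘[L] h := by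
  obtain ⟨c, hc0, hc⟩ := exists_halfProd_eq L hh h2
  intro heq
  have hsum : h' + h ∉ L.lattice := by
    intro hmem
    apply hne
    have : h' - h = h' + h - 2 * h := by ring
    rw [this]
    exact L.lattice.sub_mem hmem h2
  have := hc h' hh' hsum
  rw [halfProd, heq, sub_self, mul_zero] at this
  exact hc0 this.symm

/-- The value of the constant: `(℘ (h' + h) - ℘ h) (℘ h' - ℘ h)` for any other half period `h'`. -/
theorem halfProd_eq {h h' : ℂ} (hh : h ∉ L.lattice) (h2 : 2 * h ∈ L.lattice)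
    (hh' : h' ∉ L.lattice) (hne : h' + h ∉ L.lattice) {z : ℂ} (hz : z ∉ L.lattice)
    (hzh : z + h ∉ L.lattice) :
    (℘[L] (z + h) - ℘[L] h) * (℘[L] z - ℘[L] h) =
      (℘[L] (h' + h) - ℘[L] h) * (℘[L] h' - ℘[L] h) := by
  obtain ⟨c, -, hc⟩ := exists_halfProd_eq L hh h2
  have h1 := hc z hz hzh
  have h3 := hc h' hh' hne
  simp only [halfProd] at h1 h3
  rw [h1, h3]

/-! ### The three roots `e₁, e₂, e₃` -/

/-- `e₁ = ℘ (ω₁ / 2)`. -/
def e₁ : ℂ := ℘[L] (L.ω₁ / 2)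

/-- `e₂ = ℘ (ω₂ / 2)`. -/
def e₂ : ℂ := ℘[L] (L.ω₂ / 2)

/-- `e₃ = ℘ ((ω₁ + ω₂) / 2)`. -/
def e₃ : ℂ := ℘[L] ((L.ω₁ + L.ω₂) / 2)

theorem two_mul_ω₁_div_two_mem : 2 * (L.ω₁ / 2) ∈ L.lattice := by
  rw [mul_div_cancel₀ _ (two_ne_zero)]
  exact L.ω₁_mem_lattice

theorem two_mul_ω₂_div_two_mem : 2 * (L.ω₂ / 2) ∈ L.lattice := by
  rw [mul_div_cancel₀ _ (two_ne_zero)]
  exact L.ω₂_mem_lattice

theorem two_mul_ω₃_div_two_mem : 2 * ((L.ω₁ + L.ω₂) / 2) ∈ L.lattice := by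
  rw [mul_div_cancel₀ _ (two_ne_zero)]
  exact L.lattice.add_mem L.ω₁_mem_lattice L.ω₂_mem_lattice

theorem ω₃_div_two_notMem_lattice : (L.ω₁ + L.ω₂) / 2 ∉ L.lattice := by
  have := (L.mul_ω₁_add_mul_ω₂_mem_lattice (α := 1 / 2) (β := 1 / 2)).not.mpr (by norm_num)
  have h : ((1 / 2 : ℚ) : ℂ) * L.ω₁ + ((1 / 2 : ℚ) : ℂ) * L.ω₂ = (L.ω₁ + L.ω₂) / 2 := by
    push_cast
    ring
  rwa [h] at this

theorem ω₂_sub_ω₁_div_two_notMem_lattice : L.ω₂ / 2 - L.ω₁ / 2 ∉ L.lattice := by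
  have := (L.mul_ω₁_add_mul_ω₂_mem_lattice (α := -(1 / 2)) (β := 1 / 2)).not.mpr (by norm_num)
  have h : ((-(1 / 2) : ℚ) : ℂ) * L.ω₁ + ((1 / 2 : ℚ) : ℂ) * L.ω₂ = L.ω₂ / 2 - L.ω₁ / 2 := by
    push_cast
    ring
  rwa [h] at this

theorem e₂_ne_e₁ : e₂ L ≠ e₁ L :=
  weierstrassP_half_ne L L.ω₁_div_two_notMem_lattice (two_mul_ω₁_div_two_mem L)
    L.ω₂_div_two_notMem_lattice (ω₂_sub_ω₁_div_two_notMem_lattice L)

theorem e₃_ne_e₁ : e₃ L ≠ e₁ L := by
  refine weierstrassP_half_ne L L.ω₁_div_two_notMem_lattice (two_mul_ω₁_div_two_mem L)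
    (ω₃_div_two_notMem_lattice L) ?_
  have : (L.ω₁ + L.ω₂) / 2 - L.ω₁ / 2 = L.ω₂ / 2 := by ring
  rw [this]
  exact L.ω₂_div_two_notMem_lattice

theorem e₃_ne_e₂ : e₃ L ≠ e₂ L := by
  refine weierstrassP_half_ne L L.ω₂_div_two_notMem_lattice (two_mul_ω₂_div_two_mem L)
    (ω₃_div_two_notMem_lattice L) ?_
  have : (L.ω₁ + L.ω₂) / 2 - L.ω₂ / 2 = L.ω₁ / 2 := by ring
  rw [this]
  exact L.ω₁_div_two_notMem_lattice

/-- A half period value is a root of the cubic. -/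
theorem cubic_half_eq_zero {h : ℂ} (hh : h ∉ L.lattice) (h2 : 2 * h ∈ L.lattice) :
    4 * ℘[L] h ^ 3 - L.g₂ * ℘[L] h - L.g₃ = 0 := by
  rw [← L.derivWeierstrassP_sq h hh, derivWeierstrassP_half L h2]
  ring

theorem cubic_e₁ : 4 * e₁ L ^ 3 - L.g₂ * e₁ L - L.g₃ = 0 :=
  cubic_half_eq_zero L L.ω₁_div_two_notMem_lattice (two_mul_ω₁_div_two_mem L)

theorem cubic_e₂ : 4 * e₂ L ^ 3 - L.g₂ * e₂ L - L.g₃ = 0 :=
  cubic_half_eq_zero L L.ω₂_div_two_notMem_lattice (two_mul_ω₂_div_two_mem L)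

theorem cubic_e₃ : 4 * e₃ L ^ 3 - L.g₂ * e₃ L - L.g₃ = 0 :=
  cubic_half_eq_zero L (ω₃_div_two_notMem_lattice L) (two_mul_ω₃_div_two_mem L)

/-- `e₁ + e₂ + e₃ = 0`. -/
theorem e_sum : e₁ L + e₂ L + e₃ L = 0 := by
  have h1 := cubic_e₁ L
  have h2 := cubic_e₂ L
  have h3 := cubic_e₃ L
  have h12 : (e₂ L - e₁ L) ≠ 0 := sub_ne_zero.mpr (e₂_ne_e₁ L)
  have h13 : (e₃ L - e₁ L) ≠ 0 := sub_ne_zero.mpr (e₃_ne_e₁ L)
  have h23 : (e₃ L - e₂ L) ≠ 0 := sub_ne_zero.mpr (e₃_ne_e₂ L)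
  -- `g₂ = 4 (e₁² + e₁ e₂ + e₂²) = 4 (e₁² + e₁ e₃ + e₃²)`
  have ha : L.g₂ = 4 * (e₁ L ^ 2 + e₁ L * e₂ L + e₂ L ^ 2) := by
    apply mul_left_cancel₀ h12
    linear_combination h1 - h2
  have hb : L.g₂ = 4 * (e₁ L ^ 2 + e₁ L * e₃ L + e₃ L ^ 2) := by
    apply mul_left_cancel₀ h13
    linear_combination h1 - h3
  have hc : (e₃ L - e₂ L) * (e₁ L + e₂ L + e₃ L) = 0 := by
    linear_combination (-1 / 4 : ℂ) * (hb - ha)
  exact (mul_eq_zero.mp hc).resolve_left h23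

theorem g₂_eq : L.g₂ = -4 * (e₁ L * e₂ L + e₁ L * e₃ L + e₂ L * e₃ L) := by
  have h1 := cubic_e₁ L
  have h2 := cubic_e₂ L
  have h12 : (e₂ L - e₁ L) ≠ 0 := sub_ne_zero.mpr (e₂_ne_e₁ L)
  have hs := e_sum L
  have ha : L.g₂ = 4 * (e₁ L ^ 2 + e₁ L * e₂ L + e₂ L ^ 2) := by
    apply mul_left_cancel₀ h12
    linear_combination h1 - h2
  have h3 : e₃ L = -(e₁ L + e₂ L) := by linear_combination hs
  rw [ha, h3]
  ring

theorem g₃_eq : L.g₃ = 4 * (e₁ L * e₂ L * e₃ L) := by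
  have h1 := cubic_e₁ L
  have hg := g₂_eq L
  have hs := e_sum L
  have h3 : e₃ L = -(e₁ L + e₂ L) := by linear_combination hs
  rw [h3] at hg ⊢
  linear_combination (-1 : ℂ) * h1 - e₁ L * hg

/-- **The cubic factors**: `4x³ - g₂x - g₃ = 4 (x - e₁)(x - e₂)(x - e₃)`. -/
theorem cubic_eq (x : ℂ) :
    4 * x ^ 3 - L.g₂ * x - L.g₃ = 4 * ((x - e₁ L) * (x - e₂ L) * (x - e₃ L)) := by
  have hs := e_sum L
  have h3 : e₃ L = -(e₁ L + e₂ L) := by linear_combination hs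
  rw [g₂_eq L, g₃_eq L, h3]
  ring

/-- **The discriminant**: `g₂³ - 27 g₃² = 16 (e₁-e₂)² (e₁-e₃)² (e₂-e₃)² ≠ 0`. -/
theorem discr_eq :
    L.g₂ ^ 3 - 27 * L.g₃ ^ 2 =
      16 * ((e₁ L - e₂ L) ^ 2 * (e₁ L - e₃ L) ^ 2 * (e₂ L - e₃ L) ^ 2) := by
  have hs := e_sum L
  have h3 : e₃ L = -(e₁ L + e₂ L) := by linear_combination hs
  rw [g₂_eq L, g₃_eq L, h3]
  ring

theorem discr_ne_zero : L.g₂ ^ 3 - 27 * L.g₃ ^ 2 ≠ 0 := by
  rw [discr_eq]
  have h12 : (e₁ L - e₂ L) ≠ 0 := sub_ne_zero.mpr (e₂_ne_e₁ L).symm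
  have h13 : (e₁ L - e₃ L) ≠ 0 := sub_ne_zero.mpr (e₃_ne_e₁ L).symm
  have h23 : (e₂ L - e₃ L) ≠ 0 := sub_ne_zero.mpr (e₃_ne_e₂ L).symm
  exact mul_ne_zero (by norm_num) (mul_ne_zero (mul_ne_zero (pow_ne_zero 2 h12)
    (pow_ne_zero 2 h13)) (pow_ne_zero 2 h23))

/-! ### The half-period identities in terms of `e₁, e₂, e₃` -/

theorem halfProd_ω₁ {z : ℂ} (hz : z ∉ L.lattice) (hzh : z + L.ω₁ / 2 ∉ L.lattice) :
    (℘[L] (z + L.ω₁ / 2) - e₁ L) * (℘[L] z - e₁ L) = (e₃ L - e₁ L) * (e₂ L - e₁ L) := by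
  have hne : L.ω₂ / 2 + L.ω₁ / 2 ∉ L.lattice := by
    have : L.ω₂ / 2 + L.ω₁ / 2 = (L.ω₁ + L.ω₂) / 2 := by ring
    rw [this]
    exact ω₃_div_two_notMem_lattice L
  have := halfProd_eq L L.ω₁_div_two_notMem_lattice (two_mul_ω₁_div_two_mem L)
    L.ω₂_div_two_notMem_lattice hne hz hzh
  have h3 : L.ω₂ / 2 + L.ω₁ / 2 = (L.ω₁ + L.ω₂) / 2 := by ring
  rw [h3] at this
  exact this

theorem halfProd_ω₂ {z : ℂ} (hz : z ∉ L.lattice) (hzh : z + L.ω₂ / 2 ∉ L.lattice) :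
    (℘[L] (z + L.ω₂ / 2) - e₂ L) * (℘[L] z - e₂ L) = (e₃ L - e₂ L) * (e₁ L - e₂ L) := by
  have h3 : L.ω₁ / 2 + L.ω₂ / 2 = (L.ω₁ + L.ω₂) / 2 := by ring
  have hne : L.ω₁ / 2 + L.ω₂ / 2 ∉ L.lattice := by
    rw [h3]
    exact ω₃_div_two_notMem_lattice L
  have := halfProd_eq L L.ω₂_div_two_notMem_lattice (two_mul_ω₂_div_two_mem L)
    L.ω₁_div_two_notMem_lattice hne hz hzh
  rw [h3] at this
  exact this

theorem halfProd_ω₃ {z : ℂ} (hz : z ∉ L.lattice) (hzh : z + (L.ω₁ + L.ω₂) / 2 ∉ L.lattice) :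
    (℘[L] (z + (L.ω₁ + L.ω₂) / 2) - e₃ L) * (℘[L] z - e₃ L) =
      (e₂ L - e₃ L) * (e₁ L - e₃ L) := by
  have h3 : L.ω₁ / 2 + (L.ω₁ + L.ω₂) / 2 = L.ω₂ / 2 + L.ω₁ := by ring
  have hne : L.ω₁ / 2 + (L.ω₁ + L.ω₂) / 2 ∉ L.lattice := by
    rw [h3]
    intro hmem
    apply L.ω₂_div_two_notMem_lattice
    have : L.ω₂ / 2 = L.ω₂ / 2 + L.ω₁ - L.ω₁ := by ring
    rw [this]
    exact L.lattice.sub_mem hmem L.ω₁_mem_lattice
  have := halfProd_eq L (ω₃_div_two_notMem_lattice L) (two_mul_ω₃_div_two_mem L)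
    L.ω₁_div_two_notMem_lattice hne hz hzh
  rw [h3, weierstrassP_add_mem L _ L.ω₁_mem_lattice] at this
  exact this

end Fermat.Agent.S13.CU.HalfPeriods
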