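/-
PROJECT G (S13), slice G-CU (A6) FINAL (helper7): the UNCONDITIONAL uniformisation isomorphism
`ℂ ⧸ Λ ≃+ E_Λ(ℂ)` for `shortOf L : Y² = X³ - (g₂/4) X - g₃/4`, `z ↦ (℘ z, ℘' z / 2)`.

Glue of: `CU/UnifHom` (group law bookkeeping), `CU/AddThm` (addition theorem), `Unif/Injective`
(`℘ u = ℘ w ↔ u ≡ ± w`), `CU/HalfPeriods` (discriminant), `CU/Liouville` (surjectivity),
with the interface vocabulary of `S13/Iface` (`xc`).
-/
import Mathlib
import Fermat.Agent.S13.Iface
import Fermat.Agent.S13.CU.UnifHom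
import Fermat.Agent.S13.CU.AddThm
import Fermat.Agent.S13.CU.HalfPeriods
import Fermat.Agent.S13.Unif.Injective

set_option autoImplicit false

noncomputable section

namespace Fermat.Agent.S13.CU.UnifIso

open scoped PeriodPair
open Fermat.Agent.S13.CU.Defs
open WeierstrassCurve.Affine

variable (L : PeriodPair)

/-- All analytic inputs of `UnifHom` hold. -/
theorem addData : UnifHom.AddData L where
  disc := HalfPeriods.discr_ne_zero L
  inj _ _ hu hv h := (Unif.Injective.weierstrassP_eq_iff L hu hv).mp h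
  add_x _ _ hu hv huv hne := AddThm.weierstrassP_add L hu hv huv hne
  add_y _ _ hu hv huv hne := AddThm.derivWeierstrassP_add L hu hv huv hne

/-- Every point `(℘ z, ℘' z / 2)`, `z ∉ Λ`, is a nonsingular point of `shortOf L`. -/
theorem nonsingular {z : ℂ} (hz : z ∉ L.lattice) :
    (shortOf L).toAffine.Nonsingular (℘[L] z) (℘'[L] z / 2) :=
  UnifHom.nonsingular_wp L (HalfPeriods.discr_ne_zero L) hz

/-- The uniformisation homomorphism `ℂ →+ E_Λ(ℂ)`, `z ↦ (℘ z, ℘' z / 2)`, `Λ ↦ 0`. -/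
def toPoint : ℂ →+ (shortOf L).toAffine.Point := UnifHom.toPoint (addData L)

theorem toPoint_of_mem {z : ℂ} (hz : z ∈ L.lattice) : toPoint L z = 0 :=
  UnifHom.toPoint_of_mem (addData L) hz

theorem toPoint_of_not_mem {z : ℂ} (hz : z ∉ L.lattice) :
    toPoint L z = Point.some _ _ (nonsingular L hz) :=
  UnifHom.toPoint_of_not_mem (addData L) hz

theorem toPoint_eq_zero_iff {z : ℂ} : toPoint L z = 0 ↔ z ∈ L.lattice :=
  UnifHom.toPoint_eq_zero_iff (addData L)

theorem toPoint_eq_iff {z w : ℂ} : toPoint L z = toPoint L w ↔ z - w ∈ L.lattice :=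
  UnifHom.toPoint_eq_iff (addData L)

theorem ker_toPoint : (toPoint L).ker = L.lattice.toAddSubgroup :=
  UnifHom.ker_toPoint (addData L)

theorem toPoint_surjective : Function.Surjective (toPoint L) :=
  UnifHom.toPoint_surjective (addData L)

/-- (A6) the uniformisation isomorphism `ℂ ⧸ Λ ≃+ E_Λ(ℂ)`. -/
def pointEquiv : (ℂ ⧸ L.lattice.toAddSubgroup) ≃+ (shortOf L).toAffine.Point :=
  UnifHom.pointEquiv (addData L)

theorem pointEquiv_mk (z : ℂ) :
    pointEquiv L (z : ℂ ⧸ L.lattice.toAddSubgroup) = toPoint L z := rfl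

theorem pointEquiv_mk_of_mem {z : ℂ} (hz : z ∈ L.lattice) :
    pointEquiv L (z : ℂ ⧸ L.lattice.toAddSubgroup) = 0 :=
  toPoint_of_mem L hz

theorem pointEquiv_mk_of_not_mem {z : ℂ} (hz : z ∉ L.lattice) :
    pointEquiv L (z : ℂ ⧸ L.lattice.toAddSubgroup) = Point.some _ _ (nonsingular L hz) :=
  toPoint_of_not_mem L hz

/-- The `x`-coordinate of the image of `z ∉ Λ` is `℘ z`. -/
theorem xc_pointEquiv_mk {z : ℂ} (hz : z ∉ L.lattice) :
    Iface.xc (shortOf L) (pointEquiv L (z : ℂ ⧸ L.lattice.toAddSubgroup)) = ℘[L] z := by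
  rw [pointEquiv_mk_of_not_mem L hz]
  rfl

/-- The same with `QuotientAddGroup.mk`. -/
theorem xc_pointEquiv_mk' {z : ℂ} (hz : z ∉ L.lattice) :
    Iface.xc (shortOf L) (pointEquiv L (QuotientAddGroup.mk z)) = ℘[L] z :=
  xc_pointEquiv_mk L hz

theorem pointEquiv_mk_eq_zero_iff {z : ℂ} :
    pointEquiv L (z : ℂ ⧸ L.lattice.toAddSubgroup) = 0 ↔ z ∈ L.lattice :=
  toPoint_eq_zero_iff L

/-- (A6) in the interface spelling of `Defs`: `shortOf L` is uniformised by `L`. -/
theorem uniformized_shortOf : Uniformized (shortOf L) :=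
  ⟨L, ⟨pointEquiv L⟩⟩

/-- The package consumed by the (VS) reindexing: an isomorphism together with its coordinate
formula. -/
theorem exists_pointEquiv :
    ∃ φ : (ℂ ⧸ L.lattice.toAddSubgroup) ≃+ (shortOf L).toAffine.Point,
      ∀ z : ℂ, z ∉ L.lattice →
        Iface.xc (shortOf L) (φ (QuotientAddGroup.mk z)) = ℘[L] z :=
  ⟨pointEquiv L, fun _ hz => xc_pointEquiv_mk' L hz⟩

end Fermat.Agent.S13.CU.UnifIso
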