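import Mathlib

/-!
# Complex uniformisation: interface definitions

* `shortOf L` : the Weierstrass curve `Y² = X³ - (g₂/4) X - g₃/4` attached to a period pair `L`
  (the image of `z ↦ (℘ z, ℘' z / 2)`).
* `Uniformized W` : the Weierstrass curve `W` over `ℂ` has its group of points isomorphic to
  `ℂ ⧸ Λ` for some period lattice `Λ`.
-/

set_option autoImplicit false

namespace Fermat.Agent.S13.CU.Defs

/-- The curve `Y² = X³ - (g₂/4) X - g₃/4`, parametrised by `X = ℘`, `Y = ℘'/2`. -/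
noncomputable def shortOf (L : PeriodPair) : WeierstrassCurve ℂ :=
  ⟨0, 0, 0, -L.g₂ / 4, -L.g₃ / 4⟩

@[simp] theorem shortOf_a₁ (L : PeriodPair) : (shortOf L).a₁ = 0 := rfl
@[simp] theorem shortOf_a₂ (L : PeriodPair) : (shortOf L).a₂ = 0 := rfl
@[simp] theorem shortOf_a₃ (L : PeriodPair) : (shortOf L).a₃ = 0 := rfl
@[simp] theorem shortOf_a₄ (L : PeriodPair) : (shortOf L).a₄ = -L.g₂ / 4 := rfl
@[simp] theorem shortOf_a₆ (L : PeriodPair) : (shortOf L).a₆ = -L.g₃ / 4 := rfl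

/-- `Δ(shortOf L) = g₂³ - 27 g₃²`. -/
theorem shortOf_Δ (L : PeriodPair) : (shortOf L).Δ = L.g₂ ^ 3 - 27 * L.g₃ ^ 2 := by
  simp only [WeierstrassCurve.Δ, WeierstrassCurve.b₂, WeierstrassCurve.b₄, WeierstrassCurve.b₆,
    WeierstrassCurve.b₈, shortOf_a₁, shortOf_a₂, shortOf_a₃, shortOf_a₄, shortOf_a₆]
  ring

/-- The affine equation of `shortOf L`. -/
theorem shortOf_equation_iff (L : PeriodPair) (x y : ℂ) :
    (shortOf L).toAffine.Equation x y ↔ y ^ 2 = x ^ 3 - L.g₂ / 4 * x - L.g₃ / 4 := by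
  rw [WeierstrassCurve.Affine.equation_iff]
  simp only [shortOf_a₁, shortOf_a₂, shortOf_a₃, shortOf_a₄, shortOf_a₆]
  constructor <;> intro h <;> linear_combination h

/-- The group of points of `W` is `ℂ ⧸ Λ` for some period lattice `Λ`. -/
def Uniformized (W : WeierstrassCurve ℂ) : Prop :=
  ∃ L : PeriodPair, Nonempty ((ℂ ⧸ L.lattice.toAddSubgroup) ≃+ W.toAffine.Point)

end Fermat.Agent.S13.CU.Defs
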