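import Fermat.Agent.LevelOne.JInjective
import Fermat.Agent.S13.CU.Defs

/-!
# Every pair `(g₂, g₃)` with `g₂³ - 27 g₃² ≠ 0` comes from a lattice

`exists_periodPair` : for `a b : ℂ` with `a ^ 3 - 27 * b ^ 2 ≠ 0` there is a period pair `L` with
`L.g₂ = a` and `L.g₃ = b`.  Inputs: surjectivity of the `j`-function (`LevelOne/JBasic`), the
comparison `G_k(cτ, c) = c⁻ᵏ · 2 ζ(k) · E_k(τ)` (`LevelOne/EisLattice`) and the values of `ζ(4)`,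
`ζ(6)`.
-/

set_option autoImplicit false

open UpperHalfPlane ModularForm EisensteinSeries Real
open scoped MatrixGroups

namespace Fermat.Agent.S13.CU.LatticeOfInvariants

open Fermat.Agent.LevelOne.JBasic Fermat.Agent.LevelOne.EisLattice
  Fermat.Agent.LevelOne.JInjective

local notation "Δ" => ModularForm.discriminant

theorem bernoulli'_six : bernoulli' 6 = 1 / 42 := by
  have h5 : bernoulli' 5 = 0 := bernoulli'_eq_zero_of_odd (by decide) (by norm_num)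
  rw [bernoulli'_def]
  norm_num [Finset.sum_range_succ, Finset.sum_range_zero, bernoulli'_zero, bernoulli'_one,
    bernoulli'_two, bernoulli'_three, bernoulli'_four, h5, Nat.choose]

theorem bernoulli_six : bernoulli 6 = 1 / 42 := by
  rw [bernoulli_eq_bernoulli'_of_ne_one (by norm_num), bernoulli'_six]

theorem riemannZeta_six : riemannZeta 6 = (π : ℂ) ^ 6 / 945 := by
  have h := riemannZeta_two_mul_nat (k := 3) (by norm_num)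
  rw [show ((2 : ℂ) * ((3 : ℕ) : ℂ)) = 6 by norm_num] at h
  rw [h, show 2 * 3 = 6 by norm_num, bernoulli_six]
  norm_num [Nat.factorial]
  ring

/-- `g₂(cτ, c) = c⁻⁴ · (4π⁴/3) · E₄(τ)`. -/
theorem g₂_pairOf' (c : ℂ) (hc : c ≠ 0) (τ : ℍ) :
    (pairOf c hc τ).g₂ = (c ^ 4)⁻¹ * (4 * (π : ℂ) ^ 4 / 3 * E₄ τ) := by
  rw [g₂_pairOf, riemannZeta_four]
  ring

/-- `g₃(cτ, c) = c⁻⁶ · (8π⁶/27) · E₆(τ)`. -/
theorem g₃_pairOf' (c : ℂ) (hc : c ≠ 0) (τ : ℍ) :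
    (pairOf c hc τ).g₃ = (c ^ 6)⁻¹ * (8 * (π : ℂ) ^ 6 / 27 * E₆ τ) := by
  rw [g₃_pairOf, riemannZeta_six]
  ring

/-- `g₂³ - 27 g₃² = c⁻¹² (2π)¹² Δ(τ)` for the period pair `(cτ, c)`. -/
theorem disc_pairOf (c : ℂ) (hc : c ≠ 0) (τ : ℍ) :
    (pairOf c hc τ).g₂ ^ 3 - 27 * (pairOf c hc τ).g₃ ^ 2
      = (c ^ 12)⁻¹ * ((2 * (π : ℂ)) ^ 12 * Δ τ) := by
  rw [g₂_pairOf', g₃_pairOf', discriminant_eq]
  field_simp
  ring

/-- **(A7)** Every `(a, b)` with `a³ - 27 b² ≠ 0` is `(g₂, g₃)` of a lattice. -/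
theorem exists_periodPair (a b : ℂ) (h : a ^ 3 - 27 * b ^ 2 ≠ 0) :
    ∃ L : PeriodPair, L.g₂ = a ∧ L.g₃ = b := by
  obtain ⟨τ, hτ⟩ := jFun_surjective (1728 * a ^ 3 / (a ^ 3 - 27 * b ^ 2))
  have hπ : (π : ℂ) ≠ 0 := by exact_mod_cast Real.pi_ne_zero
  have hΔ := discriminant_ne_zero τ
  have hD : E₄ τ ^ 3 - E₆ τ ^ 2 ≠ 0 := E₄_cube_sub_E₆_sq_ne_zero τ
  -- the key proportionality
  have hkey : E₄ τ ^ 3 * (a ^ 3 - 27 * b ^ 2) = a ^ 3 * (E₄ τ ^ 3 - E₆ τ ^ 2) := by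
    rw [jFun_def, discriminant_eq, div_eq_div_iff (div_ne_zero hD (by norm_num)) h] at hτ
    field_simp at hτ
    linear_combination hτ
  set a₁ : ℂ := 4 * (π : ℂ) ^ 4 / 3 * E₄ τ with ha₁
  set b₁ : ℂ := 8 * (π : ℂ) ^ 6 / 27 * E₆ τ with hb₁
  have hab₁ : a₁ ^ 3 - 27 * b₁ ^ 2 = 64 * (π : ℂ) ^ 12 / 27 * (E₄ τ ^ 3 - E₆ τ ^ 2) := by
    rw [ha₁, hb₁]; ring
  have hab₁0 : a₁ ^ 3 - 27 * b₁ ^ 2 ≠ 0 := by
    rw [hab₁]
    exact mul_ne_zero (div_ne_zero (mul_ne_zero (by norm_num) (pow_ne_zero 12 hπ)) (by norm_num)) hD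
  obtain ⟨l, hl0, hl4, hl6⟩ := exists_scale (a₁ := a₁) (b₁ := b₁) (a₂ := a) (b₂ := b)
    (t := (a ^ 3 - 27 * b ^ 2) / (a₁ ^ 3 - 27 * b₁ ^ 2)) (div_ne_zero h hab₁0)
    (by
      rw [div_mul_eq_mul_div, eq_div_iff hab₁0, hab₁, ha₁]
      linear_combination (-(64 * (π : ℂ) ^ 12 / 27)) * hkey)
    (by
      rw [div_mul_eq_mul_div, eq_div_iff hab₁0, hab₁, hb₁]
      linear_combination (-(64 * (π : ℂ) ^ 12 / 729)) * hkey)
    (by
      by_contra hcon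
      rw [not_or, not_not, not_not] at hcon
      apply hab₁0
      rw [hcon.1, hcon.2]; ring)
  refine ⟨pairOf l⁻¹ (inv_ne_zero hl0) τ, ?_, ?_⟩
  · rw [g₂_pairOf', hl4, inv_pow, inv_inv]
  · rw [g₃_pairOf', hl6, inv_pow, inv_inv]

end Fermat.Agent.S13.CU.LatticeOfInvariants
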