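import Mathlib
import Fermat.Agent.S13.CU.Defs

/-!
# The `n`-torsion of `ℂ ⧸ Λ` has `n²` elements

* `card_torsion_quotient` : `Nat.card (Submodule.torsionBy ℤ (ℂ ⧸ Λ) n) = n ^ 2` for `0 < n`.
* `card_torsion_of_uniformized` : hence the same for the points of a uniformised Weierstrass
  curve over `ℂ`.
-/

set_option autoImplicit false

namespace Fermat.Agent.S13.CU.TorsionCard

open Fermat.Agent.S13.CU.Defs

variable (L : PeriodPair)

/-- The quotient `ℂ ⧸ Λ`. -/
abbrev Quot : Type := ℂ ⧸ L.lattice.toAddSubgroup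

/-- `(a, b) ↦ [(a ω₁ + b ω₂) / n]`. -/
noncomputable def divHom (n : ℕ) : ℤ × ℤ →+ Quot L :=
  (QuotientAddGroup.mk' L.lattice.toAddSubgroup).comp
    { toFun := fun x => ((x.1 : ℂ) * L.ω₁ + (x.2 : ℂ) * L.ω₂) / n
      map_zero' := by simp
      map_add' := by
        intro x y
        simp only [Prod.fst_add, Prod.snd_add, Int.cast_add]
        ring }

theorem divHom_apply (n : ℕ) (x : ℤ × ℤ) :
    divHom L n x = QuotientAddGroup.mk (((x.1 : ℂ) * L.ω₁ + (x.2 : ℂ) * L.ω₂) / n) := rfl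

/-- `ℤ`-independence of the periods. -/
theorem eq_zero_of_combination {a b : ℤ} (h : (a : ℂ) * L.ω₁ + (b : ℂ) * L.ω₂ = 0) :
    a = 0 ∧ b = 0 := by
  have := (LinearIndependent.pair_iff.mp L.indep) (a : ℝ) (b : ℝ) (by
    simp only [Complex.real_smul, Complex.ofReal_intCast]
    exact h)
  exact ⟨by exact_mod_cast this.1, by exact_mod_cast this.2⟩

/-- The reduction map `ℤ × ℤ → ZMod n × ZMod n`. -/
def redHom (n : ℕ) : ℤ × ℤ →+ ZMod n × ZMod n where
  toFun x := ((x.1 : ZMod n), (x.2 : ZMod n))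
  map_zero' := by simp
  map_add' := by
    intro x y
    simp only [Prod.fst_add, Prod.snd_add, Int.cast_add, Prod.mk_add_mk]

theorem redHom_apply (n : ℕ) (x : ℤ × ℤ) : redHom n x = ((x.1 : ZMod n), (x.2 : ZMod n)) := rfl

theorem redHom_surjective (n : ℕ) : Function.Surjective (redHom n) := by
  rintro ⟨a, b⟩
  obtain ⟨a', rfl⟩ := ZMod.intCast_surjective a
  obtain ⟨b', rfl⟩ := ZMod.intCast_surjective b
  exact ⟨(a', b'), rfl⟩

theorem ker_divHom (n : ℕ) (hn : 0 < n) : (divHom L n).ker = (redHom n).ker := by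
  have hn0 : (n : ℂ) ≠ 0 := by exact_mod_cast hn.ne'
  ext ⟨a, b⟩
  rw [AddMonoidHom.mem_ker, AddMonoidHom.mem_ker, divHom_apply, QuotientAddGroup.eq_zero_iff,
    Submodule.mem_toAddSubgroup, PeriodPair.mem_lattice]
  rw [redHom_apply, Prod.mk_eq_zero, ZMod.intCast_zmod_eq_zero_iff_dvd,
    ZMod.intCast_zmod_eq_zero_iff_dvd]
  constructor
  · rintro ⟨c, d, hcd⟩
    have h : (((a - n * c : ℤ)) : ℂ) * L.ω₁ + ((b - n * d : ℤ) : ℂ) * L.ω₂ = 0 := by
      rw [eq_div_iff hn0] at hcd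
      push_cast
      linear_combination -hcd
    obtain ⟨h1, h2⟩ := eq_zero_of_combination L h
    exact ⟨⟨c, by linarith⟩, ⟨d, by linarith⟩⟩
  · rintro ⟨⟨c, rfl⟩, ⟨d, rfl⟩⟩
    refine ⟨c, d, ?_⟩
    rw [eq_div_iff hn0]
    push_cast
    ring

theorem range_divHom (n : ℕ) (hn : 0 < n) :
    (Set.range (divHom L n) : Set (Quot L)) = {a | (n : ℤ) • a = 0} := by
  have hn0 : (n : ℂ) ≠ 0 := by exact_mod_cast hn.ne'
  ext a
  constructor
  · rintro ⟨⟨x, y⟩, rfl⟩
    show (n : ℤ) • divHom L n (x, y) = 0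
    rw [divHom_apply, ← QuotientAddGroup.mk_zsmul, QuotientAddGroup.eq_zero_iff,
      Submodule.mem_toAddSubgroup, PeriodPair.mem_lattice]
    refine ⟨x, y, ?_⟩
    rw [zsmul_eq_mul]
    push_cast
    field_simp
  · intro ha
    obtain ⟨z, rfl⟩ := QuotientAddGroup.mk_surjective a
    replace ha : (n : ℤ) • (QuotientAddGroup.mk z : Quot L) = 0 := ha
    rw [← QuotientAddGroup.mk_zsmul, QuotientAddGroup.eq_zero_iff, Submodule.mem_toAddSubgroup,
      PeriodPair.mem_lattice] at ha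
    obtain ⟨x, y, hxy⟩ := ha
    refine ⟨(x, y), ?_⟩
    rw [divHom_apply]
    congr 1
    rw [hxy, zsmul_eq_mul]
    push_cast
    field_simp

/-- **(A9)** The `n`-torsion of `ℂ ⧸ Λ` has `n²` elements. -/
theorem card_torsion_quotient (n : ℕ) (hn : 0 < n) :
    Nat.card (Submodule.torsionBy ℤ (Quot L) (n : ℤ)) = n ^ 2 := by
  have : NeZero n := ⟨hn.ne'⟩
  have h1 : Nat.card (Submodule.torsionBy ℤ (Quot L) (n : ℤ))
      = Nat.card (Set.range (divHom L n)) := by
    apply Nat.card_congr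
    apply Equiv.setCongr
    rw [range_divHom L n hn]
    ext a
    rw [SetLike.mem_coe, Submodule.mem_torsionBy_iff]
    rfl
  have h2 : Nat.card (Set.range (divHom L n)) = (divHom L n).ker.index := by
    rw [AddSubgroup.index_ker]
    rfl
  have h3 : (redHom n).ker.index = Nat.card (ZMod n × ZMod n) := by
    rw [AddSubgroup.index_ker]
    have : (redHom n).range = ⊤ := AddMonoidHom.range_eq_top.mpr (redHom_surjective n)
    rw [this]
    exact Nat.card_congr (Equiv.Set.univ _)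
  rw [h1, h2, ker_divHom L n hn, h3, Nat.card_prod, Nat.card_zmod]
  ring

/-- The `n`-torsion of a uniformised curve has `n²` elements. -/
theorem card_torsion_of_uniformized {W : WeierstrassCurve ℂ} (h : Uniformized W) (n : ℕ)
    (hn : 0 < n) :
    Nat.card (Submodule.torsionBy ℤ W.toAffine.Point (n : ℤ)) = n ^ 2 := by
  obtain ⟨L, ⟨e⟩⟩ := h
  rw [← card_torsion_quotient L n hn]
  apply Nat.card_congr
  symm
  refine
    { toFun := fun a => ⟨e a.1, ?_⟩
      invFun := fun P => ⟨e.symm P.1, ?_⟩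
      left_inv := fun a => by simp
      right_inv := fun P => by simp }
  · have := a.2
    rw [Submodule.mem_torsionBy_iff] at this ⊢
    rw [← map_zsmul, this, map_zero]
  · have := P.2
    rw [Submodule.mem_torsionBy_iff] at this ⊢
    rw [← map_zsmul, this, map_zero]

end Fermat.Agent.S13.CU.TorsionCard
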