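import Mathlib

/-!
# A change of variables induces an isomorphism of the groups of points

For a Weierstrass curve `W` over a field `F` and `C : VariableChange F`, the map
`(x, y) ↦ (u² x + r, u³ y + u² s x + t)` is an isomorphism of additive groups
`(C • W).Point ≃+ W.Point` (`pointEquiv`).
-/

set_option autoImplicit false

open WeierstrassCurve WeierstrassCurve.Affine

namespace Fermat.Agent.S13.CU.VarChange

variable {F : Type*} [Field F] (W : WeierstrassCurve F) (C : VariableChange F)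

/-- The `X`-coordinate of the image point. -/
def vx (x : F) : F := (C.u : F) ^ 2 * x + C.r

/-- The `Y`-coordinate of the image point. -/
def vy (x y : F) : F := (C.u : F) ^ 3 * y + (C.u : F) ^ 2 * C.s * x + C.t

theorem u_ne_zero : (C.u : F) ≠ 0 := C.u.ne_zero

theorem vx_injective : Function.Injective (vx C) := by
  intro x x' h
  have hu : (C.u : F) ^ 2 ≠ 0 := pow_ne_zero 2 (u_ne_zero C)
  unfold vx at h
  exact mul_left_cancel₀ hu (add_right_cancel h)

theorem vy_injective (x : F) : Function.Injective (vy C x) := by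
  intro y y' h
  have hu : (C.u : F) ^ 3 ≠ 0 := pow_ne_zero 3 (u_ne_zero C)
  unfold vy at h
  exact mul_left_cancel₀ hu (add_right_cancel (add_right_cancel h))

/-- The Weierstrass polynomial of `C • W` at `(x, y)` is `u⁻⁶` times that of `W` at the image. -/
theorem poly_smul (x y : F) :
    y ^ 2 + (C • W).a₁ * x * y + (C • W).a₃ * y
        - (x ^ 3 + (C • W).a₂ * x ^ 2 + (C • W).a₄ * x + (C • W).a₆)
      = ((C.u : F) ^ 6)⁻¹ * (vy C x y ^ 2 + W.a₁ * vx C x * vy C x y + W.a₃ * vy C x y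
        - (vx C x ^ 3 + W.a₂ * vx C x ^ 2 + W.a₄ * vx C x + W.a₆)) := by
  have hu := u_ne_zero C
  simp only [variableChange_a₁, variableChange_a₂, variableChange_a₃, variableChange_a₄,
    variableChange_a₆, Units.val_inv_eq_inv_val, vx, vy]
  field_simp
  ring

theorem polyX_smul (x y : F) :
    (C • W).a₁ * y - (3 * x ^ 2 + 2 * (C • W).a₂ * x + (C • W).a₄)
      = ((C.u : F) ^ 4)⁻¹ * ((W.a₁ * vy C x y - (3 * vx C x ^ 2 + 2 * W.a₂ * vx C x + W.a₄))
        + C.s * (2 * vy C x y + W.a₁ * vx C x + W.a₃)) := by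
  have hu := u_ne_zero C
  simp only [variableChange_a₁, variableChange_a₂, variableChange_a₄,
    Units.val_inv_eq_inv_val, vx, vy]
  field_simp
  ring

theorem polyY_smul (x y : F) :
    2 * y + (C • W).a₁ * x + (C • W).a₃
      = ((C.u : F) ^ 3)⁻¹ * (2 * vy C x y + W.a₁ * vx C x + W.a₃) := by
  have hu := u_ne_zero C
  simp only [variableChange_a₁, variableChange_a₃, Units.val_inv_eq_inv_val, vx, vy]
  field_simp
  ring

theorem equation_smul_iff (x y : F) :
    (C • W).toAffine.Equation x y ↔ W.toAffine.Equation (vx C x) (vy C x y) := by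
  rw [equation_iff', equation_iff', poly_smul]
  have hu : ((C.u : F) ^ 6)⁻¹ ≠ 0 := inv_ne_zero (pow_ne_zero 6 (u_ne_zero C))
  constructor
  · intro h
    exact (mul_eq_zero.mp h).resolve_left hu
  · intro h
    rw [h, mul_zero]

theorem nonsingular_smul_iff (x y : F) :
    (C • W).toAffine.Nonsingular x y ↔ W.toAffine.Nonsingular (vx C x) (vy C x y) := by
  rw [nonsingular_iff', nonsingular_iff', equation_smul_iff, polyX_smul, polyY_smul]
  have hu4 : ((C.u : F) ^ 4)⁻¹ ≠ 0 := inv_ne_zero (pow_ne_zero 4 (u_ne_zero C))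
  have hu3 : ((C.u : F) ^ 3)⁻¹ ≠ 0 := inv_ne_zero (pow_ne_zero 3 (u_ne_zero C))
  refine and_congr_right fun _ => ?_
  set A := W.a₁ * vy C x y - (3 * vx C x ^ 2 + 2 * W.a₂ * vx C x + W.a₄) with hA
  set B := 2 * vy C x y + W.a₁ * vx C x + W.a₃ with hB
  constructor
  · intro h
    by_contra hcon
    rw [not_or, not_not, not_not] at hcon
    rcases h with h | h
    · apply h; rw [hcon.1, hcon.2]; ring
    · apply h; rw [hcon.2]; ring
  · intro h
    by_contra hcon
    rw [not_or, not_not, not_not] at hcon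
    have hB0 : B = 0 := (mul_eq_zero.mp hcon.2).resolve_left hu3
    have hA0 : A = 0 := by
      have := (mul_eq_zero.mp hcon.1).resolve_left hu4
      rw [hB0, mul_zero, add_zero] at this
      exact this
    rcases h with h | h
    · exact h hA0
    · exact h hB0

theorem negY_smul (x y : F) :
    vy C x ((C • W).toAffine.negY x y) = W.toAffine.negY (vx C x) (vy C x y) := by
  have hu := u_ne_zero C
  simp only [negY, variableChange_a₁, variableChange_a₃, Units.val_inv_eq_inv_val, vx, vy]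
  field_simp
  ring

theorem addX_smul (x₁ x₂ ℓ : F) :
    W.toAffine.addX (vx C x₁) (vx C x₂) ((C.u : F) * ℓ + C.s)
      = vx C ((C • W).toAffine.addX x₁ x₂ ℓ) := by
  have hu := u_ne_zero C
  simp only [addX, variableChange_a₁, variableChange_a₂, Units.val_inv_eq_inv_val, vx]
  field_simp
  ring

theorem negAddY_smul (x₁ x₂ y₁ ℓ : F) :
    W.toAffine.negAddY (vx C x₁) (vx C x₂) (vy C x₁ y₁) ((C.u : F) * ℓ + C.s)
      = vy C ((C • W).toAffine.addX x₁ x₂ ℓ) ((C • W).toAffine.negAddY x₁ x₂ y₁ ℓ) := by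
  rw [negAddY, negAddY, addX_smul]
  simp only [vx, vy]
  ring

theorem addY_smul (x₁ x₂ y₁ ℓ : F) :
    W.toAffine.addY (vx C x₁) (vx C x₂) (vy C x₁ y₁) ((C.u : F) * ℓ + C.s)
      = vy C ((C • W).toAffine.addX x₁ x₂ ℓ) ((C • W).toAffine.addY x₁ x₂ y₁ ℓ) := by
  rw [addY, addY, negAddY_smul, addX_smul, negY_smul]

variable [DecidableEq F]

theorem slope_smul {x₁ x₂ y₁ y₂ : F}
    (h₁ : (C • W).toAffine.Equation x₁ y₁) (h₂ : (C • W).toAffine.Equation x₂ y₂)
    (hxy : ¬(x₁ = x₂ ∧ y₁ = (C • W).toAffine.negY x₂ y₂)) :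
    W.toAffine.slope (vx C x₁) (vx C x₂) (vy C x₁ y₁) (vy C x₂ y₂)
      = (C.u : F) * (C • W).toAffine.slope x₁ x₂ y₁ y₂ + C.s := by
  have hu := u_ne_zero C
  by_cases hx : x₁ = x₂
  · subst hx
    have hy : y₁ ≠ (C • W).toAffine.negY x₁ y₂ := fun h => hxy ⟨rfl, h⟩
    have hy12 : y₁ = y₂ := (Y_eq_of_X_eq h₁ h₂ rfl).resolve_right hy
    subst hy12
    have hy' : vy C x₁ y₁ ≠ W.toAffine.negY (vx C x₁) (vy C x₁ y₁) := by
      rw [← negY_smul]
      exact fun h => hy (vy_injective C x₁ h)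
    rw [slope_of_Y_ne rfl hy, slope_of_Y_ne rfl hy']
    have h1 := polyX_smul W C x₁ y₁
    have h2 := polyY_smul W C x₁ y₁
    have hden' : y₁ - (C • W).toAffine.negY x₁ y₁ = 2 * y₁ + (C • W).a₁ * x₁ + (C • W).a₃ := by
      rw [negY]; ring
    have hden : vy C x₁ y₁ - W.toAffine.negY (vx C x₁) (vy C x₁ y₁)
        = 2 * vy C x₁ y₁ + W.a₁ * vx C x₁ + W.a₃ := by
      rw [negY]; ring
    have hden0 : 2 * vy C x₁ y₁ + W.a₁ * vx C x₁ + W.a₃ ≠ 0 := by
      rw [← hden]
      exact sub_ne_zero.mpr hy'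
    have hnum' : 3 * x₁ ^ 2 + 2 * (C • W).a₂ * x₁ + (C • W).a₄ - (C • W).a₁ * y₁
        = -((C • W).a₁ * y₁ - (3 * x₁ ^ 2 + 2 * (C • W).a₂ * x₁ + (C • W).a₄)) := by ring
    have hnum : 3 * vx C x₁ ^ 2 + 2 * W.a₂ * vx C x₁ + W.a₄ - W.a₁ * vy C x₁ y₁
        = -(W.a₁ * vy C x₁ y₁ - (3 * vx C x₁ ^ 2 + 2 * W.a₂ * vx C x₁ + W.a₄)) := by ring
    rw [hden', hden, h2, hnum', h1]
    change (3 * vx C x₁ ^ 2 + 2 * W.a₂ * vx C x₁ + W.a₄ - W.a₁ * vy C x₁ y₁) / _ = _
    rw [hnum]
    generalize 2 * vy C x₁ y₁ + W.a₁ * vx C x₁ + W.a₃ = D at hden0 ⊢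
    generalize W.a₁ * vy C x₁ y₁ - (3 * vx C x₁ ^ 2 + 2 * W.a₂ * vx C x₁ + W.a₄) = N
    field_simp
    ring
  · have hx' : vx C x₁ ≠ vx C x₂ := fun h => hx (vx_injective C h)
    rw [slope_of_X_ne hx, slope_of_X_ne hx']
    have h12 : x₁ - x₂ ≠ 0 := sub_ne_zero.mpr hx
    have hX : vx C x₁ - vx C x₂ = (C.u : F) ^ 2 * (x₁ - x₂) := by simp only [vx]; ring
    have hY : vy C x₁ y₁ - vy C x₂ y₂
        = (C.u : F) ^ 3 * (y₁ - y₂) + (C.u : F) ^ 2 * C.s * (x₁ - x₂) := by
      simp only [vy]; ring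
    rw [hX, hY]
    field_simp

/-- The map on points induced by the change of variables. -/
def pointMap : (C • W).toAffine.Point → W.toAffine.Point
  | .zero => .zero
  | .some x y h => .some (vx C x) (vy C x y) ((nonsingular_smul_iff W C x y).mp h)

omit [DecidableEq F] in
@[simp] theorem pointMap_zero : pointMap W C 0 = 0 := rfl

omit [DecidableEq F] in
@[simp] theorem pointMap_some {x y : F} (h : (C • W).toAffine.Nonsingular x y) :
    pointMap W C (.some x y h)
      = .some (vx C x) (vy C x y) ((nonsingular_smul_iff W C x y).mp h) := rfl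

theorem pointMap_add (P Q : (C • W).toAffine.Point) :
    pointMap W C (P + Q) = pointMap W C P + pointMap W C Q := by
  rcases P with _ | ⟨x₁, y₁, h₁⟩ <;> rcases Q with _ | ⟨x₂, y₂, h₂⟩
  any_goals rfl
  by_cases hxy : x₁ = x₂ ∧ y₁ = (C • W).toAffine.negY x₂ y₂
  · obtain ⟨hx, hy⟩ := hxy
    subst hx
    rw [Point.add_of_Y_eq rfl hy, pointMap_some, pointMap_some,
      Point.add_of_Y_eq rfl (by rw [hy, negY_smul])]
    rfl
  · have hxy' : ¬(vx C x₁ = vx C x₂ ∧
        vy C x₁ y₁ = W.toAffine.negY (vx C x₂) (vy C x₂ y₂)) := by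
      rintro ⟨hx, hy⟩
      have hx' : x₁ = x₂ := vx_injective C hx
      subst hx'
      rw [← negY_smul] at hy
      exact hxy ⟨rfl, vy_injective C x₁ hy⟩
    rw [Point.add_some hxy, pointMap_some, pointMap_some, pointMap_some, Point.add_some hxy',
      Point.some.injEq, slope_smul W C h₁.1 h₂.1 hxy, addX_smul, addY_smul]
    exact ⟨rfl, rfl⟩

omit [DecidableEq F] in
theorem pointMap_injective : Function.Injective (pointMap W C) := by
  rintro (_ | ⟨x₁, y₁, h₁⟩) (_ | ⟨x₂, y₂, h₂⟩) h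
  · rfl
  · exact absurd h (by simp [pointMap])
  · exact absurd h (by simp [pointMap])
  · rw [pointMap_some, pointMap_some, Point.some.injEq] at h
    have hx : x₁ = x₂ := vx_injective C h.1
    subst hx
    have hy : y₁ = y₂ := vy_injective C x₁ h.2
    subst hy
    rfl

omit [DecidableEq F] in
theorem pointMap_surjective : Function.Surjective (pointMap W C) := by
  rintro (_ | ⟨X, Y, h⟩)
  · exact ⟨0, rfl⟩
  · have hu := u_ne_zero C
    set x : F := (X - C.r) / (C.u : F) ^ 2 with hx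
    set y : F := (Y - C.s * (X - C.r) - C.t) / (C.u : F) ^ 3 with hy
    have hX : vx C x = X := by
      rw [hx, vx]; field_simp; ring
    have hY : vy C x y = Y := by
      rw [hx, hy, vy]; field_simp; ring
    have h' : (C • W).toAffine.Nonsingular x y := by
      rw [nonsingular_smul_iff, hX, hY]; exact h
    refine ⟨.some x y h', ?_⟩
    rw [pointMap_some, Point.some.injEq]
    exact ⟨hX, hY⟩

/-- **(A8-gen)** A change of variables induces an isomorphism of the groups of points. -/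
noncomputable def pointHom : (C • W).toAffine.Point →+ W.toAffine.Point where
  toFun := pointMap W C
  map_zero' := rfl
  map_add' := pointMap_add W C

/-- **(A8-gen)** A change of variables induces an isomorphism of the groups of points. -/
noncomputable def pointEquiv : (C • W).toAffine.Point ≃+ W.toAffine.Point :=
  AddEquiv.ofBijective (pointHom W C) ⟨pointMap_injective W C, pointMap_surjective W C⟩

theorem pointEquiv_apply (P : (C • W).toAffine.Point) : pointEquiv W C P = pointMap W C P := rfl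

@[simp] theorem pointEquiv_zero : pointEquiv W C 0 = 0 := map_zero _

@[simp] theorem pointEquiv_some {x y : F} (h : (C • W).toAffine.Nonsingular x y) :
    pointEquiv W C (.some x y h)
      = .some (vx C x) (vy C x y) ((nonsingular_smul_iff W C x y).mp h) := by
  rw [pointEquiv_apply, pointMap_some]

end Fermat.Agent.S13.CU.VarChange
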