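import Mathlib
import Fermat.Agent.S13.CU.Defs
import Fermat.Agent.S13.CU.LatticeOfInvariants
import Fermat.Agent.S13.CU.VarChange
import Fermat.Agent.S13.CU.TorsionCard

/-!
# Every Weierstrass curve over `ℂ` with `Δ ≠ 0` is uniformised by a lattice

Given the uniformisation of the short models `shortOf L` (the addition theorem for `℘`), every
Weierstrass curve `W` over `ℂ` with `W.Δ ≠ 0` is uniformised: a change of variables brings `W`
into short form `Y² = X³ + a₄ X + a₆`, and `(-4 a₄, -4 a₆)` are the invariants `(g₂, g₃)` of a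
lattice.
-/

set_option autoImplicit false

open WeierstrassCurve

namespace Fermat.Agent.S13.CU.Uniformize

open Fermat.Agent.S13.CU.Defs

/-- A short Weierstrass curve over `ℂ` with `Δ ≠ 0` is `shortOf L` for some period pair `L`. -/
theorem exists_eq_shortOf (W : WeierstrassCurve ℂ) [W.IsShortNF] (hW : W.Δ ≠ 0) :
    ∃ L : PeriodPair, W = shortOf L := by
  have hΔ : (-4 * W.a₄) ^ 3 - 27 * (-4 * W.a₆) ^ 2 ≠ 0 := by
    rw [Δ_of_isShortNF] at hW
    intro h
    apply hW
    linear_combination h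
  obtain ⟨L, h2, h3⟩ := LatticeOfInvariants.exists_periodPair _ _ hΔ
  refine ⟨L, ?_⟩
  ext
  · rw [a₁_of_isShortNF]; rfl
  · rw [a₂_of_isShortNF]; rfl
  · rw [a₃_of_isShortNF]; rfl
  · rw [shortOf_a₄, h2]; ring
  · rw [shortOf_a₆, h3]; ring

/-- **(A8)** Every Weierstrass curve over `ℂ` with `Δ ≠ 0` becomes `shortOf L` after a change of
variables. -/
theorem exists_variableChange (W : WeierstrassCurve ℂ) (hW : W.Δ ≠ 0) :
    ∃ (L : PeriodPair) (C : VariableChange ℂ), C • W = shortOf L := by
  have : Invertible (2 : ℂ) := invertibleOfNonzero (by norm_num)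
  have : Invertible (3 : ℂ) := invertibleOfNonzero (by norm_num)
  have hΔ : (W.toShortNF • W).Δ ≠ 0 := by
    rw [variableChange_Δ]
    exact mul_ne_zero (pow_ne_zero 12 (Units.ne_zero _)) hW
  obtain ⟨L, hL⟩ := exists_eq_shortOf (W.toShortNF • W) hΔ
  exact ⟨L, W.toShortNF, hL⟩

/-- Every Weierstrass curve over `ℂ` with `Δ ≠ 0` is uniformised, given the uniformisation of the
short models. -/
theorem uniformized_of_disc_ne_zero (hA6 : ∀ L : PeriodPair, Uniformized (shortOf L))
    (W : WeierstrassCurve ℂ) (hW : W.Δ ≠ 0) : Uniformized W := by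
  obtain ⟨L, C, hC⟩ := exists_variableChange W hW
  have h := hA6 L
  rw [← hC] at h
  obtain ⟨L', ⟨e⟩⟩ := h
  exact ⟨L', ⟨e.trans (VarChange.pointEquiv W C)⟩⟩

/-- **(T) over `ℂ`.** The `n`-torsion of a Weierstrass curve over `ℂ` with `Δ ≠ 0` has `n²`
elements, given the uniformisation of the short models. -/
theorem card_torsion (hA6 : ∀ L : PeriodPair, Uniformized (shortOf L))
    (W : WeierstrassCurve ℂ) (hW : W.Δ ≠ 0) (n : ℕ) (hn : 0 < n) :
    Nat.card (Submodule.torsionBy ℤ W.toAffine.Point (n : ℤ)) = n ^ 2 :=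
  TorsionCard.card_torsion_of_uniformized (uniformized_of_disc_ne_zero hA6 W hW) n hn

end Fermat.Agent.S13.CU.Uniformize
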