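import Fermat.Agent.S13.Iface
import Fermat.Agent.S13.CU.Uniformize
import Fermat.Agent.S13.CU.UnifIso

/-!
# (T) over `ℂ`: the `n`-torsion of a Weierstrass curve over `ℂ` with `Δ ≠ 0` has `n²` elements

Unconditional assembly of (A6) `UnifIso.uniformized_shortOf`, (A7) + (A8) `Uniformize` and (A9)
`TorsionCard`.
-/

set_option autoImplicit false

namespace Fermat.Agent.S13.CU.TorsionC

open Fermat.Agent.S13.CU.Defs

/-- Every Weierstrass curve over `ℂ` with `Δ ≠ 0` is uniformised by a lattice. -/
theorem uniformized (W : WeierstrassCurve ℂ) (hW : W.Δ ≠ 0) : Uniformized W :=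
  Uniformize.uniformized_of_disc_ne_zero (fun L => UnifIso.uniformized_shortOf L) W hW

/-- **(T) over `ℂ`**, in the spelling of `Iface.TorsionCard`. -/
theorem torsionCard (W : WeierstrassCurve ℂ) (hW : W.Δ ≠ 0) (n : ℕ) (hn : 0 < n) :
    Iface.TorsionCard W n :=
  Uniformize.card_torsion (fun L => UnifIso.uniformized_shortOf L) W hW n hn

/-- (T) for the short models. -/
theorem torsionCard_shortOf (L : PeriodPair) (n : ℕ) (hn : 0 < n) :
    Iface.TorsionCard (shortOf L) n :=
  TorsionCard.card_torsion_of_uniformized (UnifIso.uniformized_shortOf L) n hn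

end Fermat.Agent.S13.CU.TorsionC
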