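import Fermat.Agent.S13.Iface

/-!
# PROJECT G (S13): `Iface.ValSum` is invariant under admissible changes of variables

If `ψ : W'(F) ≃+ W(F)` is a group isomorphism with `x (ψ P') = u² x(P') + r` (and the `b`-invariants
of `W'` and `W` are related accordingly), then `ValSum W' p` implies `ValSum W p`, provided the
`p`-torsion of `W` has `p²` elements.
-/

set_option autoImplicit false

namespace Fermat.Agent.S13.CU.ValSumTransfer

open Fermat.Agent.S13.Iface WeierstrassCurve

variable {F : Type*} [Field F] [DecidableEq F]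

/-- The number of nonzero `p`-torsion points, given (T). -/
theorem card_of_torsionCard {W : WeierstrassCurve F} {p : ℕ} (hcard : TorsionCard W p)
    (S : Finset W.toAffine.Point) (hS : ∀ T, T ∈ S ↔ p • T = 0 ∧ T ≠ 0) :
    S.card = p ^ 2 - 1 := by
  have h0 : (0 : W.toAffine.Point) ∉ S := fun h => ((hS 0).mp h).2 rfl
  have hset : ((Submodule.torsionBy ℤ W.toAffine.Point p : Submodule ℤ W.toAffine.Point) :
      Set W.toAffine.Point) = ((insert 0 S : Finset W.toAffine.Point) : Set W.toAffine.Point) := by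
    ext T
    simp only [SetLike.mem_coe, mem_torsionBy_iff_nsmul, Finset.coe_insert, Set.mem_insert_iff,
      hS]
    constructor
    · intro h
      by_cases hT : T = 0
      · exact Or.inl hT
      · exact Or.inr ⟨h, hT⟩
    · rintro (rfl | h)
      · exact smul_zero _
      · exact h.1
  have h1 : Nat.card (Submodule.torsionBy ℤ W.toAffine.Point p) = (insert 0 S).card := by
    have : Nat.card (Submodule.torsionBy ℤ W.toAffine.Point p) =
        Nat.card ((Submodule.torsionBy ℤ W.toAffine.Point p : Submodule ℤ W.toAffine.Point) :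
          Set W.toAffine.Point) := rfl
    rw [this, hset, _root_.Nat.card_coe_set_eq, Set.ncard_coe_finset]
  rw [Finset.card_insert_of_notMem h0] at h1
  have h2 : Nat.card (Submodule.torsionBy ℤ W.toAffine.Point p) = p ^ 2 := hcard
  omega

/-- Transfer of (VS) along a group isomorphism which is affine in the `x`-coordinate. -/
theorem valSum_transfer (W W' : WeierstrassCurve F) (u r : F) (hu : u ≠ 0)
    (hb₂ : u ^ 2 * W'.b₂ = W.b₂ + 12 * r)
    (hb₄ : u ^ 4 * W'.b₄ = W.b₄ + r * W.b₂ + 6 * r ^ 2)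
    (hb₆ : u ^ 6 * W'.b₆ = W.b₆ + 2 * r * W.b₄ + r ^ 2 * W.b₂ + 4 * r ^ 3)
    (ψ : W'.toAffine.Point ≃+ W.toAffine.Point)
    (hψ : ∀ P' : W'.toAffine.Point, P' ≠ 0 → xc W (ψ P') = u ^ 2 * xc W' P' + r)
    (p : ℕ) (hcard : TorsionCard W p) (h : ValSum W' p) : ValSum W p := by
  intro e he S hS
  have hcS := card_of_torsionCard hcard S hS
  have hu2 : u ^ 2 ≠ 0 := pow_ne_zero 2 hu
  have hu4 : u ^ 4 ≠ 0 := pow_ne_zero 4 hu
  have hu6 : u ^ 6 ≠ 0 := pow_ne_zero 6 hu
  have hb₂' : W'.b₂ = (W.b₂ + 12 * r) / u ^ 2 := by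
    rw [eq_div_iff hu2]; linear_combination hb₂
  have hb₄' : W'.b₄ = (W.b₄ + r * W.b₂ + 6 * r ^ 2) / u ^ 4 := by
    rw [eq_div_iff hu4]; linear_combination hb₄
  have hb₆' : W'.b₆ = (W.b₆ + 2 * r * W.b₄ + r ^ 2 * W.b₂ + 4 * r ^ 3) / u ^ 6 := by
    rw [eq_div_iff hu6]; linear_combination hb₆
  have he' : 4 * ((e - r) / u ^ 2) ^ 3 + W'.b₂ * ((e - r) / u ^ 2) ^ 2 +
      2 * W'.b₄ * ((e - r) / u ^ 2) + W'.b₆ = 0 := by
    rw [hb₂', hb₄', hb₆']
    field_simp
    linear_combination he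
  have hS' : ∀ T', T' ∈ S.map ψ.symm.toEquiv.toEmbedding ↔ p • T' = 0 ∧ T' ≠ 0 := by
    intro T'
    constructor
    · intro h
      obtain ⟨T, hT, rfl⟩ := Finset.mem_map.mp h
      have hT' := (hS T).mp hT
      refine ⟨?_, ?_⟩
      · change p • ψ.symm T = 0
        rw [← map_nsmul, hT'.1, map_zero]
      · change ψ.symm T ≠ 0
        rw [Ne, AddEquiv.map_eq_zero_iff]
        exact hT'.2
    · rintro ⟨h1, h2⟩
      refine Finset.mem_map.mpr ⟨ψ T', (hS _).mpr ⟨?_, ?_⟩, ψ.symm_apply_apply T'⟩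
      · rw [← map_nsmul, h1, map_zero]
      · rwa [Ne, AddEquiv.map_eq_zero_iff]
  have key := h _ he' _ hS'
  rw [Finset.prod_map] at key
  have hterm : ∀ T ∈ S, (xc W' (ψ.symm.toEquiv.toEmbedding T) - (e - r) / u ^ 2) ^ 2 =
      (xc W T - e) ^ 2 / u ^ 4 := by
    intro T hT
    have hT0 : T ≠ 0 := ((hS T).mp hT).2
    have h1 := hψ (ψ.symm T) (by rwa [Ne, AddEquiv.map_eq_zero_iff])
    rw [AddEquiv.apply_symm_apply] at h1
    have h2 : xc W' (ψ.symm T) = (xc W T - r) / u ^ 2 := by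
      rw [eq_div_iff hu2, h1]; ring
    change (xc W' (ψ.symm T) - (e - r) / u ^ 2) ^ 2 = _
    rw [h2]
    field_simp
    ring
  rw [Finset.prod_congr rfl hterm, Finset.prod_div_distrib, Finset.prod_const, hcS] at key
  have hR : 12 * ((e - r) / u ^ 2) ^ 2 + 2 * W'.b₂ * ((e - r) / u ^ 2) + 2 * W'.b₄ =
      (12 * e ^ 2 + 2 * W.b₂ * e + 2 * W.b₄) / u ^ 4 := by
    rw [hb₂', hb₄']
    field_simp
    ring
  rw [hR, div_pow] at key
  have hne : (u ^ 4) ^ (p ^ 2 - 1) ≠ 0 := pow_ne_zero _ hu4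
  field_simp at key
  linear_combination key

/-- Transfer of (VS) from `C • W` to `W`, given a group isomorphism of the points with the expected
`x`-coordinate formula `x = u² x' + r`. -/
theorem valSum_of_variableChange (W : WeierstrassCurve F) (C : VariableChange F)
    (ψ : (C • W).toAffine.Point ≃+ W.toAffine.Point)
    (hψ : ∀ P' : (C • W).toAffine.Point, P' ≠ 0 →
      xc W (ψ P') = (C.u : F) ^ 2 * xc (C • W) P' + C.r)
    (p : ℕ) (hcard : TorsionCard W p) (h : ValSum (C • W) p) : ValSum W p := by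
  have hu : (C.u : F) ≠ 0 := C.u.ne_zero
  have hinv : ((C.u⁻¹ : Fˣ) : F) = (C.u : F)⁻¹ := Units.val_inv_eq_inv_val C.u
  refine valSum_transfer W (C • W) (C.u : F) C.r hu ?_ ?_ ?_ ψ hψ p hcard h
  · rw [variableChange_b₂, hinv]
    field_simp
  · rw [variableChange_b₄, hinv]
    field_simp
  · rw [variableChange_b₆, hinv]
    field_simp

end Fermat.Agent.S13.CU.ValSumTransfer
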