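/-
PROJECT G (S13), complex uniformisation, (A10) = (VS) over `ℂ` (helper11).

For a lattice `Λ`, a half period `s` with `e = ℘ s`, `D = (e - e')(e - e'')` and an odd `p`:
`∏_{T ∈ (ℂ/Λ)[p], T ≠ 0} (℘ T - e)² = D^(p² - 1) / p⁴`.

The input about the half period is the hypothesis structure `HalfPeriod` (the half-period product
identity `(℘(z+s) - e)(℘ z - e) = D`, `D ≠ 0`); the representatives of the `p`-torsion are abstract.
-/
import Mathlib
import Fermat.Agent.S13.CU.Liouville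

set_option autoImplicit false

noncomputable section

namespace Fermat.Agent.S13.CU.ValuationSum

open Complex Filter Topology
open scoped PeriodPair
open Fermat.Agent.S13.CU.Liouville

variable (L : PeriodPair)

/-- The data of a half period `s` of the lattice: `s ∉ Λ`, `2s ∈ Λ`, and the half-period product
identity `(℘(z+s) - e)(℘ z - e) = D` with `D ≠ 0` (then `e = ℘ s` and `D = (e - e')(e - e'')`). -/
structure HalfPeriod (s e D : ℂ) : Prop where
  hs : s ∉ L.lattice
  h2s : s + s ∈ L.lattice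
  hD : D ≠ 0
  hprod : ∀ z, z ∉ L.lattice → z + s ∉ L.lattice → (℘[L] (z + s) - e) * (℘[L] z - e) = D

variable {L}

/-! ### Punctured neighbourhoods -/

theorem tendsto_add_const_nhdsNE (x a : ℂ) :
    Tendsto (fun z : ℂ => z + a) (𝓝[≠] x) (𝓝[≠] (x + a)) := by
  refine tendsto_nhdsWithin_of_tendsto_nhds_of_eventually_within _
    ((continuous_id.add continuous_const).continuousAt.tendsto.mono_left nhdsWithin_le_nhds) ?_
  filter_upwards [self_mem_nhdsWithin] with w hw
  simpa using hw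

theorem tendsto_const_mul_nhdsNE {c : ℂ} (hc : c ≠ 0) (x : ℂ) :
    Tendsto (fun z : ℂ => c * z) (𝓝[≠] x) (𝓝[≠] (c * x)) := by
  refine tendsto_nhdsWithin_of_tendsto_nhds_of_eventually_within _
    ((continuous_const.mul continuous_id).continuousAt.tendsto.mono_left nhdsWithin_le_nhds) ?_
  filter_upwards [self_mem_nhdsWithin] with w hw
  simpa [hc] using hw

theorem eventually_notMem (L : PeriodPair) (x : ℂ) : ∀ᶠ z in 𝓝[≠] x, z ∉ L.lattice := by
  filter_upwards [nhdsWithin_le_nhds (L.compl_lattice_sdiff_singleton_mem_nhds x),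
    self_mem_nhdsWithin] with z hz hne hmem
  exact hz ⟨hmem, hne⟩

theorem eventually_add_notMem (L : PeriodPair) (x a : ℂ) :
    ∀ᶠ z in 𝓝[≠] x, z + a ∉ L.lattice :=
  (tendsto_add_const_nhdsNE x a).eventually (eventually_notMem L (x + a))

theorem eventually_mul_notMem (L : PeriodPair) {c : ℂ} (hc : c ≠ 0) (x : ℂ) :
    ∀ᶠ z in 𝓝[≠] x, c * z ∉ L.lattice :=
  (tendsto_const_mul_nhdsNE hc x).eventually (eventually_notMem L (c * x))

theorem eventually_mul_add_notMem (L : PeriodPair) {c : ℂ} (hc : c ≠ 0) (x a : ℂ) :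
    ∀ᶠ z in 𝓝[≠] x, c * z + a ∉ L.lattice :=
  (tendsto_const_mul_nhdsNE hc x).eventually (eventually_add_notMem L (c * x) a)

namespace HalfPeriod

variable {s e D : ℂ} (h : HalfPeriod L s e D)
include h

theorem wp_sub_ne {w : ℂ} (hw : w ∉ L.lattice) (hws : w + s ∉ L.lattice) : ℘[L] w - e ≠ 0 := by
  intro h0
  have := h.hprod w hw hws
  rw [h0, mul_zero] at this
  exact h.hD this.symm

theorem sub_mem_iff (w : ℂ) : w - s ∈ L.lattice ↔ w + s ∈ L.lattice := by
  constructor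
  · intro hw
    have : w + s = (w - s) + (s + s) := by ring
    rw [this]
    exact L.lattice.add_mem hw h.h2s
  · intro hw
    have : w - s = (w + s) - (s + s) := by ring
    rw [this]
    exact L.lattice.sub_mem hw h.h2s

/-- `n • s` for odd `n` is congruent to `s`. -/
theorem odd_mul_sub_mem {p : ℕ} (hp : Odd p) : (p : ℂ) * s - s ∈ L.lattice := by
  obtain ⟨k, rfl⟩ := hp
  have : ((2 * k + 1 : ℕ) : ℂ) * s - s = (k : ℤ) • (s + s) := by
    push_cast
    simp only [zsmul_eq_mul]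
    push_cast
    ring
  rw [this]
  exact L.lattice.smul_mem _ h.h2s

theorem mul_half_notMem {p : ℕ} (hp : Odd p) : (p : ℂ) * s ∉ L.lattice := by
  intro hmem
  apply h.hs
  have : s = (p : ℂ) * s - ((p : ℂ) * s - s) := by ring
  rw [this]
  exact L.lattice.sub_mem hmem (h.odd_mul_sub_mem hp)

/-- `p (w + s) ∈ Λ ↔ p w + s ∈ Λ`. -/
theorem mul_add_half_mem_iff {p : ℕ} (hp : Odd p) (w : ℂ) :
    (p : ℂ) * (w + s) ∈ L.lattice ↔ (p : ℂ) * w + s ∈ L.lattice := by
  have key : (p : ℂ) * (w + s) = ((p : ℂ) * w + s) + ((p : ℂ) * s - s) := by ring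
  constructor
  · intro hw
    have : (p : ℂ) * w + s = (p : ℂ) * (w + s) - ((p : ℂ) * s - s) := by ring
    rw [this]
    exact L.lattice.sub_mem hw (h.odd_mul_sub_mem hp)
  · intro hw
    rw [key]
    exact L.lattice.add_mem hw (h.odd_mul_sub_mem hp)

/-- The local order of `℘ - e`. -/
def ordE (L : PeriodPair) (s w : ℂ) : ℤ := by
  classical
  exact if w ∈ L.lattice then -2 else if w + s ∈ L.lattice then 2 else 0

omit h in
theorem ordE_of_mem {w : ℂ} (hw : w ∈ L.lattice) : ordE L s w = -2 := by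
  simp [ordE, hw]

omit h in
theorem ordE_of_add_mem {w : ℂ} (hw : w ∉ L.lattice) (hws : w + s ∈ L.lattice) :
    ordE L s w = 2 := by
  simp [ordE, hw, hws]

omit h in
theorem ordE_of_notMem {w : ℂ} (hw : w ∉ L.lattice) (hws : w + s ∉ L.lattice) :
    ordE L s w = 0 := by
  simp [ordE, hw, hws]

/-- The order of `℘ - e` at any point. -/
theorem order_wp_sub (w : ℂ) :
    meromorphicOrderAt (fun z => ℘[L] z - e) w = ((ordE L s w : ℤ) : WithTop ℤ) := by
  by_cases hw : w ∈ L.lattice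
  · rw [order_weierstrassP_sub_const L e hw, ordE_of_mem hw]
    rfl
  by_cases hws : w + s ∈ L.lattice
  · rw [ordE_of_add_mem hw hws]
    -- the product identity near `w`
    have hev : (fun z => (℘[L] (z + s) - e) * (℘[L] z - e)) =ᶠ[𝓝[≠] w] fun _ => D := by
      filter_upwards [eventually_notMem L w, eventually_add_notMem L w s] with z hz hzs
      exact h.hprod z hz hzs
    have hm1 : MeromorphicAt (fun z => ℘[L] (z + s) - e) w := by
      have := meromorphicAt_weierstrassP_sub_const L e (w + s)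
      exact (meromorphicAt_comp_add_const_iff_meromorphicAt (c := s)
        (f := fun z => ℘[L] z - e)).mpr this
    have hm2 : MeromorphicAt (fun z => ℘[L] z - e) w := meromorphicAt_weierstrassP_sub_const L e w
    have h1 : meromorphicOrderAt (fun z => ℘[L] (z + s) - e) w = ((-2 : ℤ) : WithTop ℤ) := by
      have := meromorphicOrderAt_comp_add_const_eq_meromorphicOrderAt (x := w) (c := s)
        (f := fun z => ℘[L] z - e)
      rw [order_weierstrassP_sub_const L e hws] at this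
      exact this
    have h2 := meromorphicOrderAt_congr hev
    rw [fun_meromorphicOrderAt_mul hm1 hm2, h1, meromorphicOrderAt_const, if_neg h.hD] at h2
    -- solve `-2 + x = 0` in `WithTop ℤ`
    cases hx : meromorphicOrderAt (fun z => ℘[L] z - e) w with
    | top => rw [hx] at h2; simp at h2
    | coe n =>
      rw [hx] at h2
      have : (-2 : ℤ) + n = 0 := by exact_mod_cast h2
      have hn : n = 2 := by omega
      rw [hn]
  · rw [ordE_of_notMem hw hws]
    have han := analyticAt_weierstrassP_sub_const L e hw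
    rw [han.meromorphicOrderAt_eq, han.analyticOrderAt_eq_zero.mpr (h.wp_sub_ne hw hws)]
    simp

end HalfPeriod

/-! ### Representatives of the `p`-torsion of `ℂ / Λ` -/

/-- `T : ι → ℂ` is a system of representatives of the `p`-torsion of `ℂ / Λ`. -/
structure IsTorsionReps (L : PeriodPair) (p : ℕ) {ι : Type*} (T : ι → ℂ) : Prop where
  mem : ∀ i, (p : ℂ) * T i ∈ L.lattice
  inj : ∀ i j, T i - T j ∈ L.lattice → i = j
  surj : ∀ z, (p : ℂ) * z ∈ L.lattice → ∃ i, z - T i ∈ L.lattice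

theorem natCast_mul_mem (L : PeriodPair) (p : ℕ) {x : ℂ} (hx : x ∈ L.lattice) :
    (p : ℂ) * x ∈ L.lattice := by
  have : (p : ℂ) * x = (p : ℤ) • x := by simp
  rw [this]
  exact L.lattice.smul_mem _ hx

namespace IsTorsionReps

variable {p : ℕ} {ι : Type*} {T : ι → ℂ} (hT : IsTorsionReps L p T)
include hT

theorem mul_mem_of_add_mem {w : ℂ} {i : ι} (hw : w + T i ∈ L.lattice) :
    (p : ℂ) * w ∈ L.lattice := by
  have : (p : ℂ) * w = (p : ℂ) * (w + T i) - (p : ℂ) * T i := by ring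
  rw [this]
  exact L.lattice.sub_mem (natCast_mul_mem L p hw) (hT.mem i)

theorem exists_add_mem {w : ℂ} (hw : (p : ℂ) * w ∈ L.lattice) : ∃ i, w + T i ∈ L.lattice := by
  have h1 : (p : ℂ) * (-w) ∈ L.lattice := by
    rw [mul_neg]
    exact L.lattice.neg_mem hw
  obtain ⟨i, hi⟩ := hT.surj (-w) h1
  refine ⟨i, ?_⟩
  have : w + T i = -(-w - T i) := by ring
  rw [this]
  exact L.lattice.neg_mem hi

theorem eq_of_add_mem {w : ℂ} {i j : ι} (hi : w + T i ∈ L.lattice) (hj : w + T j ∈ L.lattice) :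
    i = j := by
  apply hT.inj
  have : T i - T j = (w + T i) - (w + T j) := by ring
  rw [this]
  exact L.lattice.sub_mem hi hj

end IsTorsionReps

/-! ### The order bookkeeping -/

section Orders

open HalfPeriod

variable {s e D : ℂ} (h : HalfPeriod L s e D) {p : ℕ} (hp : Odd p) {ι : Type*} [Fintype ι]
  {T : ι → ℂ} (hT : IsTorsionReps L p T)
include h hp hT

theorem sum_ordE (z₀ : ℂ) :
    ∑ i, ordE L s (z₀ + T i) = ordE L s ((p : ℂ) * z₀) := by
  classical
  by_cases ha : (p : ℂ) * z₀ ∈ L.lattice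
  · -- case (a)
    obtain ⟨i₀, hi₀⟩ := hT.exists_add_mem ha
    rw [ordE_of_mem ha, Finset.sum_eq_single i₀, ordE_of_mem hi₀]
    · intro i _ hne
      have h1 : z₀ + T i ∉ L.lattice := fun hmem => hne (hT.eq_of_add_mem hmem hi₀)
      have h2 : z₀ + T i + s ∉ L.lattice := by
        intro hmem
        have h3 : (z₀ + s) + T i ∈ L.lattice := by
          have : (z₀ + s) + T i = z₀ + T i + s := by ring
          rw [this]; exact hmem
        have h4 := hT.mul_mem_of_add_mem h3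
        rw [mul_add] at h4
        apply h.mul_half_notMem hp
        have : (p : ℂ) * s = ((p : ℂ) * z₀ + (p : ℂ) * s) - (p : ℂ) * z₀ := by ring
        rw [this]
        exact L.lattice.sub_mem h4 ha
      exact ordE_of_notMem h1 h2
    · intro hni
      exact absurd (Finset.mem_univ i₀) hni
  have hnot : ∀ i, z₀ + T i ∉ L.lattice := fun i hmem => ha (hT.mul_mem_of_add_mem hmem)
  by_cases hb : (p : ℂ) * z₀ + s ∈ L.lattice
  · -- case (b)
    have hb' : (p : ℂ) * (z₀ + s) ∈ L.lattice := (h.mul_add_half_mem_iff hp z₀).mpr hb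
    obtain ⟨i₀, hi₀⟩ := hT.exists_add_mem hb'
    have hi₀' : z₀ + T i₀ + s ∈ L.lattice := by
      have : z₀ + T i₀ + s = (z₀ + s) + T i₀ := by ring
      rw [this]; exact hi₀
    rw [ordE_of_add_mem ha hb, Finset.sum_eq_single i₀, ordE_of_add_mem (hnot i₀) hi₀']
    · intro i _ hne
      have h2 : z₀ + T i + s ∉ L.lattice := by
        intro hmem
        have h3 : (z₀ + s) + T i ∈ L.lattice := by
          have : (z₀ + s) + T i = z₀ + T i + s := by ring
          rw [this]; exact hmem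
        exact hne (hT.eq_of_add_mem h3 hi₀)
      exact ordE_of_notMem (hnot i) h2
    · intro hni
      exact absurd (Finset.mem_univ i₀) hni
  · -- case (c)
    rw [ordE_of_notMem ha hb]
    apply Finset.sum_eq_zero
    intro i _
    have h2 : z₀ + T i + s ∉ L.lattice := by
      intro hmem
      have h3 : (z₀ + s) + T i ∈ L.lattice := by
        have : (z₀ + s) + T i = z₀ + T i + s := by ring
        rw [this]; exact hmem
      exact hb ((h.mul_add_half_mem_iff hp z₀).mp (hT.mul_mem_of_add_mem h3))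
    exact ordE_of_notMem (hnot i) h2

end Orders

/-! ### The function `H = (℘(p z) - e) / ∏ (℘(z + T i) - e)` -/

section Quotient

open HalfPeriod

/-- Numerator `℘(p z) - e`. -/
def numF (L : PeriodPair) (e : ℂ) (p : ℕ) (z : ℂ) : ℂ := ℘[L] ((p : ℂ) * z) - e

/-- Denominator `∏ (℘(z + T i) - e)`. -/
def denG (L : PeriodPair) (e : ℂ) {ι : Type*} [Fintype ι] (T : ι → ℂ) (z : ℂ) : ℂ :=
  ∏ i, (℘[L] (z + T i) - e)

/-- The quotient. -/
def quotH (L : PeriodPair) (e : ℂ) (p : ℕ) {ι : Type*} [Fintype ι] (T : ι → ℂ) (z : ℂ) : ℂ :=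
  numF L e p z / denG L e T z

variable {s e D : ℂ} (h : HalfPeriod L s e D) {p : ℕ} (hp : Odd p) {ι : Type*} [Fintype ι]
  {T : ι → ℂ} (hT : IsTorsionReps L p T)

theorem meromorphicAt_numF (L : PeriodPair) (e : ℂ) {p : ℕ} (z₀ : ℂ) :
    MeromorphicAt (numF L e p) z₀ := by
  have h1 : MeromorphicAt (fun w => ℘[L] w - e) ((fun z : ℂ => (p : ℂ) * z) z₀) :=
    meromorphicAt_weierstrassP_sub_const L e _
  have h2 : AnalyticAt ℂ (fun z : ℂ => (p : ℂ) * z) z₀ := by fun_prop
  exact h1.comp_analyticAt h2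

theorem meromorphicAt_factor (L : PeriodPair) (e a z₀ : ℂ) :
    MeromorphicAt (fun z => ℘[L] (z + a) - e) z₀ :=
  (meromorphicAt_comp_add_const_iff_meromorphicAt (c := a)
    (f := fun z => ℘[L] z - e)).mpr (meromorphicAt_weierstrassP_sub_const L e (z₀ + a))

theorem meromorphicAt_denG (L : PeriodPair) (e : ℂ) (T : ι → ℂ) (z₀ : ℂ) :
    MeromorphicAt (denG L e T) z₀ := by
  unfold denG
  exact MeromorphicAt.fun_prod fun i _ => meromorphicAt_factor L e (T i) z₀

theorem meromorphic_quotH (L : PeriodPair) (e : ℂ) (p : ℕ) (T : ι → ℂ) :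
    Meromorphic (quotH L e p T) := fun z₀ =>
  (meromorphicAt_numF L e z₀).fun_div (meromorphicAt_denG L e T z₀)

include h in
theorem order_numF {p : ℕ} (hp0 : p ≠ 0) (z₀ : ℂ) :
    meromorphicOrderAt (numF L e p) z₀ = ((ordE L s ((p : ℂ) * z₀) : ℤ) : WithTop ℤ) := by
  have h2 : AnalyticAt ℂ (fun z : ℂ => (p : ℂ) * z) z₀ := by fun_prop
  have h3 : deriv (fun z : ℂ => (p : ℂ) * z) z₀ ≠ 0 := by
    rw [deriv_const_mul_field]
    simpa using hp0
  have := meromorphicOrderAt_comp_of_deriv_ne_zero (f := fun w => ℘[L] w - e) h2 h3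
  rw [h.order_wp_sub] at this
  exact this

include h in
theorem order_factor (a z₀ : ℂ) :
    meromorphicOrderAt (fun z => ℘[L] (z + a) - e) z₀ = ((ordE L s (z₀ + a) : ℤ) : WithTop ℤ) := by
  have := meromorphicOrderAt_comp_add_const_eq_meromorphicOrderAt (x := z₀) (c := a)
    (f := fun z => ℘[L] z - e)
  rw [h.order_wp_sub] at this
  exact this

include h hp hT in
theorem order_quotH (z₀ : ℂ) : meromorphicOrderAt (quotH L e p T) z₀ = 0 := by
  have hp0 : p ≠ 0 := by
    rintro rfl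
    simp at hp
  have h1 : meromorphicOrderAt (denG L e T) z₀
      = ((ordE L s ((p : ℂ) * z₀) : ℤ) : WithTop ℤ) := by
    unfold denG
    rw [meromorphicOrderAt_fun_prod fun i _ => meromorphicAt_factor L e (T i) z₀]
    simp_rw [order_factor h]
    rw [← WithTop.coe_sum, sum_ordE h hp hT]
  unfold quotH
  rw [fun_meromorphicOrderAt_div (meromorphicAt_numF L e z₀) (meromorphicAt_denG L e T z₀),
    order_numF h hp0, h1]
  simp

theorem numF_add_mem (L : PeriodPair) (e : ℂ) (p : ℕ) (z : ℂ) {l : ℂ} (hl : l ∈ L.lattice) :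
    numF L e p (z + l) = numF L e p z := by
  unfold numF
  rw [mul_add, weierstrassP_add_mem L _ (natCast_mul_mem L p hl)]

theorem denG_add_mem (L : PeriodPair) (e : ℂ) (T : ι → ℂ) (z : ℂ) {l : ℂ} (hl : l ∈ L.lattice) :
    denG L e T (z + l) = denG L e T z := by
  unfold denG
  refine Finset.prod_congr rfl fun i _ => ?_
  have : z + l + T i = z + T i + l := by ring
  rw [this, weierstrassP_add_mem L _ hl]

theorem quotH_add_mem (L : PeriodPair) (e : ℂ) (p : ℕ) (T : ι → ℂ) (z : ℂ) {l : ℂ}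
    (hl : l ∈ L.lattice) : quotH L e p T (z + l) = quotH L e p T z := by
  unfold quotH
  rw [numF_add_mem L e p z hl, denG_add_mem L e T z hl]

include h hp hT in
/-- Liouville: `H` is constant off a discrete set. -/
theorem exists_const_quotH : ∃ c : ℂ, ∀ z, quotH L e p T =ᶠ[𝓝[≠] z] fun _ => c :=
  exists_const_of_periodic_of_order_nonneg L (meromorphic_quotH L e p T)
    (fun z _ hl => quotH_add_mem L e p T z hl) fun z => (order_quotH h hp hT z).ge

end Quotient

/-! ### Evaluation at `0` and at `s` -/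

section Eval

open HalfPeriod

/-- `z² ℘(z) → 1` as `z → 0`. -/
theorem tendsto_sq_mul_weierstrassP (L : PeriodPair) :
    Tendsto (fun z => z ^ 2 * ℘[L] z) (𝓝[≠] 0) (𝓝 1) := by
  have hcont : ContinuousAt (fun z => z ^ 2 * ℘[L - (0 : ℂ)] z + 1) 0 := by
    have : ContinuousAt ℘[L - (0 : ℂ)] 0 := (L.analyticAt_weierstrassPExcept 0).continuousAt
    fun_prop
  have h1 : Tendsto (fun z => z ^ 2 * ℘[L - (0 : ℂ)] z + 1) (𝓝[≠] 0) (𝓝 1) := by
    have := hcont.tendsto.mono_left (nhdsWithin_le_nhds (s := ({0}ᶜ : Set ℂ)))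
    simpa using this
  refine h1.congr' ?_
  filter_upwards [self_mem_nhdsWithin] with z (hz : z ≠ 0)
  have := L.ite_eq_one_sub_sq_mul_weierstrassP 0 (zero_mem _) z
  simp only [if_neg hz, sub_zero] at this
  rw [this]
  simp

variable {s e D : ℂ} (h : HalfPeriod L s e D) {p : ℕ} (hp : Odd p) {ι : Type*} [Fintype ι]
  {T : ι → ℂ} (hT : IsTorsionReps L p T)

/-- `z² (℘(z) - e) → 1`. -/
theorem tendsto_sq_mul_sub (L : PeriodPair) (e : ℂ) :
    Tendsto (fun z => z ^ 2 * (℘[L] z - e)) (𝓝[≠] 0) (𝓝 1) := by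
  have h1 := tendsto_sq_mul_weierstrassP L
  have h2 : Tendsto (fun z : ℂ => z ^ 2 * e) (𝓝[≠] 0) (𝓝 0) := by
    have : ContinuousAt (fun z : ℂ => z ^ 2 * e) 0 := by fun_prop
    have := this.tendsto.mono_left (nhdsWithin_le_nhds (s := ({0}ᶜ : Set ℂ)))
    simpa using this
  have := h1.sub h2
  simp only [sub_zero] at this
  refine this.congr' ?_
  filter_upwards with z
  ring

/-- `z² (℘(p z) - e) → 1/p²`. -/
theorem tendsto_sq_mul_numF (L : PeriodPair) (e : ℂ) {p : ℕ} (hp0 : p ≠ 0) :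
    Tendsto (fun z => z ^ 2 * numF L e p z) (𝓝[≠] 0) (𝓝 (1 / (p : ℂ) ^ 2)) := by
  have hpc : (p : ℂ) ≠ 0 := by exact_mod_cast hp0
  have h0 : Tendsto (fun z : ℂ => (p : ℂ) * z) (𝓝[≠] 0) (𝓝[≠] 0) := by
    have := tendsto_const_mul_nhdsNE hpc 0
    simpa using this
  have h1 := (tendsto_sq_mul_weierstrassP L).comp h0
  have h2 : Tendsto (fun z : ℂ => z ^ 2 * e) (𝓝[≠] 0) (𝓝 0) := by
    have : ContinuousAt (fun z : ℂ => z ^ 2 * e) 0 := by fun_prop
    have := this.tendsto.mono_left (nhdsWithin_le_nhds (s := ({0}ᶜ : Set ℂ)))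
    simpa using this
  have h3 := (h1.const_mul (1 / (p : ℂ) ^ 2)).sub h2
  simp only [sub_zero, mul_one] at h3
  refine h3.congr' ?_
  filter_upwards with z
  simp only [Function.comp_apply, numF]
  field_simp

omit [Fintype ι] in
include h hp hT in
theorem factor_ne_zero {i : ι} (hi : T i ∉ L.lattice) : ℘[L] (T i) - e ≠ 0 := by
  refine h.wp_sub_ne hi ?_
  intro hmem
  have h1 : (p : ℂ) * (T i + s) ∈ L.lattice := natCast_mul_mem L p hmem
  apply h.mul_half_notMem hp
  have : (p : ℂ) * s = (p : ℂ) * (T i + s) - (p : ℂ) * T i := by ring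
  rw [this]
  exact L.lattice.sub_mem h1 (hT.mem i)

omit [Fintype ι] in
include hT in
theorem exists_rep_mem : ∃ i₀, T i₀ ∈ L.lattice := by
  obtain ⟨i, hi⟩ := hT.surj 0 (by simp)
  refine ⟨i, ?_⟩
  have : T i = -(0 - T i) := by ring
  rw [this]
  exact L.lattice.neg_mem hi

omit [Fintype ι] in
include hT in
theorem rep_mem_iff {i₀ : ι} (hi₀ : T i₀ ∈ L.lattice) (i : ι) : T i ∈ L.lattice ↔ i = i₀ := by
  constructor
  · intro hi
    exact hT.inj i i₀ (L.lattice.sub_mem hi hi₀)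
  · rintro rfl
    exact hi₀

include h hp hT in
/-- Evaluation at `0`: `c = (1/p²) / P₁`. -/
theorem const_eq [DecidableEq ι] {c : ℂ} (hc : quotH L e p T =ᶠ[𝓝[≠] 0] fun _ => c) {i₀ : ι}
    (hi₀ : T i₀ ∈ L.lattice) :
    c = (1 / (p : ℂ) ^ 2) / ∏ i ∈ Finset.univ.erase i₀, (℘[L] (T i) - e) := by
  have hp0 : p ≠ 0 := by
    rintro rfl
    simp at hp
  -- the remaining product is continuous at `0`
  have hG₀ : Tendsto (fun z => ∏ i ∈ Finset.univ.erase i₀, (℘[L] (z + T i) - e)) (𝓝[≠] 0)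
      (𝓝 (∏ i ∈ Finset.univ.erase i₀, (℘[L] (T i) - e))) := by
    refine tendsto_finsetProd _ fun i hi => ?_
    have hne : i ≠ i₀ := Finset.ne_of_mem_erase hi
    have hTi : T i ∉ L.lattice := fun hmem => hne ((rep_mem_iff hT hi₀ i).mp hmem)
    have h1 : ContinuousAt ℘[L] (0 + T i) := by
      rw [zero_add]
      exact (L.analyticOnNhd_weierstrassP (T i) hTi).continuousAt
    have h2 : ContinuousAt (fun z : ℂ => z + T i) 0 := by fun_prop
    have h3 : ContinuousAt (fun z : ℂ => ℘[L] (z + T i) - e) 0 :=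
      (ContinuousAt.comp (g := ℘[L]) (f := fun z : ℂ => z + T i) h1 h2).sub continuousAt_const
    have := h3.tendsto.mono_left (nhdsWithin_le_nhds (s := ({0}ᶜ : Set ℂ)))
    simpa using this
  have hden : Tendsto (fun z => z ^ 2 * denG L e T z) (𝓝[≠] 0)
      (𝓝 (∏ i ∈ Finset.univ.erase i₀, (℘[L] (T i) - e))) := by
    have := (tendsto_sq_mul_sub L e).mul hG₀
    rw [one_mul] at this
    refine this.congr' ?_
    filter_upwards with z
    unfold denG
    rw [← Finset.mul_prod_erase Finset.univ _ (Finset.mem_univ i₀),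
      weierstrassP_add_mem L z hi₀]
    ring
  have hne : ∏ i ∈ Finset.univ.erase i₀, (℘[L] (T i) - e) ≠ 0 := by
    rw [Finset.prod_ne_zero_iff]
    intro i hi
    have hne : i ≠ i₀ := Finset.ne_of_mem_erase hi
    exact factor_ne_zero h hp hT fun hmem => hne ((rep_mem_iff hT hi₀ i).mp hmem)
  have hq : Tendsto (quotH L e p T) (𝓝[≠] 0)
      (𝓝 ((1 / (p : ℂ) ^ 2) / ∏ i ∈ Finset.univ.erase i₀, (℘[L] (T i) - e))) := by
    refine ((tendsto_sq_mul_numF L e hp0).div hden hne).congr' ?_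
    filter_upwards [self_mem_nhdsWithin] with z (hz : z ≠ 0)
    have : z ^ 2 ≠ 0 := pow_ne_zero 2 hz
    simp only [Pi.div_apply, quotH]
    rw [mul_div_mul_left _ _ this]
  exact tendsto_nhds_unique (tendsto_const_nhds.congr' hc.symm) hq

include h hp in
/-- `(℘(p(z+s)) - e)(℘(p z) - e) = D` near `0`. -/
theorem numF_mul_eventually :
    ∀ᶠ z in 𝓝[≠] (0 : ℂ), numF L e p (z + s) * numF L e p z = D := by
  have hp0 : p ≠ 0 := by
    rintro rfl
    simp at hp
  have hpc : (p : ℂ) ≠ 0 := by exact_mod_cast hp0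
  filter_upwards [eventually_mul_notMem L hpc 0, eventually_mul_add_notMem L hpc 0 s] with z hz hzs
  unfold numF
  have h1 : (p : ℂ) * (z + s) = ((p : ℂ) * z + s) + ((p : ℂ) * s - s) := by ring
  rw [h1, weierstrassP_add_mem L _ (h.odd_mul_sub_mem hp)]
  exact h.hprod _ hz hzs

include h in
/-- `G(z+s) G(z) = D^n` near `0`. -/
theorem denG_mul_eventually :
    ∀ᶠ z in 𝓝[≠] (0 : ℂ), denG L e T (z + s) * denG L e T z = D ^ Fintype.card ι := by
  have hev : ∀ i, ∀ᶠ z in 𝓝[≠] (0 : ℂ), z + T i ∉ L.lattice ∧ z + T i + s ∉ L.lattice := by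
    intro i
    have h1 := eventually_add_notMem L 0 (T i)
    have h2 := eventually_add_notMem L 0 (T i + s)
    filter_upwards [h1, h2] with z hz1 hz2
    refine ⟨hz1, ?_⟩
    rwa [add_assoc]
  have hall := Filter.eventually_all.mpr hev
  filter_upwards [hall] with z hz
  unfold denG
  rw [← Finset.prod_mul_distrib]
  have : ∀ i ∈ Finset.univ, (℘[L] (z + s + T i) - e) * (℘[L] (z + T i) - e) = D := by
    intro i _
    have h1 : z + s + T i = z + T i + s := by ring
    rw [h1]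
    exact h.hprod _ (hz i).1 (hz i).2
  rw [Finset.prod_congr rfl this]
  simp

include h hp in
/-- Evaluation at `s`: `c² = D / D^n`. -/
theorem const_sq_eq {c : ℂ} (hc : ∀ z, quotH L e p T =ᶠ[𝓝[≠] z] fun _ => c) :
    c * c = D / D ^ Fintype.card ι := by
  have h1 : ∀ᶠ z in 𝓝[≠] (0 : ℂ), quotH L e p T (z + s) = c := by
    have := (tendsto_add_const_nhdsNE 0 s).eventually (hc (0 + s))
    exact this
  have h2 : ∀ᶠ z in 𝓝[≠] (0 : ℂ), quotH L e p T z = c := hc 0
  obtain ⟨z, hz1, hz2, hz3, hz4⟩ :=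
    (h1.and (h2.and ((numF_mul_eventually h hp).and (denG_mul_eventually h (T := T))))).exists
  unfold quotH at hz1 hz2
  rw [← hz4, ← hz3, ← div_mul_div_comm, hz1, hz2]

include h hp hT in
/-- **(VS) over `ℂ`**, with a chosen representative `i₀` of the origin. -/
theorem prod_erase_sq_eq [DecidableEq ι] {i₀ : ι} (hi₀ : T i₀ ∈ L.lattice) :
    (∏ i ∈ Finset.univ.erase i₀, (℘[L] (T i) - e)) ^ 2
      = D ^ (Fintype.card ι - 1) / (p : ℂ) ^ 4 := by
  have hp0 : p ≠ 0 := by
    rintro rfl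
    simp at hp
  have hpc : (p : ℂ) ≠ 0 := by exact_mod_cast hp0
  obtain ⟨c, hc⟩ := exists_const_quotH h hp hT
  have h1 := const_eq h hp hT (hc 0) hi₀
  have h2 := const_sq_eq h hp hc
  set P₁ := ∏ i ∈ Finset.univ.erase i₀, (℘[L] (T i) - e) with hP₁
  have hne : P₁ ≠ 0 := by
    rw [hP₁, Finset.prod_ne_zero_iff]
    intro i hi
    have hne : i ≠ i₀ := Finset.ne_of_mem_erase hi
    exact factor_ne_zero h hp hT fun hmem => hne ((rep_mem_iff hT hi₀ i).mp hmem)
  have hcard : Fintype.card ι = (Fintype.card ι - 1) + 1 := by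
    have : 0 < Fintype.card ι := Fintype.card_pos_iff.mpr ⟨i₀⟩
    omega
  have hD := h.hD
  have hDn : D ^ (Fintype.card ι - 1) ≠ 0 := pow_ne_zero _ hD
  rw [hcard, pow_succ] at h2
  rw [h1] at h2
  field_simp at h2
  field_simp
  linear_combination (-1 : ℂ) * h2

include h hp hT in
/-- **(VS) over `ℂ`** (A10): for an odd `p`, a half period `s` with `e = ℘ s`,
`D = (e - e')(e - e'')`, and representatives `T i` of the `p`-torsion of `ℂ / Λ`,
`∏_{T i ∉ Λ} (℘(T i) - e)² = D^(n - 1) / p⁴`, `n` the number of representatives (`= p²`). -/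
theorem prod_sq_eq [DecidablePred fun i => T i ∉ L.lattice] :
    ∏ i with T i ∉ L.lattice, (℘[L] (T i) - e) ^ 2
      = D ^ (Fintype.card ι - 1) / (p : ℂ) ^ 4 := by
  classical
  obtain ⟨i₀, hi₀⟩ := exists_rep_mem hT
  rw [← prod_erase_sq_eq h hp hT hi₀, ← Finset.prod_pow]
  refine Finset.prod_congr ?_ fun _ _ => rfl
  ext i
  simp only [Finset.mem_filter, Finset.mem_univ, true_and, Finset.mem_erase, and_true]
  rw [rep_mem_iff hT hi₀ i]

end Eval

/-! ### The explicit representatives `(i ω₁ + j ω₂) / p` -/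

section Explicit

/-- The explicit representatives `(i ω₁ + j ω₂) / p`, `0 ≤ i, j < p`, of the `p`-torsion. -/
def torsionRep (L : PeriodPair) (p : ℕ) (ij : Fin p × Fin p) : ℂ :=
  (((ij.1 : ℕ) : ℂ) * L.ω₁ + ((ij.2 : ℕ) : ℂ) * L.ω₂) / (p : ℂ)

theorem int_mul_add_mem (L : PeriodPair) (m n : ℤ) : (m : ℂ) * L.ω₁ + (n : ℂ) * L.ω₂ ∈ L.lattice :=
  PeriodPair.mem_lattice.mpr ⟨m, n, rfl⟩

/-- If `(a ω₁ + b ω₂) / p ∈ Λ` with integers `a, b` then `p ∣ a` and `p ∣ b`. -/
theorem dvd_of_div_mem (L : PeriodPair) {p : ℕ} (hp0 : p ≠ 0) {a b : ℤ}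
    (hmem : ((a : ℂ) * L.ω₁ + (b : ℂ) * L.ω₂) / (p : ℂ) ∈ L.lattice) :
    (p : ℤ) ∣ a ∧ (p : ℤ) ∣ b := by
  have hpc : (p : ℂ) ≠ 0 := by exact_mod_cast hp0
  obtain ⟨m, n, hmn⟩ := PeriodPair.mem_lattice.mp hmem
  have hpr : (p : ℝ) ≠ 0 := by exact_mod_cast hp0
  have key := LinearIndependent.pair_iff.mp L.indep ((m : ℝ) * p - a) ((n : ℝ) * p - b) (by
    have : (m : ℂ) * L.ω₁ + (n : ℂ) * L.ω₂ = ((a : ℂ) * L.ω₁ + (b : ℂ) * L.ω₂) / (p : ℂ) := hmn
    field_simp at this
    simp only [Complex.real_smul]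
    push_cast
    linear_combination this)
  obtain ⟨h1, h2⟩ := key
  have h1' : (m : ℤ) * p = a := by
    have : ((m * p : ℤ) : ℝ) = (a : ℝ) := by push_cast; linarith
    exact_mod_cast this
  have h2' : (n : ℤ) * p = b := by
    have : ((n * p : ℤ) : ℝ) = (b : ℝ) := by push_cast; linarith
    exact_mod_cast this
  exact ⟨⟨m, by rw [← h1']; ring⟩, ⟨n, by rw [← h2']; ring⟩⟩

theorem isTorsionReps_torsionRep (L : PeriodPair) {p : ℕ} (hp0 : p ≠ 0) :
    IsTorsionReps L p (torsionRep L p) := by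
  have hpc : (p : ℂ) ≠ 0 := by exact_mod_cast hp0
  refine ⟨?_, ?_, ?_⟩
  · rintro ⟨i, j⟩
    unfold torsionRep
    rw [mul_div_cancel₀ _ hpc]
    exact_mod_cast int_mul_add_mem L (i : ℕ) (j : ℕ)
  · rintro ⟨i, j⟩ ⟨i', j'⟩ hmem
    have h1 : torsionRep L p (i, j) - torsionRep L p (i', j')
        = ((((i : ℕ) : ℤ) - ((i' : ℕ) : ℤ) : ℤ) * L.ω₁
          + ((((j : ℕ) : ℤ) - ((j' : ℕ) : ℤ) : ℤ) : ℂ) * L.ω₂) / (p : ℂ) := by
      unfold torsionRep
      push_cast
      ring
    rw [h1] at hmem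
    obtain ⟨⟨k, hk⟩, ⟨k', hk'⟩⟩ := dvd_of_div_mem L hp0 hmem
    have hi := i.isLt
    have hi' := i'.isLt
    have hj := j.isLt
    have hj' := j'.isLt
    have hk0 : k = 0 := by
      by_contra hne
      rcases lt_or_gt_of_ne hne with hlt | hgt
      · have : (p : ℤ) * k ≤ (p : ℤ) * (-1) :=
          mul_le_mul_of_nonneg_left (by omega) (by omega)
        omega
      · have : (p : ℤ) * 1 ≤ (p : ℤ) * k :=
          mul_le_mul_of_nonneg_left (by omega) (by omega)
        omega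
    have hk0' : k' = 0 := by
      by_contra hne
      rcases lt_or_gt_of_ne hne with hlt | hgt
      · have : (p : ℤ) * k' ≤ (p : ℤ) * (-1) :=
          mul_le_mul_of_nonneg_left (by omega) (by omega)
        omega
      · have : (p : ℤ) * 1 ≤ (p : ℤ) * k' :=
          mul_le_mul_of_nonneg_left (by omega) (by omega)
        omega
    rw [hk0, mul_zero] at hk
    rw [hk0', mul_zero] at hk'
    have e1 : i = i' := Fin.ext (by omega)
    have e2 : j = j' := Fin.ext (by omega)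
    rw [e1, e2]
  · intro z hz
    obtain ⟨m, n, hmn⟩ := PeriodPair.mem_lattice.mp hz
    have hppos : (0 : ℤ) < p := by exact_mod_cast Nat.pos_of_ne_zero hp0
    have hm0 : 0 ≤ m % (p : ℤ) := Int.emod_nonneg _ hppos.ne'
    have hn0 : 0 ≤ n % (p : ℤ) := Int.emod_nonneg _ hppos.ne'
    have hm1 : m % (p : ℤ) < p := Int.emod_lt_of_pos _ hppos
    have hn1 : n % (p : ℤ) < p := Int.emod_lt_of_pos _ hppos
    refine ⟨(⟨(m % (p : ℤ)).toNat, by omega⟩, ⟨(n % (p : ℤ)).toNat, by omega⟩), ?_⟩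
    have hz' : z = ((m : ℂ) * L.ω₁ + (n : ℂ) * L.ω₂) / (p : ℂ) := by
      rw [hmn, mul_div_cancel_left₀ _ hpc]
    have hci : (((m % (p : ℤ)).toNat : ℕ) : ℂ) = ((m % (p : ℤ) : ℤ) : ℂ) := by
      have : (((m % (p : ℤ)).toNat : ℕ) : ℤ) = m % (p : ℤ) := Int.toNat_of_nonneg hm0
      exact_mod_cast congrArg (fun x : ℤ => (x : ℂ)) this
    have hcj : (((n % (p : ℤ)).toNat : ℕ) : ℂ) = ((n % (p : ℤ) : ℤ) : ℂ) := by
      have : (((n % (p : ℤ)).toNat : ℕ) : ℤ) = n % (p : ℤ) := Int.toNat_of_nonneg hn0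
      exact_mod_cast congrArg (fun x : ℤ => (x : ℂ)) this
    have hm2 : (m : ℂ) = ((m % (p : ℤ) : ℤ) : ℂ) + (p : ℂ) * ((m / (p : ℤ) : ℤ) : ℂ) := by
      have := Int.emod_add_mul_ediv m (p : ℤ)
      exact_mod_cast this.symm
    have hn2 : (n : ℂ) = ((n % (p : ℤ) : ℤ) : ℂ) + (p : ℂ) * ((n / (p : ℤ) : ℤ) : ℂ) := by
      have := Int.emod_add_mul_ediv n (p : ℤ)
      exact_mod_cast this.symm
    have : z - torsionRep L p (⟨(m % (p : ℤ)).toNat, by omega⟩, ⟨(n % (p : ℤ)).toNat, by omega⟩)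
        = ((m / (p : ℤ) : ℤ) : ℂ) * L.ω₁ + ((n / (p : ℤ) : ℤ) : ℂ) * L.ω₂ := by
      unfold torsionRep
      simp only []
      rw [hz', hci, hcj]
      field_simp
      rw [hm2, hn2]
      ring
    rw [this]
    exact int_mul_add_mem L _ _

theorem torsionRep_mem_iff (L : PeriodPair) {p : ℕ} (hp0 : p ≠ 0) (ij : Fin p × Fin p) :
    torsionRep L p ij ∈ L.lattice ↔ (ij.1 : ℕ) = 0 ∧ (ij.2 : ℕ) = 0 := by
  constructor
  · intro hmem
    have h1 : torsionRep L p ij
        = ((((ij.1 : ℕ) : ℤ) : ℂ) * L.ω₁ + (((ij.2 : ℕ) : ℤ) : ℂ) * L.ω₂) / (p : ℂ) := by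
      unfold torsionRep
      push_cast
      ring
    rw [h1] at hmem
    obtain ⟨h2, h3⟩ := dvd_of_div_mem L hp0 hmem
    have hi := ij.1.isLt
    have hj := ij.2.isLt
    constructor
    · have := Int.natCast_dvd_natCast.mp h2
      exact Nat.eq_zero_of_dvd_of_lt this hi
    · have := Int.natCast_dvd_natCast.mp h3
      exact Nat.eq_zero_of_dvd_of_lt this hj
  · rintro ⟨h1, h2⟩
    unfold torsionRep
    rw [h1, h2]
    simp

/-- **(VS) over `ℂ`** (A10) for the explicit representatives `(i ω₁ + j ω₂) / p`: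
`∏_{(i,j) ≠ (0,0)} (℘((i ω₁ + j ω₂)/p) - e)² = D^(p² - 1) / p⁴`. -/
theorem prod_sq_eq_torsionRep {s e D : ℂ} (h : HalfPeriod L s e D) {p : ℕ} (hp : Odd p)
    [DecidablePred fun ij => torsionRep L p ij ∉ L.lattice] :
    ∏ ij with torsionRep L p ij ∉ L.lattice, (℘[L] (torsionRep L p ij) - e) ^ 2
      = D ^ (p ^ 2 - 1) / (p : ℂ) ^ 4 := by
  have hp0 : p ≠ 0 := by
    rintro rfl
    simp at hp
  have := prod_sq_eq h hp (isTorsionReps_torsionRep L hp0)
  rw [this]
  simp [sq]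

end Explicit

end Fermat.Agent.S13.CU.ValuationSum

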