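import Fermat.Agent.S13.CU.ValSumShort
import Fermat.Agent.S13.CU.ValSumTransfer
import Fermat.Agent.S13.CU.ValuationSum
import Fermat.Agent.S13.CU.TorsionC

/-!
# PROJECT G (S13), complex uniformisation: (T) and (VS) for every elliptic curve over `ℂ`

Assembly of the block over `ℂ`: for a Weierstrass curve `W` over `ℂ` with `Δ ≠ 0`,
`Iface.TorsionCard W n` (`0 < n`) and `Iface.ValSum W p` (`p` odd), without hypotheses.
-/

set_option autoImplicit false

noncomputable section

namespace Fermat.Agent.S13.CU.MainC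

open Fermat.Agent.S13.Iface Fermat.Agent.S13.CU.Defs
open Fermat.Agent.S13.CU.ValSumShort Fermat.Agent.S13.CU.ValSumTransfer
open WeierstrassCurve
open scoped PeriodPair

/-- (A10) in the shape consumed by `ValSumShort.valSum_shortOf`. -/
theorem latticeValSum (L : PeriodPair) {p : ℕ} (hp : Odd p) : LatticeValSum L p := by
  intro s D hs h2s hD0 hprod ι _ T hT hinj hsurj
  have hp0 : (p : ℂ) ≠ 0 := by
    have : p ≠ 0 := by
      rintro rfl
      simp at hp
    exact_mod_cast this
  have hH : ValuationSum.HalfPeriod L s (℘[L] s) D :=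
    ⟨hs, by rw [← two_mul]; exact h2s, hD0, hprod⟩
  have hR : ValuationSum.IsTorsionReps L p T := ⟨hT, hinj, hsurj⟩
  classical
  have key := ValuationSum.prod_sq_eq hH hp hR
  have key' : ∏ i with T i ∉ L.lattice, (℘[L] (T i) - ℘[L] s) ^ 2 =
      D ^ (Fintype.card ι - 1) / (p : ℂ) ^ 4 := by
    convert key
  rw [key']
  field_simp

/-- **(VS) for the short models** `shortOf L`. -/
theorem valSum_shortOf (L : PeriodPair) {p : ℕ} (hp : Odd p) : ValSum (shortOf L) p := by
  obtain ⟨φ, hφ⟩ := UnifIso.exists_pointEquiv L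
  exact ValSumShort.valSum_shortOf p hp.pos φ hφ
    (Fermat.Agent.S13.CU.TorsionCard.card_torsion_quotient L p hp.pos) (latticeValSum L hp)

/-- The `x`-coordinate formula of `VarChange.pointEquiv`. -/
theorem xc_pointEquiv (W : WeierstrassCurve ℂ) (C : VariableChange ℂ)
    (P' : (C • W).toAffine.Point) (hP' : P' ≠ 0) :
    xc W (VarChange.pointEquiv W C P') = (C.u : ℂ) ^ 2 * xc (C • W) P' + C.r := by
  rcases P' with _ | ⟨x, y, h⟩
  · exact absurd rfl hP'
  · rw [VarChange.pointEquiv_some]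
    rfl

/-- **(T) over `ℂ`.** -/
theorem torsionCard_of_disc_ne_zero (W : WeierstrassCurve ℂ) (hW : W.Δ ≠ 0) {n : ℕ}
    (hn : 0 < n) : TorsionCard W n :=
  TorsionC.torsionCard W hW n hn

/-- **(VS) over `ℂ`.** -/
theorem valSum_of_disc_ne_zero (W : WeierstrassCurve ℂ) (hW : W.Δ ≠ 0) {p : ℕ}
    (hp : Odd p) : ValSum W p := by
  obtain ⟨L, C, hC⟩ := Uniformize.exists_variableChange W hW
  have h1 : ValSum (C • W) p := by
    rw [hC]
    exact valSum_shortOf L hp
  exact valSum_of_variableChange W C (VarChange.pointEquiv W C) (xc_pointEquiv W C) p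
    (torsionCard_of_disc_ne_zero W hW hp.pos) h1

/-- (T) and (VS) over `ℂ` together. -/
theorem torsionCard_valSum (W : WeierstrassCurve ℂ) (hW : W.Δ ≠ 0) {n : ℕ} (hn : Odd n) :
    TorsionCard W n ∧ ValSum W n :=
  ⟨torsionCard_of_disc_ne_zero W hW hn.pos, valSum_of_disc_ne_zero W hW hn⟩

end Fermat.Agent.S13.CU.MainC
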