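/-
PROJECT G (S13), slice (A11) (helper2): descent from an algebraically closed field `Ω` to an
algebraically closed subfield `K`.

(D1) an element of `Ω` with finite orbit under `Aut(Ω/K)` lies in `K`;
(D2) if the `n`-torsion of a Weierstrass curve `W/R` over `Ω` is finite, the base change map from
the `n`-torsion over `K` is bijective.
-/
import Mathlib

set_option autoImplicit false

open scoped Classical

noncomputable section

namespace Fermat.Agent.S13.CU.Descent

/-! ### Translating one variable of a polynomial ring -/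

section Shift

variable {K : Type*} [Field K] {ι : Type*} [DecidableEq ι]

/-- The `K`-algebra endomorphism of `K[X_i]` with `X_{i₀} ↦ X_{i₀} + c`, other variables fixed. -/
def shiftHom (i₀ : ι) (c : K) : MvPolynomial ι K →ₐ[K] MvPolynomial ι K :=
  MvPolynomial.aeval fun i => if i = i₀ then MvPolynomial.X i + MvPolynomial.C c
    else MvPolynomial.X i

theorem shiftHom_X_self (i₀ : ι) (c : K) :
    shiftHom i₀ c (MvPolynomial.X i₀) = MvPolynomial.X i₀ + MvPolynomial.C c := by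
  simp [shiftHom]

theorem shiftHom_X_of_ne (i₀ : ι) (c : K) {i : ι} (h : i ≠ i₀) :
    shiftHom i₀ c (MvPolynomial.X i) = MvPolynomial.X i := by
  simp [shiftHom, h]

theorem shiftHom_comp (i₀ : ι) (c d : K) :
    (shiftHom i₀ c).comp (shiftHom i₀ d) = shiftHom i₀ (c + d) := by
  apply MvPolynomial.algHom_ext
  intro i
  by_cases h : i = i₀
  · subst h
    simp only [AlgHom.comp_apply, shiftHom_X_self, map_add, MvPolynomial.algHom_C, map_add]
    simp only [MvPolynomial.algebraMap_eq]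
    ring
  · simp only [AlgHom.comp_apply, shiftHom_X_of_ne i₀ _ h]

theorem shiftHom_zero (i₀ : ι) : shiftHom i₀ (0 : K) = AlgHom.id K (MvPolynomial ι K) := by
  apply MvPolynomial.algHom_ext
  intro i
  by_cases h : i = i₀
  · subst h
    simp [shiftHom_X_self]
  · simp [shiftHom_X_of_ne i₀ _ h]

/-- The shift as an algebra automorphism. -/
def shiftEquiv (i₀ : ι) (c : K) : MvPolynomial ι K ≃ₐ[K] MvPolynomial ι K :=
  AlgEquiv.ofAlgHom (shiftHom i₀ c) (shiftHom i₀ (-c))
    (by rw [shiftHom_comp, add_neg_cancel, shiftHom_zero])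
    (by rw [shiftHom_comp, neg_add_cancel, shiftHom_zero])

theorem shiftEquiv_X_self (i₀ : ι) (c : K) :
    shiftEquiv i₀ c (MvPolynomial.X i₀) = MvPolynomial.X i₀ + MvPolynomial.C c :=
  shiftHom_X_self i₀ c

end Shift

/-! ### Automorphisms translating an element of a transcendence basis -/

section Aut

variable {K Ω : Type*} [Field K] [Field Ω] [Algebra K Ω] [IsAlgClosed Ω]

/-- Given a transcendence basis `t` of `Ω/K`, `x₀ ∈ t` and `c ∈ K`, there is a `K`-automorphism of
the algebraically closed field `Ω` with `x₀ ↦ x₀ + c`. -/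
theorem exists_algEquiv_add (t : Set Ω) (ht : IsTranscendenceBasis K ((↑) : t → Ω)) (x₀ : t)
    (c : K) : ∃ σ : Ω ≃ₐ[K] Ω, σ (x₀ : Ω) = (x₀ : Ω) + algebraMap K Ω c := by
  set A := Algebra.adjoin K (Set.range ((↑) : t → Ω)) with hA
  have : IsAlgClosure A Ω := IsAlgClosed.isAlgClosure_of_transcendence_basis ((↑) : t → Ω) ht
  let a : MvPolynomial t K ≃ₐ[K] A := ht.1.aevalEquiv
  let e : A ≃ₐ[K] A := a.symm.trans ((shiftEquiv x₀ c).trans a)
  let σ : Ω ≃+* Ω := IsAlgClosure.equivOfEquiv Ω Ω e.toRingEquiv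
  have hσ : ∀ y : A, σ (algebraMap A Ω y) = algebraMap A Ω (e y) := fun y =>
    IsAlgClosure.equivOfEquiv_algebraMap Ω Ω e.toRingEquiv y
  have hK : ∀ k : K, σ (algebraMap K Ω k) = algebraMap K Ω k := by
    intro k
    rw [IsScalarTower.algebraMap_apply K A Ω, hσ, AlgEquiv.commutes]
  refine ⟨AlgEquiv.ofRingEquiv (f := σ) hK, ?_⟩
  have hx : (x₀ : Ω) = algebraMap A Ω (a (MvPolynomial.X x₀)) := by
    rw [ht.1.algebraMap_aevalEquiv, MvPolynomial.aeval_X]
  have he : e (a (MvPolynomial.X x₀)) = a (MvPolynomial.X x₀) + algebraMap K A c := by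
    simp only [e, AlgEquiv.trans_apply, AlgEquiv.symm_apply_apply, shiftEquiv_X_self, map_add,
      ← MvPolynomial.algebraMap_eq, AlgEquiv.commutes]
  show σ (x₀ : Ω) = _
  conv_lhs => rw [hx]
  rw [hσ, he, map_add, ← hx, ← IsScalarTower.algebraMap_apply K A Ω]

end Aut

/-! ### (D1): finite orbits -/

section FiniteOrbit

variable {K Ω : Type*} [Field K] [Field Ω] [Algebra K Ω] [IsAlgClosed K] [IsAlgClosed Ω]

/-- **(D1)** An element of `Ω` belonging to a finite `Aut(Ω/K)`-stable set lies in `K`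
(`K ⊆ Ω` algebraically closed fields). -/
theorem mem_range_of_finite_orbit (S : Set Ω) (hS : S.Finite)
    (hstab : ∀ σ : Ω ≃ₐ[K] Ω, ∀ y ∈ S, σ y ∈ S) {x : Ω} (hx : x ∈ S) :
    x ∈ Set.range (algebraMap K Ω) := by
  by_cases halg : IsAlgebraic K x
  · have hint : IsIntegral K x := halg.isIntegral
    have hdeg : (minpoly K x).degree = 1 :=
      IsAlgClosed.degree_eq_one_of_irreducible K (minpoly.irreducible hint)
    exact minpoly.mem_range_of_degree_eq_one K x hdeg
  · exfalso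
    have htr : Transcendental K x := halg
    have hind : AlgebraicIndepOn K id ({x} : Set Ω) := by
      have : AlgebraicIndependent K (fun i : ({x} : Set Ω) => (i : Ω)) := by
        rw [algebraicIndependent_singleton_iff (⟨x, rfl⟩ : ({x} : Set Ω))]
        exact htr
      exact this
    obtain ⟨t, hxt, ht⟩ := exists_isTranscendenceBasis_superset hind
    have hx₀ : x ∈ t := hxt rfl
    have hmem : ∀ c : K, x + algebraMap K Ω c ∈ S := by
      intro c
      obtain ⟨σ, hσ⟩ := exists_algEquiv_add t ht ⟨x, hx₀⟩ c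
      have := hstab σ x hx
      rwa [hσ] at this
    have hinj : Function.Injective fun c : K => x + algebraMap K Ω c := by
      intro c d hcd
      exact (algebraMap K Ω).injective (add_left_cancel hcd)
    exact (Set.infinite_of_injective_forall_mem hinj hmem) hS

end FiniteOrbit

/-! ### (D2): torsion points descend -/

section Torsion

open WeierstrassCurve WeierstrassCurve.Affine

variable {R : Type*} [CommRing R] (W' : Affine R)
variable (F Ω : Type*) [Field F] [Field Ω] [DecidableEq F] [DecidableEq Ω]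
  [Algebra R F] [Algebra R Ω] [Algebra F Ω] [IsScalarTower R F Ω]

/-- The `x`-coordinate of a point (`0` at infinity). -/
def xCoord : (W'⁄Ω).Point → Ω
  | 0 => 0
  | .some x _ _ => x

/-- The `y`-coordinate of a point (`0` at infinity). -/
def yCoord : (W'⁄Ω).Point → Ω
  | 0 => 0
  | .some _ y _ => y

variable {W' Ω}

omit [DecidableEq F] in
theorem xCoord_map (σ : Ω ≃ₐ[F] Ω) (P : (W'⁄Ω).Point) :
    xCoord W' Ω (Point.map (σ : Ω →ₐ[F] Ω) P) = σ (xCoord W' Ω P) := by
  cases P with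
  | zero => exact (map_zero σ).symm
  | some x y h => rfl

omit [DecidableEq F] in
theorem yCoord_map (σ : Ω ≃ₐ[F] Ω) (P : (W'⁄Ω).Point) :
    yCoord W' Ω (Point.map (σ : Ω →ₐ[F] Ω) P) = σ (yCoord W' Ω P) := by
  cases P with
  | zero => exact (map_zero σ).symm
  | some x y h => rfl

variable [IsAlgClosed F] [IsAlgClosed Ω]

/-- **(D2)** Every `n`-torsion point over `Ω` comes from an `n`-torsion point over `F`, provided
the `n`-torsion over `Ω` is finite. -/
theorem exists_baseChange_eq (n : ℤ)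
    (hfin : {P : (W'⁄Ω).Point | n • P = 0}.Finite) (P : (W'⁄Ω).Point) (hP : n • P = 0) :
    ∃ P₀ : (W'⁄F).Point, n • P₀ = 0 ∧ Point.baseChange F Ω P₀ = P := by
  set T : Set (W'⁄Ω).Point := {P | n • P = 0} with hT
  set S : Set Ω := xCoord W' Ω '' T ∪ yCoord W' Ω '' T with hS
  have hSfin : S.Finite := (hfin.image _).union (hfin.image _)
  have hTstab : ∀ σ : Ω ≃ₐ[F] Ω, ∀ Q ∈ T, Point.map (σ : Ω →ₐ[F] Ω) Q ∈ T := by
    intro σ Q hQ
    show n • Point.map (σ : Ω →ₐ[F] Ω) Q = 0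
    rw [← map_zsmul, show n • Q = 0 from hQ, map_zero]
  have hSstab : ∀ σ : Ω ≃ₐ[F] Ω, ∀ y ∈ S, σ y ∈ S := by
    rintro σ y (⟨Q, hQ, rfl⟩ | ⟨Q, hQ, rfl⟩)
    · exact Or.inl ⟨_, hTstab σ Q hQ, xCoord_map F σ Q⟩
    · exact Or.inr ⟨_, hTstab σ Q hQ, yCoord_map F σ Q⟩
  have key : ∀ P₀ : (W'⁄F).Point, Point.baseChange F Ω P₀ = P → n • P₀ = 0 := by
    intro P₀ h
    apply Point.map_injective (W' := W') (Algebra.ofId F Ω)
    rw [map_zsmul, map_zero]
    exact h ▸ hP
  cases P with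
  | zero => exact ⟨0, smul_zero n, rfl⟩
  | some x y h =>
    have hx : x ∈ S := Or.inl ⟨_, hP, rfl⟩
    have hy : y ∈ S := Or.inr ⟨_, hP, rfl⟩
    obtain ⟨x₀, rfl⟩ := mem_range_of_finite_orbit S hSfin hSstab hx
    obtain ⟨y₀, rfl⟩ := mem_range_of_finite_orbit S hSfin hSstab hy
    have h₀ : (W'⁄F).Nonsingular x₀ y₀ :=
      (W'.baseChange_nonsingular (Algebra.ofId F Ω).injective x₀ y₀).mp h
    exact ⟨.some x₀ y₀ h₀, key _ rfl, rfl⟩

/-- Base change restricted to the `n`-torsion. -/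
def torsionHom (n : ℤ) :
    Submodule.torsionBy ℤ (W'⁄F).Point n →+ Submodule.torsionBy ℤ (W'⁄Ω).Point n where
  toFun P := ⟨Point.baseChange F Ω (P : (W'⁄F).Point), by
    rw [Submodule.mem_torsionBy_iff, ← map_zsmul, (Submodule.mem_torsionBy_iff _ _).mp P.2,
      map_zero]⟩
  map_zero' := Subtype.ext (map_zero _)
  map_add' P Q := Subtype.ext (map_add _ _ _)

omit [IsAlgClosed F] [IsAlgClosed Ω] in
@[simp] theorem coe_torsionHom (n : ℤ) (P : Submodule.torsionBy ℤ (W'⁄F).Point n) :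
    ((torsionHom (W' := W') F (Ω := Ω) n P : Submodule.torsionBy ℤ (W'⁄Ω).Point n) :
      (W'⁄Ω).Point) = Point.baseChange F Ω (P : (W'⁄F).Point) := rfl

omit [IsAlgClosed F] [IsAlgClosed Ω] in
theorem torsionHom_injective (n : ℤ) :
    Function.Injective (torsionHom (W' := W') F (Ω := Ω) n) := by
  intro P Q h
  apply Subtype.ext
  apply Point.map_injective (W' := W') (Algebra.ofId F Ω)
  exact congrArg Subtype.val h

theorem torsionHom_surjective (n : ℤ)
    (hfin : (Submodule.torsionBy ℤ (W'⁄Ω).Point n : Set (W'⁄Ω).Point).Finite) :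
    Function.Surjective (torsionHom (W' := W') F (Ω := Ω) n) := by
  rintro ⟨P, hP⟩
  have hfin' : {P : (W'⁄Ω).Point | n • P = 0}.Finite := by
    refine hfin.subset fun Q hQ => ?_
    exact (Submodule.mem_torsionBy_iff _ _).mpr hQ
  obtain ⟨P₀, h0, h1⟩ := exists_baseChange_eq F n hfin' P ((Submodule.mem_torsionBy_iff _ _).mp hP)
  exact ⟨⟨P₀, (Submodule.mem_torsionBy_iff _ _).mpr h0⟩, Subtype.ext h1⟩

/-- **(D2)** the `n`-torsion over `F` and over `Ω` are isomorphic via base change, when the latter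
is finite. -/
def torsionEquiv (n : ℤ)
    (hfin : (Submodule.torsionBy ℤ (W'⁄Ω).Point n : Set (W'⁄Ω).Point).Finite) :
    Submodule.torsionBy ℤ (W'⁄F).Point n ≃+ Submodule.torsionBy ℤ (W'⁄Ω).Point n :=
  AddEquiv.ofBijective (torsionHom (W' := W') F (Ω := Ω) n)
    ⟨torsionHom_injective F n, torsionHom_surjective F n hfin⟩

@[simp] theorem coe_torsionEquiv (n : ℤ)
    (hfin : (Submodule.torsionBy ℤ (W'⁄Ω).Point n : Set (W'⁄Ω).Point).Finite)
    (P : Submodule.torsionBy ℤ (W'⁄F).Point n) :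
    ((torsionEquiv (W' := W') F (Ω := Ω) n hfin P : Submodule.torsionBy ℤ (W'⁄Ω).Point n) :
      (W'⁄Ω).Point) = Point.baseChange F Ω (P : (W'⁄F).Point) := rfl

theorem natCard_torsion_eq (n : ℤ)
    (hfin : (Submodule.torsionBy ℤ (W'⁄Ω).Point n : Set (W'⁄Ω).Point).Finite) :
    Nat.card (Submodule.torsionBy ℤ (W'⁄F).Point n)
      = Nat.card (Submodule.torsionBy ℤ (W'⁄Ω).Point n) :=
  Nat.card_congr (torsionEquiv (W' := W') F (Ω := Ω) n hfin).toEquiv

omit [IsAlgClosed F] [IsAlgClosed Ω] in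
theorem xCoord_baseChange (P : (W'⁄F).Point) :
    xCoord W' Ω (Point.baseChange F Ω P) = algebraMap F Ω (xCoord W' F P) := by
  cases P with
  | zero => exact (map_zero (algebraMap F Ω)).symm
  | some x y h => rfl

omit [IsAlgClosed F] [IsAlgClosed Ω] in
theorem yCoord_baseChange (P : (W'⁄F).Point) :
    yCoord W' Ω (Point.baseChange F Ω P) = algebraMap F Ω (yCoord W' F P) := by
  cases P with
  | zero => exact (map_zero (algebraMap F Ω)).symm
  | some x y h => rfl

/-! ### Transport of products over the nonzero torsion points -/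

omit [IsAlgClosed F] [IsAlgClosed Ω] in
theorem torsionHom_eq_zero_iff (n : ℤ) (P : Submodule.torsionBy ℤ (W'⁄F).Point n) :
    torsionHom (W' := W') F (Ω := Ω) n P = 0 ↔ P = 0 :=
  map_eq_zero_iff _ (torsionHom_injective F n)

theorem torsionEquiv_eq_zero_iff (n : ℤ)
    (hfin : (Submodule.torsionBy ℤ (W'⁄Ω).Point n : Set (W'⁄Ω).Point).Finite)
    (P : Submodule.torsionBy ℤ (W'⁄F).Point n) :
    torsionEquiv (W' := W') F (Ω := Ω) n hfin P = 0 ↔ P = 0 :=
  torsionHom_eq_zero_iff F n P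

/-- The induced bijection between the nonzero `n`-torsion points. -/
def torsionNeZeroEquiv (n : ℤ)
    (hfin : (Submodule.torsionBy ℤ (W'⁄Ω).Point n : Set (W'⁄Ω).Point).Finite) :
    {P : Submodule.torsionBy ℤ (W'⁄F).Point n // P ≠ 0} ≃
      {P : Submodule.torsionBy ℤ (W'⁄Ω).Point n // P ≠ 0} :=
  (torsionEquiv (W' := W') F (Ω := Ω) n hfin).toEquiv.subtypeEquiv fun P =>
    not_congr (torsionEquiv_eq_zero_iff F n hfin P).symm

@[simp] theorem coe_torsionNeZeroEquiv (n : ℤ)
    (hfin : (Submodule.torsionBy ℤ (W'⁄Ω).Point n : Set (W'⁄Ω).Point).Finite)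
    (P : {P : Submodule.torsionBy ℤ (W'⁄F).Point n // P ≠ 0}) :
    (((torsionNeZeroEquiv (W' := W') F (Ω := Ω) n hfin P :
      {P : Submodule.torsionBy ℤ (W'⁄Ω).Point n // P ≠ 0}) :
        Submodule.torsionBy ℤ (W'⁄Ω).Point n) : (W'⁄Ω).Point)
      = Point.baseChange F Ω ((P : Submodule.torsionBy ℤ (W'⁄F).Point n) : (W'⁄F).Point) := rfl

omit [IsAlgClosed F] [IsAlgClosed Ω] in
theorem finite_torsion_of_finite (n : ℤ)
    (hfin : (Submodule.torsionBy ℤ (W'⁄Ω).Point n : Set (W'⁄Ω).Point).Finite) :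
    Finite (Submodule.torsionBy ℤ (W'⁄F).Point n) := by
  have : Finite (Submodule.torsionBy ℤ (W'⁄Ω).Point n) := hfin
  exact Finite.of_injective _ (torsionHom_injective (W' := W') F (Ω := Ω) n)

/-- Products of any point function over the `n`-torsion: reindexing along base change. -/
theorem finprod_torsion_eq {M : Type*} [CommMonoid M] (n : ℤ)
    (hfin : (Submodule.torsionBy ℤ (W'⁄Ω).Point n : Set (W'⁄Ω).Point).Finite)
    (h : (W'⁄Ω).Point → M) :
    ∏ᶠ P : Submodule.torsionBy ℤ (W'⁄Ω).Point n, h (P : (W'⁄Ω).Point)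
      = ∏ᶠ P : Submodule.torsionBy ℤ (W'⁄F).Point n,
          h (Point.baseChange F Ω (P : (W'⁄F).Point)) :=
  (finprod_comp_equiv (torsionEquiv (W' := W') F (Ω := Ω) n hfin).toEquiv
    (f := fun P : Submodule.torsionBy ℤ (W'⁄Ω).Point n => h (P : (W'⁄Ω).Point))).symm

/-- Products of any point function over the nonzero `n`-torsion points: reindexing along base
change. -/
theorem finprod_torsion_ne_zero_eq {M : Type*} [CommMonoid M] (n : ℤ)
    (hfin : (Submodule.torsionBy ℤ (W'⁄Ω).Point n : Set (W'⁄Ω).Point).Finite)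
    (h : (W'⁄Ω).Point → M) :
    ∏ᶠ P : {P : Submodule.torsionBy ℤ (W'⁄Ω).Point n // P ≠ 0},
        h ((P : Submodule.torsionBy ℤ (W'⁄Ω).Point n) : (W'⁄Ω).Point)
      = ∏ᶠ P : {P : Submodule.torsionBy ℤ (W'⁄F).Point n // P ≠ 0},
          h (Point.baseChange F Ω ((P : Submodule.torsionBy ℤ (W'⁄F).Point n) : (W'⁄F).Point)) :=
  (finprod_comp_equiv (torsionNeZeroEquiv (W' := W') F (Ω := Ω) n hfin)
    (f := fun P : {P : Submodule.torsionBy ℤ (W'⁄Ω).Point n // P ≠ 0} =>
      h ((P : Submodule.torsionBy ℤ (W'⁄Ω).Point n) : (W'⁄Ω).Point))).symm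

/-- **Transfer of coordinate products.** If `g : F → F → F` and `g' : Ω → Ω → Ω` are compatible
with `F → Ω`, the image in `Ω` of the product of `g (x T) (y T)` over the nonzero `n`-torsion
points over `F` is the product of `g' (x T) (y T)` over the nonzero `n`-torsion points over `Ω`. -/
theorem algebraMap_finprod_coord (n : ℤ)
    (hfin : (Submodule.torsionBy ℤ (W'⁄Ω).Point n : Set (W'⁄Ω).Point).Finite)
    (g : F → F → F) (g' : Ω → Ω → Ω)
    (hg : ∀ x y, algebraMap F Ω (g x y) = g' (algebraMap F Ω x) (algebraMap F Ω y)) :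
    algebraMap F Ω (∏ᶠ P : {P : Submodule.torsionBy ℤ (W'⁄F).Point n // P ≠ 0},
        g (xCoord W' F ((P : Submodule.torsionBy ℤ (W'⁄F).Point n) : (W'⁄F).Point))
          (yCoord W' F ((P : Submodule.torsionBy ℤ (W'⁄F).Point n) : (W'⁄F).Point)))
      = ∏ᶠ P : {P : Submodule.torsionBy ℤ (W'⁄Ω).Point n // P ≠ 0},
        g' (xCoord W' Ω ((P : Submodule.torsionBy ℤ (W'⁄Ω).Point n) : (W'⁄Ω).Point))
          (yCoord W' Ω ((P : Submodule.torsionBy ℤ (W'⁄Ω).Point n) : (W'⁄Ω).Point)) := by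
  have hF : Finite (Submodule.torsionBy ℤ (W'⁄F).Point n) := finite_torsion_of_finite F n hfin
  rw [finprod_torsion_ne_zero_eq F n hfin
    (fun P => g' (xCoord W' Ω P) (yCoord W' Ω P))]
  rw [map_finprod (algebraMap F Ω) (Set.toFinite _)]
  refine finprod_congr fun P => ?_
  rw [hg, xCoord_baseChange, yCoord_baseChange]

/-- **Transfer of identities.** A coordinate product identity over `Ω` descends to `F`. -/
theorem finprod_coord_eq_of_algebraMap (n : ℤ)
    (hfin : (Submodule.torsionBy ℤ (W'⁄Ω).Point n : Set (W'⁄Ω).Point).Finite)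
    (g : F → F → F) (g' : Ω → Ω → Ω)
    (hg : ∀ x y, algebraMap F Ω (g x y) = g' (algebraMap F Ω x) (algebraMap F Ω y)) (c : F)
    (h : ∏ᶠ P : {P : Submodule.torsionBy ℤ (W'⁄Ω).Point n // P ≠ 0},
        g' (xCoord W' Ω ((P : Submodule.torsionBy ℤ (W'⁄Ω).Point n) : (W'⁄Ω).Point))
          (yCoord W' Ω ((P : Submodule.torsionBy ℤ (W'⁄Ω).Point n) : (W'⁄Ω).Point))
        = algebraMap F Ω c) :
    ∏ᶠ P : {P : Submodule.torsionBy ℤ (W'⁄F).Point n // P ≠ 0},
        g (xCoord W' F ((P : Submodule.torsionBy ℤ (W'⁄F).Point n) : (W'⁄F).Point))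
          (yCoord W' F ((P : Submodule.torsionBy ℤ (W'⁄F).Point n) : (W'⁄F).Point)) = c := by
  apply (algebraMap F Ω).injective
  rw [algebraMap_finprod_coord F n hfin g g' hg, h]

theorem natCard_torsion_eq_of_natCard (n : ℤ) {m : ℕ} (hm : m ≠ 0)
    (h : Nat.card (Submodule.torsionBy ℤ (W'⁄Ω).Point n) = m) :
    Nat.card (Submodule.torsionBy ℤ (W'⁄F).Point n) = m := by
  have hfin : Finite (Submodule.torsionBy ℤ (W'⁄Ω).Point n) :=
    Nat.finite_of_card_ne_zero (h ▸ hm)
  rw [natCard_torsion_eq (W' := W') F (Ω := Ω) n hfin, h]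

end Torsion

/-! ### (D3): `ℚ̄ ⊆ ℂ` -/

section Complex

open WeierstrassCurve WeierstrassCurve.Affine

/-- `ℚ̄/ℚ` is algebraic, for the `ℚ`-algebra structure found by instance synthesis. -/
theorem isAlgebraic_qbar : Algebra.IsAlgebraic ℚ (AlgebraicClosure ℚ) :=
  AlgebraicClosure.isAlgebraic ℚ

/-- A fixed embedding `ℚ̄ → ℂ`. -/
def qbarEmb : AlgebraicClosure ℚ →ₐ[ℚ] ℂ :=
  haveI := isAlgebraic_qbar
  IsAlgClosed.lift

/-- The `ℚ̄`-algebra structure on `ℂ` given by `qbarEmb` (NOT a global instance). -/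
@[reducible] def qbarAlgebra : Algebra (AlgebraicClosure ℚ) ℂ := qbarEmb.toRingHom.toAlgebra

attribute [local instance] qbarAlgebra

theorem algebraMap_qbar_apply (x : AlgebraicClosure ℚ) :
    algebraMap (AlgebraicClosure ℚ) ℂ x = qbarEmb x := rfl

instance isScalarTower_qbar : IsScalarTower ℚ (AlgebraicClosure ℚ) ℂ :=
  IsScalarTower.of_algebraMap_eq fun q => (qbarEmb.commutes q).symm

variable (W' : Affine ℚ) [DecidableEq (AlgebraicClosure ℚ)] [DecidableEq ℂ]

/-- **(D3)** the `n`-torsion of `W'` over `ℚ̄` and over `ℂ` are isomorphic when the latter is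
finite. -/
def torsionEquivQbar (n : ℤ)
    (hfin : (Submodule.torsionBy ℤ (W'⁄ℂ).Point n : Set (W'⁄ℂ).Point).Finite) :
    Submodule.torsionBy ℤ (W'⁄(AlgebraicClosure ℚ)).Point n ≃+
      Submodule.torsionBy ℤ (W'⁄ℂ).Point n :=
  torsionEquiv (W' := W') (AlgebraicClosure ℚ) (Ω := ℂ) n hfin

/-- **(D3)** The number of `n`-torsion points of `W'/ℚ` over `ℚ̄` equals that over `ℂ`
(if the latter is a nonzero natural number `m`). -/
theorem natCard_torsion_qbar (n : ℤ) {m : ℕ} (hm : m ≠ 0)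
    (h : Nat.card (Submodule.torsionBy ℤ (W'⁄ℂ).Point n) = m) :
    Nat.card (Submodule.torsionBy ℤ (W'⁄(AlgebraicClosure ℚ)).Point n) = m :=
  natCard_torsion_eq_of_natCard (W' := W') (AlgebraicClosure ℚ) (Ω := ℂ) n hm h

end Complex

end Fermat.Agent.S13.CU.Descent
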