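/-
PROJECT G (S13), slice (A11) part 2 (helper2): the descent of `Descent.lean` in the vocabulary of
`S13/Iface.lean`: for algebraically closed fields `K → Ω` and a Weierstrass curve `W` over `K`,
`TorsionCard (W.map i) n → TorsionCard W n` and `ValSum (W.map i) p → ValSum W p`.
-/
import Fermat.Agent.S13.CU.Descent
import Fermat.Agent.S13.Iface

set_option autoImplicit false

open scoped Classical

noncomputable section

namespace Fermat.Agent.S13.CU.DescentIface

open WeierstrassCurve WeierstrassCurve.Affine Fermat.Agent.S13 Fermat.Agent.S13.CU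

variable {K Ω : Type*} [Field K] [Field Ω] [DecidableEq K] [DecidableEq Ω]
variable (i : K →+* Ω) (W : WeierstrassCurve K)

/-- The group homomorphism on points induced by a ring homomorphism of fields. -/
def mapPoint : W.toAffine.Point →+ (W.map i).toAffine.Point :=
  letI : Algebra K Ω := i.toAlgebra
  (Point.map (W' := W.toAffine) (Algebra.ofId K Ω) : (W.toAffine⁄K).Point →+ (W.toAffine⁄Ω).Point)

theorem mapPoint_some {x y : K} (h : W.toAffine.Nonsingular x y) :
    ∃ h' : (W.map i).toAffine.Nonsingular (i x) (i y),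
      mapPoint i W (Point.some x y h) = Point.some (i x) (i y) h' :=
  ⟨_, rfl⟩

theorem mapPoint_injective : Function.Injective (mapPoint i W) :=
  letI : Algebra K Ω := i.toAlgebra
  Point.map_injective (W' := W.toAffine) (Algebra.ofId K Ω)

theorem xc_mapPoint (T : W.toAffine.Point) :
    Iface.xc (W.map i) (mapPoint i W T) = i (Iface.xc W T) := by
  cases T with
  | zero => exact (map_zero i).symm
  | some x y h => rfl

theorem mapPoint_eq_zero_iff (T : W.toAffine.Point) : mapPoint i W T = 0 ↔ T = 0 :=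
  map_eq_zero_iff _ (mapPoint_injective i W)

variable [IsAlgClosed K] [IsAlgClosed Ω]

/-- **(D2)** in ring-hom form: every `n`-torsion point of `W.map i` comes from `W`, if the
`n`-torsion of `W.map i` is finite. -/
theorem exists_mapPoint_eq (n : ℕ)
    (hfin : Finite (Submodule.torsionBy ℤ (W.map i).toAffine.Point n))
    (T' : (W.map i).toAffine.Point) (hT' : n • T' = 0) :
    ∃ T : W.toAffine.Point, n • T = 0 ∧ mapPoint i W T = T' := by
  have hT'' : (n : ℤ) • T' = 0 := by rw [natCast_zsmul]; exact hT'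
  have h1 : (Submodule.torsionBy ℤ (W.map i).toAffine.Point n :
      Set (W.map i).toAffine.Point).Finite := hfin
  have hfin0 : {P : (W.map i).toAffine.Point | (n : ℤ) • P = 0}.Finite := by
    refine h1.subset fun Q hQ => ?_
    exact (Submodule.mem_torsionBy_iff _ _).mpr hQ
  obtain ⟨P₀, h0, h1⟩ : ∃ P₀ : W.toAffine.Point, (n : ℤ) • P₀ = 0 ∧ mapPoint i W P₀ = T' :=
    letI : Algebra K Ω := i.toAlgebra
    Descent.exists_baseChange_eq (W' := W.toAffine) K (Ω := Ω) (n : ℤ) hfin0 T' hT''
  refine ⟨P₀, ?_, h1⟩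
  rw [← natCast_zsmul]
  exact h0

omit [IsAlgClosed K] [IsAlgClosed Ω] in
theorem nsmul_mapPoint (n : ℕ) (T : W.toAffine.Point) :
    n • mapPoint i W T = mapPoint i W (n • T) := (map_nsmul _ _ _).symm

omit [IsAlgClosed K] [IsAlgClosed Ω] in
theorem nsmul_mapPoint_eq_zero_iff (n : ℕ) (T : W.toAffine.Point) :
    n • mapPoint i W T = 0 ↔ n • T = 0 := by
  rw [nsmul_mapPoint, mapPoint_eq_zero_iff]

/-- **(T) descends**: `TorsionCard (W.map i) n → TorsionCard W n` for `0 < n`. -/
theorem torsionCard_of_map {n : ℕ} (hn : 0 < n) (h : Iface.TorsionCard (W.map i) n) :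
    Iface.TorsionCard W n := by
  have hfin : Finite (Submodule.torsionBy ℤ (W.map i).toAffine.Point n) := h.finite hn
  let f : Submodule.torsionBy ℤ W.toAffine.Point n →
      Submodule.torsionBy ℤ (W.map i).toAffine.Point n := fun P =>
    ⟨mapPoint i W P, by
      rw [Iface.mem_torsionBy_iff_nsmul, nsmul_mapPoint_eq_zero_iff]
      exact (Iface.mem_torsionBy_iff_nsmul W n _).mp P.2⟩
  have hf : Function.Bijective f := by
    constructor
    · intro P Q hPQ
      exact Subtype.ext (mapPoint_injective i W (congrArg Subtype.val hPQ))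
    · rintro ⟨T', hT'⟩
      obtain ⟨T, h0, h1⟩ := exists_mapPoint_eq i W n hfin T'
        ((Iface.mem_torsionBy_iff_nsmul _ n _).mp hT')
      exact ⟨⟨T, (Iface.mem_torsionBy_iff_nsmul W n _).mpr h0⟩, Subtype.ext h1⟩
  unfold Iface.TorsionCard at h ⊢
  rw [Nat.card_eq_of_bijective f hf, h]

/-- **(VS) descends**: `ValSum (W.map i) p → ValSum W p`, if the `p`-torsion of `W.map i` is
finite. -/
theorem valSum_of_map_of_finite {p : ℕ}
    (hfin : Finite (Submodule.torsionBy ℤ (W.map i).toAffine.Point p))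
    (h : Iface.ValSum (W.map i) p) : Iface.ValSum W p := by
  intro e he S hS
  have he' : 4 * i e ^ 3 + (W.map i).b₂ * i e ^ 2 + 2 * (W.map i).b₄ * i e + (W.map i).b₆ = 0 := by
    rw [map_b₂, map_b₄, map_b₆]
    have := congrArg i he
    simpa only [map_add, map_mul, map_pow, map_ofNat, map_zero] using this
  have hS' : ∀ T', T' ∈ S.map ⟨mapPoint i W, mapPoint_injective i W⟩ ↔ p • T' = 0 ∧ T' ≠ 0 := by
    intro T'
    rw [Finset.mem_map]
    constructor
    · rintro ⟨T, hT, rfl⟩
      obtain ⟨h0, h1⟩ := (hS T).mp hT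
      refine ⟨?_, ?_⟩
      · exact (nsmul_mapPoint_eq_zero_iff i W p T).mpr h0
      · exact fun hz => h1 ((mapPoint_eq_zero_iff i W T).mp hz)
    · rintro ⟨h0, h1⟩
      obtain ⟨T, hT0, rfl⟩ := exists_mapPoint_eq i W p hfin T' h0
      refine ⟨T, (hS T).mpr ⟨hT0, ?_⟩, rfl⟩
      rintro rfl
      exact h1 (map_zero _)
  have key := h (i e) he' _ hS'
  rw [Finset.prod_map] at key
  apply i.injective
  simp only [map_mul, map_pow, map_prod, map_sub, map_add, map_natCast, map_ofNat]
  simp only [Function.Embedding.coeFn_mk, xc_mapPoint, map_b₂, map_b₄] at key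
  exact key

/-- **(VS) descends**: `ValSum (W.map i) p → ValSum W p` given `TorsionCard (W.map i) p`,
`0 < p`. -/
theorem valSum_of_map {p : ℕ} (hp : 0 < p) (hT : Iface.TorsionCard (W.map i) p)
    (h : Iface.ValSum (W.map i) p) : Iface.ValSum W p :=
  valSum_of_map_of_finite i W (hT.finite hp) h

/-! ### Tower form: a curve over `R`, base changed along `R → K → Ω` -/

section Tower

variable {R : Type*} [CommRing R] [Algebra R K] [Algebra R Ω] (W₀ : WeierstrassCurve R)
  (ι : K →ₐ[R] Ω)

include ι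

omit [DecidableEq K] [DecidableEq Ω] [IsAlgClosed K] [IsAlgClosed Ω] in
theorem map_baseChange_eq : (W₀.baseChange K).map (ι : K →+* Ω) = W₀.baseChange Ω := by
  show (W₀.map (algebraMap R K)).map (ι : K →+* Ω) = W₀.map (algebraMap R Ω)
  rw [WeierstrassCurve.map_map, AlgHom.comp_algebraMap]

/-- **(T) descends** along `R → K → Ω`. -/
theorem torsionCard_baseChange {n : ℕ} (hn : 0 < n)
    (h : Iface.TorsionCard (W₀.baseChange Ω) n) : Iface.TorsionCard (W₀.baseChange K) n := by
  rw [← map_baseChange_eq W₀ ι] at h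
  exact torsionCard_of_map (ι : K →+* Ω) _ hn h

/-- **(VS) descends** along `R → K → Ω`. -/
theorem valSum_baseChange {p : ℕ} (hp : 0 < p)
    (hT : Iface.TorsionCard (W₀.baseChange Ω) p) (h : Iface.ValSum (W₀.baseChange Ω) p) :
    Iface.ValSum (W₀.baseChange K) p := by
  rw [← map_baseChange_eq W₀ ι] at h hT
  exact valSum_of_map (ι : K →+* Ω) _ hp hT h

end Tower

/-! ### `ℚ ⊆ ℚ̄ ⊆ ℂ` -/

section Complex

variable [DecidableEq (AlgebraicClosure ℚ)] [DecidableEq ℂ] (W₀ : WeierstrassCurve ℚ)

/-- **(T) over `ℂ` ⇒ (T) over `ℚ̄`** for a curve over `ℚ`.  The conclusion is (definitionally) the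
statement `Nat.card (Submodule.torsionBy ℤ (W₀⁄(AlgebraicClosure ℚ)).Point n) = n ^ 2`. -/
theorem torsionCard_qbar {n : ℕ} (hn : 0 < n) (h : Iface.TorsionCard (W₀.baseChange ℂ) n) :
    Iface.TorsionCard (W₀.baseChange (AlgebraicClosure ℚ)) n :=
  torsionCard_baseChange W₀ Descent.qbarEmb hn h

/-- The same in the prelude's spelling of the torsion module. -/
theorem natCard_torsion_qbar {n : ℕ} (hn : 0 < n) (h : Iface.TorsionCard (W₀.baseChange ℂ) n) :
    Nat.card (Submodule.torsionBy ℤ (W₀.toAffine⁄(AlgebraicClosure ℚ)).Point n) = n ^ 2 :=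
  torsionCard_qbar W₀ hn h

/-- **(VS) over `ℂ` ⇒ (VS) over `ℚ̄`** for a curve over `ℚ`. -/
theorem valSum_qbar {p : ℕ} (hp : 0 < p) (hT : Iface.TorsionCard (W₀.baseChange ℂ) p)
    (h : Iface.ValSum (W₀.baseChange ℂ) p) :
    Iface.ValSum (W₀.baseChange (AlgebraicClosure ℚ)) p :=
  valSum_baseChange W₀ Descent.qbarEmb hp hT h

end Complex

end Fermat.Agent.S13.CU.DescentIface
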