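import Fermat.Agent.S13.CU.TorsionC
import Fermat.Agent.S13.CU.DescentIface
import Fermat.Agent.S13.Global
import Fermat.Agent.S13.Local.FreyPArith

/-!
# (T) over `ℚ̄`, and `hcard` for the Frey curve

* `torsionCard_qbar` : for a Weierstrass curve `W` over `ℚ̄` with `Δ ≠ 0`, `Iface.TorsionCard W n`.
* `card_tors_frey` : `Nat.card (Tors P.freyCurve P.p) = P.p ^ 2`, the `hcard` input of
  `FreyGlue.result_of` / `RGlue.result_of_filtrations`.
-/

set_option autoImplicit false

open WeierstrassCurve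

namespace Fermat.Agent.S13.CU.TorsionQbar

local notation "Qbar" => AlgebraicClosure ℚ

/-- An embedding `ℚ̄ → ℂ`. -/
noncomputable def iota : Qbar →+* ℂ :=
  ((IsAlgClosed.lift : Qbar →ₐ[ℚ] ℂ) : Qbar →+* ℂ)

/-- **(T) over `ℚ̄`.** -/
theorem torsionCard_qbar (W : WeierstrassCurve Qbar) (hW : W.Δ ≠ 0) (n : ℕ) (hn : 0 < n) :
    Iface.TorsionCard W n := by
  refine DescentIface.torsionCard_of_map iota W hn ?_
  refine TorsionC.torsionCard (W.map iota) ?_ n hn
  rw [map_Δ]
  exact (map_ne_zero iota).mpr hW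

/-- **`hcard`**: the `p`-torsion of the Frey curve over `ℚ̄` has `p²` elements. -/
theorem card_tors_frey (P : FreyPackage) :
    Nat.card (Global.Tors P.freyCurve P.p) = P.p ^ 2 := by
  have hp : 0 < P.p := P.pp.pos
  refine DescentIface.natCard_torsion_qbar P.freyCurve hp ?_
  exact TorsionC.torsionCard (P.freyCurve.baseChange ℂ)
    (Local.FreyPArith.freyCurve_Δ_ne_zero P ℂ) P.p hp

end Fermat.Agent.S13.CU.TorsionQbar
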