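import Fermat.Agent.S13.CU.MainC
import Fermat.Agent.S13.CU.DescentIface
import Fermat.Agent.S13.Global
import Fermat.Agent.S05.FreyInst

/-!
# PROJECT G (S13): end of the complex-uniformisation block

* `torsionCard_valSum_of_embedding` : for an algebraically closed field `K` with an embedding into
  `ℂ` and a Weierstrass curve `W` over `K` with `Δ ≠ 0`: `Iface.TorsionCard W n ∧ Iface.ValSum W n`
  for every odd `n`.
* `torsionCard_valSum` : the same over `ℚ̄`.
* `frey_card`, `frey_torsionCard`, `frey_valSum` : the instances for the Frey curve over `ℚ̄`.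
-/

set_option autoImplicit false

noncomputable section

namespace Fermat.Agent.S13.CU.Main

open Fermat.Agent.S13.Iface WeierstrassCurve

/-- (T) and (VS) for a curve with `Δ ≠ 0` over an algebraically closed field embedded in `ℂ`. -/
theorem torsionCard_valSum_of_embedding {K : Type*} [Field K] [DecidableEq K] [IsAlgClosed K]
    (i : K →+* ℂ) (W : WeierstrassCurve K) (hW : W.Δ ≠ 0) {n : ℕ} (hn : Odd n) :
    TorsionCard W n ∧ ValSum W n := by
  have hΔ : (W.map i).Δ ≠ 0 := by
    rw [WeierstrassCurve.map_Δ]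
    exact (map_ne_zero i).mpr hW
  obtain ⟨hT, hV⟩ := MainC.torsionCard_valSum (W.map i) hΔ hn
  exact ⟨DescentIface.torsionCard_of_map i W hn.pos hT,
    DescentIface.valSum_of_map i W hn.pos hT hV⟩

variable [DecidableEq (AlgebraicClosure ℚ)]

/-- **End of block CU**: (T) and (VS) for every Weierstrass curve over `ℚ̄` with `Δ ≠ 0` and every
odd `n`. -/
theorem torsionCard_valSum (W : WeierstrassCurve (AlgebraicClosure ℚ)) (hW : W.Δ ≠ 0) {n : ℕ}
    (hn : Odd n) : TorsionCard W n ∧ ValSum W n :=
  torsionCard_valSum_of_embedding (Descent.qbarEmb : AlgebraicClosure ℚ →+* ℂ) W hW hn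

variable (P : FreyPackage)

/-- (T) for the Frey curve over `ℚ̄`. -/
theorem frey_torsionCard : TorsionCard (P.freyCurve⁄(AlgebraicClosure ℚ)) P.p :=
  (torsionCard_valSum _ (Fermat.Agent.S05.FreyInst.Δ_ne_zero P (AlgebraicClosure ℚ)) P.hp_odd).1

/-- (VS) for the Frey curve over `ℚ̄`. -/
theorem frey_valSum : ValSum (P.freyCurve⁄(AlgebraicClosure ℚ)) P.p :=
  (torsionCard_valSum _ (Fermat.Agent.S05.FreyInst.Δ_ne_zero P (AlgebraicClosure ℚ)) P.hp_odd).2

/-- (VS) for the Frey curve over `ℚ̄`, `WeierstrassCurve.map` spelling. -/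
theorem frey_valSum_map :
    ValSum (P.freyCurve.map (algebraMap ℚ (AlgebraicClosure ℚ))) P.p :=
  frey_valSum P

end Fermat.Agent.S13.CU.Main

namespace Fermat.Agent.S13.CU.Main

/-- (T) `hcard` for the Frey curve in the spelling of `FreyGlue.result_of`. -/
theorem frey_card (P : FreyPackage) :
    Nat.card (Fermat.Agent.S13.Global.Tors P.freyCurve P.p) = P.p ^ 2 :=
  frey_torsionCard P

end Fermat.Agent.S13.CU.Main
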