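/-
PROJECT G (S13), slice G-CU (A6b) (helper7): from the addition theorem for `℘` (taken as a
hypothesis structure `AddData`) to the group isomorphism `ℂ ⧸ Λ ≃+ E_Λ(ℂ)` for Mathlib's group law
on the affine points of `shortOf L : Y² = X³ - (g₂/4) X - g₃/4`, `z ↦ (℘ z, ℘' z / 2)`.

Only the GENERIC chord formulas are needed: the doubling case follows from
`2a = (a + c) + (a - c)` for a generic auxiliary `c`, because `Point` is a commutative group.
-/
import Mathlib
import Fermat.Agent.S13.CU.Defs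
import Fermat.Agent.S13.CU.Liouville

set_option autoImplicit false

noncomputable section

namespace Fermat.Agent.S13.CU.UnifHom

open Complex Filter Topology
open scoped PeriodPair
open Fermat.Agent.S13.CU.Defs
open WeierstrassCurve.Affine

/-- The analytic inputs for the uniformisation isomorphism. -/
structure AddData (L : PeriodPair) : Prop where
  /-- (A3) the discriminant does not vanish. -/
  disc : L.g₂ ^ 3 - 27 * L.g₃ ^ 2 ≠ 0
  /-- (A4) `℘` takes each value only at `± z` modulo the lattice. -/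
  inj : ∀ u v : ℂ, u ∉ L.lattice → v ∉ L.lattice → ℘[L] u = ℘[L] v →
    u - v ∈ L.lattice ∨ u + v ∈ L.lattice
  /-- (AD1) the addition theorem, `x`-coordinate, generic chord. -/
  add_x : ∀ u v : ℂ, u ∉ L.lattice → v ∉ L.lattice → u + v ∉ L.lattice → ℘[L] u ≠ ℘[L] v →
    ℘[L] (u + v) = ((℘'[L] u - ℘'[L] v) / (℘[L] u - ℘[L] v)) ^ 2 / 4 - ℘[L] u - ℘[L] v
  /-- (AD2) the addition theorem, `y`-coordinate, generic chord. -/
  add_y : ∀ u v : ℂ, u ∉ L.lattice → v ∉ L.lattice → u + v ∉ L.lattice → ℘[L] u ≠ ℘[L] v →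
    ℘'[L] (u + v) =
      -((℘'[L] u - ℘'[L] v) / (℘[L] u - ℘[L] v) * (℘[L] (u + v) - ℘[L] u) + ℘'[L] u)

/-- `AddData` from the addition theorem written with the half slope
`λ = (℘' u - ℘' v) / (2 (℘ u - ℘ v))`. -/
theorem AddData.of_half_slope {L : PeriodPair} (disc : L.g₂ ^ 3 - 27 * L.g₃ ^ 2 ≠ 0)
    (inj : ∀ u v : ℂ, u ∉ L.lattice → v ∉ L.lattice → ℘[L] u = ℘[L] v →
      u - v ∈ L.lattice ∨ u + v ∈ L.lattice)
    (add_x : ∀ u v : ℂ, u ∉ L.lattice → v ∉ L.lattice → u + v ∉ L.lattice → ℘[L] u ≠ ℘[L] v →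
      ℘[L] (u + v) = ((℘'[L] u - ℘'[L] v) / (2 * (℘[L] u - ℘[L] v))) ^ 2 - ℘[L] u - ℘[L] v)
    (add_y : ∀ u v : ℂ, u ∉ L.lattice → v ∉ L.lattice → u + v ∉ L.lattice → ℘[L] u ≠ ℘[L] v →
      ℘'[L] (u + v) = 2 * ((℘'[L] u - ℘'[L] v) / (2 * (℘[L] u - ℘[L] v))) *
        (℘[L] u - ℘[L] (u + v)) - ℘'[L] u) : AddData L where
  disc := disc
  inj := inj
  add_x u v hu hv huv hne := by
    have hd : ℘[L] u - ℘[L] v ≠ 0 := sub_ne_zero.mpr hne
    rw [add_x u v hu hv huv hne]
    field_simp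
    ring
  add_y u v hu hv huv hne := by
    have hd : ℘[L] u - ℘[L] v ≠ 0 := sub_ne_zero.mpr hne
    rw [add_y u v hu hv huv hne]
    field_simp
    ring

/-- `AddData` with (A4) given as an equivalence. -/
theorem AddData.of_iff {L : PeriodPair} (disc : L.g₂ ^ 3 - 27 * L.g₃ ^ 2 ≠ 0)
    (inj : ∀ u v : ℂ, u ∉ L.lattice → v ∉ L.lattice →
      (℘[L] u = ℘[L] v ↔ u - v ∈ L.lattice ∨ u + v ∈ L.lattice))
    (add_x : ∀ u v : ℂ, u ∉ L.lattice → v ∉ L.lattice → u + v ∉ L.lattice → ℘[L] u ≠ ℘[L] v →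
      ℘[L] (u + v) = ((℘'[L] u - ℘'[L] v) / (℘[L] u - ℘[L] v)) ^ 2 / 4 - ℘[L] u - ℘[L] v)
    (add_y : ∀ u v : ℂ, u ∉ L.lattice → v ∉ L.lattice → u + v ∉ L.lattice → ℘[L] u ≠ ℘[L] v →
      ℘'[L] (u + v) =
        -((℘'[L] u - ℘'[L] v) / (℘[L] u - ℘[L] v) * (℘[L] (u + v) - ℘[L] u) + ℘'[L] u)) :
    AddData L :=
  ⟨disc, fun u v hu hv h => (inj u v hu hv).mp h, add_x, add_y⟩

variable (L : PeriodPair)

/-! ## The points `(℘ z, ℘' z / 2)` -/

theorem equation_wp {z : ℂ} (hz : z ∉ L.lattice) :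
    (shortOf L).toAffine.Equation (℘[L] z) (℘'[L] z / 2) := by
  rw [shortOf_equation_iff]
  have := L.derivWeierstrassP_sq z hz
  linear_combination (1 / 4 : ℂ) * this

theorem nonsingular_wp (h3 : L.g₂ ^ 3 - 27 * L.g₃ ^ 2 ≠ 0) {z : ℂ} (hz : z ∉ L.lattice) :
    (shortOf L).toAffine.Nonsingular (℘[L] z) (℘'[L] z / 2) :=
  ((shortOf L).toAffine.equation_iff_nonsingular_of_Δ_ne_zero
    (by rw [show (shortOf L).toAffine.Δ = (shortOf L).Δ from rfl, shortOf_Δ]; exact h3)).mp
    (equation_wp L hz)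

theorem some_congr {W : WeierstrassCurve.Affine ℂ} {x y x' y' : ℂ} (h : W.Nonsingular x y)
    (h' : W.Nonsingular x' y') (hx : x = x') (hy : y = y') :
    Point.some x y h = Point.some x' y' h' := by
  subst hx hy; rfl

open Classical in
/-- `z ↦ (℘ z, ℘' z / 2)`, and `0` on the lattice. -/
def toPointFun (h3 : L.g₂ ^ 3 - 27 * L.g₃ ^ 2 ≠ 0) (z : ℂ) : (shortOf L).toAffine.Point :=
  if hz : z ∈ L.lattice then 0 else Point.some _ _ (nonsingular_wp L h3 hz)

variable {L}
variable (h3 : L.g₂ ^ 3 - 27 * L.g₃ ^ 2 ≠ 0)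

theorem toPointFun_of_mem {z : ℂ} (hz : z ∈ L.lattice) : toPointFun L h3 z = 0 := by
  simp [toPointFun, hz]

theorem toPointFun_of_not_mem {z : ℂ} (hz : z ∉ L.lattice) :
    toPointFun L h3 z = Point.some _ _ (nonsingular_wp L h3 hz) := by
  simp [toPointFun, hz]

theorem toPointFun_eq_zero_iff {z : ℂ} : toPointFun L h3 z = 0 ↔ z ∈ L.lattice := by
  constructor
  · intro h
    by_contra hz
    rw [toPointFun_of_not_mem h3 hz] at h
    exact Point.some_ne_zero _ h
  · exact toPointFun_of_mem h3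

theorem toPointFun_add_mem (z : ℂ) {l : ℂ} (hl : l ∈ L.lattice) :
    toPointFun L h3 (z + l) = toPointFun L h3 z := by
  by_cases hz : z ∈ L.lattice
  · rw [toPointFun_of_mem h3 hz, toPointFun_of_mem h3 (L.lattice.add_mem hz hl)]
  · have hzl : z + l ∉ L.lattice := fun h => hz (by simpa using L.lattice.sub_mem h hl)
    rw [toPointFun_of_not_mem h3 hz, toPointFun_of_not_mem h3 hzl]
    exact some_congr _ _ (L.weierstrassP_add_coe z ⟨l, hl⟩)
      (by rw [L.derivWeierstrassP_add_coe z ⟨l, hl⟩])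

theorem toPointFun_neg (z : ℂ) : toPointFun L h3 (-z) = -toPointFun L h3 z := by
  by_cases hz : z ∈ L.lattice
  · rw [toPointFun_of_mem h3 hz, toPointFun_of_mem h3 (L.lattice.neg_mem hz), neg_zero]
  · have hnz : -z ∉ L.lattice := fun h => hz (by simpa using L.lattice.neg_mem h)
    rw [toPointFun_of_not_mem h3 hz, toPointFun_of_not_mem h3 hnz, Point.neg_some]
    refine some_congr _ _ (L.weierstrassP_neg z) ?_
    rw [L.derivWeierstrassP_neg z]
    simp [WeierstrassCurve.Affine.negY, WeierstrassCurve.toAffine]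
    ring

/-! ## Additivity -/

variable (hL : AddData L)
include hL

/-- The generic chord case. -/
theorem toPointFun_add_generic {u v : ℂ} (hu : u ∉ L.lattice) (hv : v ∉ L.lattice)
    (huv : u + v ∉ L.lattice) (hne : ℘[L] u ≠ ℘[L] v) :
    toPointFun L hL.disc (u + v) = toPointFun L hL.disc u + toPointFun L hL.disc v := by
  rw [toPointFun_of_not_mem _ hu, toPointFun_of_not_mem _ hv, toPointFun_of_not_mem _ huv,
    Point.add_of_X_ne hne]
  have hd : ℘[L] u - ℘[L] v ≠ 0 := sub_ne_zero.mpr hne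
  have hx := hL.add_x u v hu hv huv hne
  have hy := hL.add_y u v hu hv huv hne
  have hxX : ℘[L] (u + v) = (shortOf L).toAffine.addX (℘[L] u) (℘[L] v)
      ((shortOf L).toAffine.slope (℘[L] u) (℘[L] v) (℘'[L] u / 2) (℘'[L] v / 2)) := by
    rw [slope_of_X_ne hne, hx]
    simp only [addX, WeierstrassCurve.toAffine, shortOf_a₁, shortOf_a₂]
    field_simp
    ring
  refine some_congr _ _ hxX ?_
  simp only [addY, negY, negAddY]
  rw [← hxX, slope_of_X_ne hne, hy]
  simp only [WeierstrassCurve.toAffine, shortOf_a₁, shortOf_a₃]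
  field_simp
  ring

omit hL in
/-- A generic auxiliary point. -/
theorem exists_aux {u : ℂ} (hu : u ∉ L.lattice) :
    ∃ c : ℂ, c ∉ L.lattice ∧ 2 * c ∉ L.lattice ∧ u + c ∉ L.lattice ∧ u - c ∉ L.lattice := by
  have h0 : ∀ᶠ c in 𝓝 (0 : ℂ), c ∉ (L.lattice : Set ℂ) \ {0} :=
    L.compl_lattice_sdiff_singleton_mem_nhds 0
  have hopen : IsOpen ((L.lattice : Set ℂ)ᶜ) := L.isClosed_lattice.isOpen_compl
  have h1 : ∀ᶠ c in 𝓝[≠] (0 : ℂ), c ∉ L.lattice := by
    filter_upwards [h0.filter_mono nhdsWithin_le_nhds, self_mem_nhdsWithin] with c hc hc0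
    exact fun h => hc ⟨h, hc0⟩
  have h2 : ∀ᶠ c in 𝓝[≠] (0 : ℂ), 2 * c ∉ L.lattice := by
    have ht : Tendsto (fun c : ℂ => 2 * c) (𝓝 0) (𝓝 0) := by
      have : Continuous (fun c : ℂ => 2 * c) := by fun_prop
      simpa using this.tendsto 0
    filter_upwards [(ht.eventually h0).filter_mono nhdsWithin_le_nhds, self_mem_nhdsWithin]
      with c hc hc0
    exact fun h => hc ⟨h, by simpa using hc0⟩
  have h3 : ∀ᶠ c in 𝓝[≠] (0 : ℂ), u + c ∉ L.lattice := by
    have ht : Tendsto (fun c : ℂ => u + c) (𝓝 0) (𝓝 u) := by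
      have : Continuous (fun c : ℂ => u + c) := by fun_prop
      simpa using this.tendsto 0
    exact (ht.eventually (hopen.mem_nhds hu)).filter_mono nhdsWithin_le_nhds
  have h4 : ∀ᶠ c in 𝓝[≠] (0 : ℂ), u - c ∉ L.lattice := by
    have ht : Tendsto (fun c : ℂ => u - c) (𝓝 0) (𝓝 u) := by
      have : Continuous (fun c : ℂ => u - c) := by fun_prop
      simpa using this.tendsto 0
    exact (ht.eventually (hopen.mem_nhds hu)).filter_mono nhdsWithin_le_nhds
  exact (h1.and (h2.and (h3.and h4))).exists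

omit hL in
theorem wp_ne_of_not_mem (hL : AddData L) {u v : ℂ} (hu : u ∉ L.lattice) (hv : v ∉ L.lattice)
    (h1 : u - v ∉ L.lattice) (h2 : u + v ∉ L.lattice) : ℘[L] u ≠ ℘[L] v := fun h =>
  (hL.inj u v hu hv h).elim h1 h2

/-- The doubling case, via `2u = (u + c) + (u - c)`. -/
theorem toPointFun_two_mul {u : ℂ} (hu : u ∉ L.lattice) (h2u : 2 * u ∉ L.lattice) :
    toPointFun L hL.disc (2 * u) = toPointFun L hL.disc u + toPointFun L hL.disc u := by
  obtain ⟨c, hc, h2c, hpc, hmc⟩ := exists_aux hu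
  have hnc : -c ∉ L.lattice := fun h => hc (by simpa using L.lattice.neg_mem h)
  have e1 : toPointFun L hL.disc (2 * u) =
      toPointFun L hL.disc (u + c) + toPointFun L hL.disc (u - c) := by
    have hs : (u + c) + (u - c) = 2 * u := by ring
    have hd : (u + c) - (u - c) = 2 * c := by ring
    rw [← hs]
    exact toPointFun_add_generic hL hpc hmc (by rwa [hs])
      (wp_ne_of_not_mem hL hpc hmc (by rwa [hd]) (by rwa [hs]))
  have e2 : toPointFun L hL.disc (u + c) = toPointFun L hL.disc u + toPointFun L hL.disc c :=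
    toPointFun_add_generic hL hu hc hpc (wp_ne_of_not_mem hL hu hc hmc hpc)
  have e3 : toPointFun L hL.disc (u - c) = toPointFun L hL.disc u + toPointFun L hL.disc (-c) := by
    rw [sub_eq_add_neg]
    refine toPointFun_add_generic hL hu hnc (by rwa [← sub_eq_add_neg])
      (wp_ne_of_not_mem hL hu hnc (by rwa [sub_neg_eq_add]) (by rwa [← sub_eq_add_neg]))
  rw [e1, e2, e3, toPointFun_neg]
  abel

/-- `z ↦ (℘ z, ℘' z / 2)` is additive. -/
theorem toPointFun_add (u v : ℂ) :
    toPointFun L hL.disc (u + v) = toPointFun L hL.disc u + toPointFun L hL.disc v := by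
  by_cases hu : u ∈ L.lattice
  · rw [toPointFun_of_mem _ hu, zero_add, add_comm, toPointFun_add_mem _ _ hu]
  by_cases hv : v ∈ L.lattice
  · rw [toPointFun_of_mem _ hv, add_zero, toPointFun_add_mem _ _ hv]
  by_cases huv : u + v ∈ L.lattice
  · have hv' : toPointFun L hL.disc v = -toPointFun L hL.disc u := by
      rw [← toPointFun_neg, ← toPointFun_add_mem hL.disc (-u) huv]
      congr 1
      ring
    rw [toPointFun_of_mem _ huv, hv', add_neg_cancel]
  by_cases hne : ℘[L] u = ℘[L] v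
  · have hl : u - v ∈ L.lattice := (hL.inj u v hu hv hne).resolve_right huv
    have hnl : -(u - v) ∈ L.lattice := L.lattice.neg_mem hl
    have h2u : 2 * u ∉ L.lattice := fun h => huv (by
      have := L.lattice.sub_mem h hl
      have e : 2 * u - (u - v) = u + v := by ring
      rwa [e] at this)
    have ev : v = u + -(u - v) := by ring
    have euv : u + v = 2 * u + -(u - v) := by ring
    have hfv : toPointFun L hL.disc v = toPointFun L hL.disc u := by
      conv_lhs => rw [ev]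
      exact toPointFun_add_mem _ _ hnl
    rw [hfv, euv, toPointFun_add_mem _ _ hnl]
    exact toPointFun_two_mul hL hu h2u
  · exact toPointFun_add_generic hL hu hv huv hne

/-! ## The homomorphism and the isomorphism -/

omit hL in
/-- The uniformisation homomorphism `ℂ →+ E_Λ(ℂ)`, `z ↦ (℘ z, ℘' z / 2)`. -/
def toPoint (hL : AddData L) : ℂ →+ (shortOf L).toAffine.Point where
  toFun := toPointFun L hL.disc
  map_zero' := toPointFun_of_mem _ L.lattice.zero_mem
  map_add' := toPointFun_add hL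

theorem toPoint_apply (z : ℂ) : toPoint hL z = toPointFun L hL.disc z := rfl

theorem toPoint_of_mem {z : ℂ} (hz : z ∈ L.lattice) : toPoint hL z = 0 :=
  toPointFun_of_mem hL.disc hz

theorem toPoint_of_not_mem {z : ℂ} (hz : z ∉ L.lattice) :
    toPoint hL z = Point.some _ _ (nonsingular_wp L hL.disc hz) :=
  toPointFun_of_not_mem hL.disc hz

theorem toPoint_eq_zero_iff {z : ℂ} : toPoint hL z = 0 ↔ z ∈ L.lattice :=
  toPointFun_eq_zero_iff hL.disc

theorem ker_toPoint : (toPoint hL).ker = L.lattice.toAddSubgroup := by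
  ext z
  rw [AddMonoidHom.mem_ker, toPoint_eq_zero_iff]
  rfl

theorem toPoint_eq_iff {z w : ℂ} : toPoint hL z = toPoint hL w ↔ z - w ∈ L.lattice := by
  rw [← toPoint_eq_zero_iff hL, map_sub, sub_eq_zero]

theorem toPoint_surjective : Function.Surjective (toPoint hL) := by
  rintro (_ | ⟨x, y, h⟩)
  · exact ⟨0, map_zero _⟩
  · have heq : (2 * y) ^ 2 = 4 * x ^ 3 - L.g₂ * x - L.g₃ := by
      have := (shortOf_equation_iff L x y).mp h.1
      linear_combination 4 * this
    obtain ⟨z, hz, hzx, hzy⟩ := Liouville.exists_point L heq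
    refine ⟨z, ?_⟩
    rw [toPoint_of_not_mem hL hz]
    exact some_congr _ _ hzx (by rw [hzy]; ring)

omit hL in
/-- (A6) the uniformisation isomorphism `ℂ ⧸ Λ ≃+ E_Λ(ℂ)`. -/
def pointEquiv (hL : AddData L) :
    (ℂ ⧸ L.lattice.toAddSubgroup) ≃+ (shortOf L).toAffine.Point :=
  (QuotientAddGroup.quotientAddEquivOfEq (ker_toPoint hL).symm).trans
    (QuotientAddGroup.quotientKerEquivOfSurjective (toPoint hL) (toPoint_surjective hL))

theorem pointEquiv_mk (z : ℂ) :
    pointEquiv hL (z : ℂ ⧸ L.lattice.toAddSubgroup) = toPoint hL z := rfl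

theorem pointEquiv_mk_of_not_mem {z : ℂ} (hz : z ∉ L.lattice) :
    pointEquiv hL (z : ℂ ⧸ L.lattice.toAddSubgroup) =
      Point.some _ _ (nonsingular_wp L hL.disc hz) :=
  toPoint_of_not_mem hL hz

/-- (A6) in the interface spelling of `Defs`. -/
theorem uniformized_shortOf : Uniformized (shortOf L) :=
  ⟨L, ⟨pointEquiv hL⟩⟩

end Fermat.Agent.S13.CU.UnifHom
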