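/-
PROJECT G (S13), complex uniformisation, (A10) = the valuation-sum identity (VS) over `ℂ`
(helper18).

For a period pair `L` with lattice `Λ`, an odd `p`, a half period `s` (`s ∉ Λ`, `2 s ∈ Λ`) and the
half-period constant `D` (`(℘ (z + s) - ℘ s) (℘ z - ℘ s) = D`, `D ≠ 0`):

  `(∏_{T ∈ (1/p)Λ/Λ, T ≠ 0} (℘ T - ℘ s))² = D^(p²-1) / p⁴`.

* `prod_sq_eq_of_reps` : the identity for any finite complete set `V ∋ 0` of representatives of
  `(1/p)Λ/Λ`.
* `prod_sq_eq` : the identity for the concrete representatives `divPt L p (a, b) =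
  (a ω₁ + b ω₂) / p`, `0 ≤ a, b < p`.

Route: `F z = ℘ (p z) - e` and `G z = ∏_{T ∈ V} (℘ (z + T) - e)` have the same order at every point
(read off the half-period identity alone), so `F = c G` off a discrete set by Liouville
(`Liouville.exists_const_of_periodic_of_order_nonneg`); the half-period identity gives
`c² D^(p²) = D`, and the limit `z → 0` of `z² F`, `z² G` gives `1/p² = c ∏_{T ≠ 0} (℘ T - e)`.
-/
import Fermat.Agent.S13.CU.Liouville

set_option autoImplicit false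

noncomputable section

namespace Fermat.Agent.S13.CU.ValSum

open Complex Filter Topology
open scoped PeriodPair
open Fermat.Agent.S13.CU.Liouville

variable (L : PeriodPair)

/-- Punctured neighbourhoods avoid affine preimages of the lattice. -/
theorem eventually_mul_add_notMem {a : ℂ} (ha : a ≠ 0) (c z : ℂ) :
    ∀ᶠ w in 𝓝[≠] z, a * w + c ∉ L.lattice := by
  have hcont : ContinuousAt (fun w : ℂ => a * w + c) z := by fun_prop
  have h1 := hcont.preimage_mem_nhds (L.compl_lattice_sdiff_singleton_mem_nhds (a * z + c))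
  filter_upwards [mem_nhdsWithin_of_mem_nhds h1, self_mem_nhdsWithin] with w hw hwz
  intro hmem
  apply hw
  refine ⟨hmem, ?_⟩
  simp only [Set.mem_singleton_iff]
  intro heq
  apply hwz
  have : a * w = a * z := by linear_combination heq
  exact mul_left_cancel₀ ha this

theorem eventually_add_notMem (c z : ℂ) : ∀ᶠ w in 𝓝[≠] z, w + c ∉ L.lattice := by
  simpa using eventually_mul_add_notMem L one_ne_zero c z

theorem eventually_notMem (z : ℂ) : ∀ᶠ w in 𝓝[≠] z, w ∉ L.lattice := by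
  simpa using eventually_add_notMem L 0 z

section Half

variable {s D : ℂ}

/-- Away from `Λ` and `-s + Λ` the function `℘ - ℘ s` does not vanish. -/
theorem weierstrassP_sub_ne_zero (hD0 : D ≠ 0)
    (hD : ∀ z, z ∉ L.lattice → z + s ∉ L.lattice →
      (℘[L] (z + s) - ℘[L] s) * (℘[L] z - ℘[L] s) = D)
    {z : ℂ} (hz : z ∉ L.lattice) (hzs : z + s ∉ L.lattice) : ℘[L] z - ℘[L] s ≠ 0 := by
  intro h0
  apply hD0
  rw [← hD z hz hzs, h0, mul_zero]

theorem order_eq_zero (hD0 : D ≠ 0)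
    (hD : ∀ z, z ∉ L.lattice → z + s ∉ L.lattice →
      (℘[L] (z + s) - ℘[L] s) * (℘[L] z - ℘[L] s) = D)
    {z : ℂ} (hz : z ∉ L.lattice) (hzs : z + s ∉ L.lattice) :
    meromorphicOrderAt (fun w => ℘[L] w - ℘[L] s) z = 0 := by
  have han := analyticAt_weierstrassP_sub_const L (℘[L] s) hz
  rw [han.meromorphicOrderAt_eq,
    han.analyticOrderAt_eq_zero.mpr (weierstrassP_sub_ne_zero L hD0 hD hz hzs)]
  simp

theorem order_eq_two (hD0 : D ≠ 0)
    (hD : ∀ z, z ∉ L.lattice → z + s ∉ L.lattice →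
      (℘[L] (z + s) - ℘[L] s) * (℘[L] z - ℘[L] s) = D)
    {z : ℂ} (hzs : z + s ∈ L.lattice) :
    meromorphicOrderAt (fun w => ℘[L] w - ℘[L] s) z = 2 := by
  set B : ℂ → ℂ := fun w => ℘[L] w - ℘[L] s with hB
  set A : ℂ → ℂ := B ∘ (· + s) with hA
  have hAm : MeromorphicAt A z := by
    have : MeromorphicAt B (z + s) := meromorphicAt_weierstrassP_sub_const L _ _
    rw [hA]
    exact meromorphicAt_comp_add_const_iff_meromorphicAt.mpr this
  have hBm : MeromorphicAt B z := meromorphicAt_weierstrassP_sub_const L _ _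
  have hAord : meromorphicOrderAt A z = -2 := by
    rw [hA, meromorphicOrderAt_comp_add_const_eq_meromorphicOrderAt]
    exact order_weierstrassP_sub_const L _ hzs
  have hAB : A * B =ᶠ[𝓝[≠] z] fun _ => D := by
    filter_upwards [eventually_notMem L z, eventually_add_notMem L s z] with w h1 h2
    exact hD w h1 h2
  have h1 : meromorphicOrderAt (A * B) z = 0 := by
    classical
    rw [meromorphicOrderAt_congr hAB, meromorphicOrderAt_const, if_neg hD0]
  rw [meromorphicOrderAt_mul hAm hBm, hAord] at h1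
  by_cases htop : meromorphicOrderAt B z = ⊤
  · rw [htop] at h1
    simp at h1
  · lift meromorphicOrderAt B z to ℤ using htop with n hn
    have e2 : (-2 : WithTop ℤ) = ((-2 : ℤ) : WithTop ℤ) := by norm_num
    rw [e2] at h1
    have h3 : -2 + n = 0 := by exact_mod_cast h1
    have : n = 2 := by omega
    subst this
    rfl

/-- The order of `℘ - ℘ s` at an arbitrary point, as an integer. -/
def ordfe (s w : ℂ) : ℤ :=
  haveI := Classical.propDecidable
  (if w + s ∈ L.lattice then 2 else 0) - (if w ∈ L.lattice then 2 else 0)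

theorem order_eq_ordfe (hs : s ∉ L.lattice) (hD0 : D ≠ 0)
    (hD : ∀ z, z ∉ L.lattice → z + s ∉ L.lattice →
      (℘[L] (z + s) - ℘[L] s) * (℘[L] z - ℘[L] s) = D) (w : ℂ) :
    meromorphicOrderAt (fun w => ℘[L] w - ℘[L] s) w = (ordfe L s w : ℤ) := by
  classical
  unfold ordfe
  by_cases hw : w ∈ L.lattice
  · have hws : w + s ∉ L.lattice := fun h => hs (by simpa using L.lattice.sub_mem h hw)
    rw [order_weierstrassP_sub_const L _ hw]
    simp only [hw, hws, if_true, if_false]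
    norm_num
  · by_cases hws : w + s ∈ L.lattice
    · rw [order_eq_two L hD0 hD hws]
      simp only [hw, hws, if_true, if_false]
      norm_num
    · rw [order_eq_zero L hD0 hD hw hws]
      simp only [hw, hws, if_false]
      norm_num

end Half

section Reps

variable {s D : ℂ} {p : ℕ} {V : Finset ℂ}

theorem sum_ite_mem (hV1 : ∀ T ∈ V, (p : ℂ) * T ∈ L.lattice)
    (hV2 : ∀ w, (p : ℂ) * w ∈ L.lattice → ∃! T, T ∈ V ∧ w + T ∈ L.lattice) (w : ℂ)
    [DecidablePred (· ∈ L.lattice)] :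
    (∑ T ∈ V, if w + T ∈ L.lattice then (2 : ℤ) else 0) =
      if (p : ℂ) * w ∈ L.lattice then 2 else 0 := by
  by_cases hw : (p : ℂ) * w ∈ L.lattice
  · rw [if_pos hw]
    obtain ⟨T₀, ⟨hT₀V, hT₀⟩, huniq⟩ := hV2 w hw
    rw [Finset.sum_eq_single T₀]
    · rw [if_pos hT₀]
    · intro T hT hne
      rw [if_neg]
      intro hmem
      exact hne (huniq T ⟨hT, hmem⟩)
    · intro h
      exact absurd hT₀V h
  · rw [if_neg hw]
    apply Finset.sum_eq_zero
    intro T hT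
    rw [if_neg]
    intro hmem
    apply hw
    have h1 : (p : ℂ) * (w + T) ∈ L.lattice := by
      have := L.lattice.smul_mem (p : ℤ) hmem
      have e : ((p : ℤ) • (w + T) : ℂ) = (p : ℂ) * (w + T) := by
        simp only [zsmul_eq_mul]
        push_cast
        ring
      rwa [e] at this
    have h2 := L.lattice.sub_mem h1 (hV1 T hT)
    have e : (p : ℂ) * (w + T) - (p : ℂ) * T = (p : ℂ) * w := by ring
    rwa [e] at h2

theorem pred_mul_mem (hodd : Odd p) (h2s : 2 * s ∈ L.lattice) :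
    (p : ℂ) * s - s ∈ L.lattice := by
  obtain ⟨k, rfl⟩ := hodd
  have := L.lattice.smul_mem (k : ℤ) h2s
  have e : ((2 * k + 1 : ℕ) : ℂ) * s - s = (k : ℤ) • (2 * s) := by
    push_cast
    simp only [zsmul_eq_mul]
    push_cast
    ring
  rw [e]
  exact this

theorem sum_ordfe (hodd : Odd p) (h2s : 2 * s ∈ L.lattice)
    (hV1 : ∀ T ∈ V, (p : ℂ) * T ∈ L.lattice)
    (hV2 : ∀ w, (p : ℂ) * w ∈ L.lattice → ∃! T, T ∈ V ∧ w + T ∈ L.lattice) (z : ℂ) :
    ∑ T ∈ V, ordfe L s (z + T) = ordfe L s ((p : ℂ) * z) := by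
  classical
  unfold ordfe
  rw [Finset.sum_sub_distrib]
  have h1 := sum_ite_mem L hV1 hV2 (z + s)
  have h2 := sum_ite_mem L hV1 hV2 z
  have e1 : ∀ T, z + T + s = z + s + T := fun T => by ring
  simp only [e1]
  have hiff : (p : ℂ) * (z + s) ∈ L.lattice ↔ (p : ℂ) * z + s ∈ L.lattice := by
    have hm := pred_mul_mem L hodd h2s
    constructor
    · intro h
      have := L.lattice.sub_mem h hm
      have e : (p : ℂ) * (z + s) - ((p : ℂ) * s - s) = (p : ℂ) * z + s := by ring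
      rwa [e] at this
    · intro h
      have := L.lattice.add_mem h hm
      have e : (p : ℂ) * z + s + ((p : ℂ) * s - s) = (p : ℂ) * (z + s) := by ring
      rwa [e] at this
  convert congrArg₂ (· - ·) h1 h2 using 2
  simp only [hiff]

end Reps

section Main

variable {s D : ℂ} {p : ℕ} {V : Finset ℂ}

/-- `F z = ℘ (p z) - ℘ s`. -/
def Ffun (s : ℂ) (p : ℕ) : ℂ → ℂ := fun z => ℘[L] ((p : ℂ) * z) - ℘[L] s

/-- `G z = ∏_{T ∈ V} (℘ (z + T) - ℘ s)`. -/
def Gfun (s : ℂ) (V : Finset ℂ) : ℂ → ℂ := fun z => ∏ T ∈ V, (℘[L] (z + T) - ℘[L] s)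

theorem meromorphic_Ffun (hp : p ≠ 0) : Meromorphic (Ffun L s p) := by
  intro z
  have h : MeromorphicAt (fun w => ℘[L] w - ℘[L] s) ((p : ℂ) * z) :=
    meromorphicAt_weierstrassP_sub_const L _ _
  have hg : AnalyticAt ℂ (fun z : ℂ => (p : ℂ) * z) z := by fun_prop
  have hd : deriv (fun z : ℂ => (p : ℂ) * z) z ≠ 0 := by
    rw [deriv_const_mul_field]
    simpa using hp
  exact (meromorphicAt_comp_iff_of_deriv_ne_zero hg hd).mpr h

theorem order_Ffun (hp : p ≠ 0) (hs : s ∉ L.lattice) (hD0 : D ≠ 0)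
    (hD : ∀ z, z ∉ L.lattice → z + s ∉ L.lattice →
      (℘[L] (z + s) - ℘[L] s) * (℘[L] z - ℘[L] s) = D) (z : ℂ) :
    meromorphicOrderAt (Ffun L s p) z = (ordfe L s ((p : ℂ) * z) : ℤ) := by
  have hg : AnalyticAt ℂ (fun z : ℂ => (p : ℂ) * z) z := by fun_prop
  have hd : deriv (fun z : ℂ => (p : ℂ) * z) z ≠ 0 := by
    rw [deriv_const_mul_field]
    simpa using hp
  have := meromorphicOrderAt_comp_of_deriv_ne_zero (f := fun w => ℘[L] w - ℘[L] s) hg hd
  rw [← order_eq_ordfe L hs hD0 hD, ← this]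
  rfl

theorem meromorphicAt_shift (T z : ℂ) :
    MeromorphicAt (fun z => ℘[L] (z + T) - ℘[L] s) z := by
  have : MeromorphicAt (fun w => ℘[L] w - ℘[L] s) (z + T) :=
    meromorphicAt_weierstrassP_sub_const L _ _
  exact (meromorphicAt_comp_add_const_iff_meromorphicAt
    (f := fun w => ℘[L] w - ℘[L] s)).mpr this

theorem meromorphic_Gfun : Meromorphic (Gfun L s V) := by
  intro z
  unfold Gfun
  exact MeromorphicAt.fun_prod (fun T _ => meromorphicAt_shift L T z)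

theorem order_Gfun (hs : s ∉ L.lattice) (hD0 : D ≠ 0)
    (hD : ∀ z, z ∉ L.lattice → z + s ∉ L.lattice →
      (℘[L] (z + s) - ℘[L] s) * (℘[L] z - ℘[L] s) = D) (z : ℂ) :
    meromorphicOrderAt (Gfun L s V) z = ((∑ T ∈ V, ordfe L s (z + T) : ℤ) : WithTop ℤ) := by
  unfold Gfun
  rw [meromorphicOrderAt_fun_prod (fun T _ => meromorphicAt_shift L T z), WithTop.coe_sum]
  refine Finset.sum_congr rfl fun T _ => ?_
  rw [← order_eq_ordfe L hs hD0 hD]
  exact meromorphicOrderAt_comp_add_const_eq_meromorphicOrderAt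
    (f := fun w => ℘[L] w - ℘[L] s)

/-- `R = F / G`. -/
def Rfun (s : ℂ) (p : ℕ) (V : Finset ℂ) : ℂ → ℂ :=
  fun z => Ffun L s p z * (Gfun L s V z)⁻¹

theorem meromorphic_Rfun (hp : p ≠ 0) : Meromorphic (Rfun L s p V) := by
  intro z
  exact (meromorphic_Ffun L hp z).fun_mul (meromorphic_Gfun L z).fun_inv

theorem order_Rfun (hodd : Odd p) (hs : s ∉ L.lattice) (h2s : 2 * s ∈ L.lattice) (hD0 : D ≠ 0)
    (hD : ∀ z, z ∉ L.lattice → z + s ∉ L.lattice →
      (℘[L] (z + s) - ℘[L] s) * (℘[L] z - ℘[L] s) = D)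
    (hV1 : ∀ T ∈ V, (p : ℂ) * T ∈ L.lattice)
    (hV2 : ∀ w, (p : ℂ) * w ∈ L.lattice → ∃! T, T ∈ V ∧ w + T ∈ L.lattice) (z : ℂ) :
    meromorphicOrderAt (Rfun L s p V) z = 0 := by
  have hp : p ≠ 0 := fun h => by simp [h] at hodd
  unfold Rfun
  rw [fun_meromorphicOrderAt_mul (meromorphic_Ffun L hp z) (meromorphic_Gfun L z).fun_inv,
    fun_meromorphicOrderAt_inv, order_Ffun L hp hs hD0 hD, order_Gfun L hs hD0 hD,
    sum_ordfe L hodd h2s hV1 hV2]
  rw [← WithTop.LinearOrderedAddCommGroup.coe_neg, ← WithTop.coe_add, add_neg_cancel]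
  rfl

theorem periodic_Rfun (z : ℂ) {l : ℂ} (hl : l ∈ L.lattice) :
    Rfun L s p V (z + l) = Rfun L s p V z := by
  unfold Rfun Ffun Gfun
  have hpl : (p : ℂ) * l ∈ L.lattice := by
    have := L.lattice.smul_mem (p : ℤ) hl
    have e : ((p : ℤ) • l : ℂ) = (p : ℂ) * l := by
      simp only [zsmul_eq_mul]
      push_cast
      ring
    rwa [e] at this
  have e1 : (p : ℂ) * (z + l) = (p : ℂ) * z + (p : ℂ) * l := by ring
  rw [e1, weierstrassP_add_mem L _ hpl]
  congr 2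
  refine Finset.prod_congr rfl fun T _ => ?_
  have e2 : z + l + T = z + T + l := by ring
  rw [e2, weierstrassP_add_mem L _ hl]

/-! ### The limit at `0` -/

theorem tendsto_sq_mul_weierstrassP :
    Tendsto (fun w : ℂ => w ^ 2 * ℘[L] w) (𝓝[≠] 0) (𝓝 1) := by
  have h1 : ∀ w : ℂ, ℘[L] w = ℘[L - (0 : ℂ)] w + 1 / w ^ 2 := by
    intro w
    have := L.weierstrassPExcept_add (0 : L.lattice) w
    simpa using this.symm
  have hc : ContinuousAt (fun w : ℂ => w ^ 2 * ℘[L - (0 : ℂ)] w + 1) 0 := by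
    have := (L.analyticAt_weierstrassPExcept 0).continuousAt
    fun_prop
  have h2 : Tendsto (fun w : ℂ => w ^ 2 * ℘[L - (0 : ℂ)] w + 1) (𝓝[≠] 0) (𝓝 1) := by
    have := hc.tendsto.mono_left (nhdsWithin_le_nhds (s := {0}ᶜ))
    simpa using this
  refine h2.congr' ?_
  filter_upwards [self_mem_nhdsWithin] with w hw
  have hw' : w ≠ 0 := hw
  rw [h1 w]
  field_simp

theorem tendsto_mul_nhdsNE_zero {a : ℂ} (ha : a ≠ 0) :
    Tendsto (fun w : ℂ => a * w) (𝓝[≠] 0) (𝓝[≠] 0) := by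
  refine tendsto_nhdsWithin_of_tendsto_nhds_of_eventually_within _ ?_ ?_
  · have : ContinuousAt (fun w : ℂ => a * w) 0 := by fun_prop
    have h := this.tendsto.mono_left (nhdsWithin_le_nhds (s := {0}ᶜ))
    simpa using h
  · filter_upwards [self_mem_nhdsWithin] with w hw
    have hw' : w ≠ 0 := hw
    simpa using mul_ne_zero ha hw'

theorem tendsto_sq_mul_Ffun (hp : p ≠ 0) :
    Tendsto (fun w : ℂ => w ^ 2 * Ffun L s p w) (𝓝[≠] 0) (𝓝 (1 / (p : ℂ) ^ 2)) := by
  have hpc : (p : ℂ) ≠ 0 := by exact_mod_cast hp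
  have h1 := (tendsto_sq_mul_weierstrassP L).comp (tendsto_mul_nhdsNE_zero hpc)
  have h2 : Tendsto (fun w : ℂ => w ^ 2 * ℘[L] s) (𝓝[≠] 0) (𝓝 0) := by
    have : ContinuousAt (fun w : ℂ => w ^ 2 * ℘[L] s) 0 := by fun_prop
    have h := this.tendsto.mono_left (nhdsWithin_le_nhds (s := {0}ᶜ))
    simpa using h
  have h3 := (h1.const_mul (1 / (p : ℂ) ^ 2)).sub h2
  simp only [mul_one, sub_zero] at h3
  refine h3.congr' ?_
  filter_upwards with w
  simp only [Function.comp_apply, Ffun]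
  field_simp

theorem tendsto_sq_mul_Gfun (h0 : 0 ∈ V) (hVΛ : ∀ T ∈ V, T ∈ L.lattice → T = 0) :
    Tendsto (fun w : ℂ => w ^ 2 * Gfun L s V w) (𝓝[≠] 0)
      (𝓝 (∏ T ∈ V.erase 0, (℘[L] T - ℘[L] s))) := by
  have hsplit : ∀ w, Gfun L s V w =
      (℘[L] w - ℘[L] s) * ∏ T ∈ V.erase 0, (℘[L] (w + T) - ℘[L] s) := by
    intro w
    unfold Gfun
    rw [← Finset.mul_prod_erase V _ h0]
    simp
  have h1 : Tendsto (fun w : ℂ => w ^ 2 * (℘[L] w - ℘[L] s)) (𝓝[≠] 0) (𝓝 1) := by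
    have h2 : Tendsto (fun w : ℂ => w ^ 2 * ℘[L] s) (𝓝[≠] 0) (𝓝 0) := by
      have : ContinuousAt (fun w : ℂ => w ^ 2 * ℘[L] s) 0 := by fun_prop
      have h := this.tendsto.mono_left (nhdsWithin_le_nhds (s := {0}ᶜ))
      simpa using h
    have h3 := (tendsto_sq_mul_weierstrassP L).sub h2
    simp only [sub_zero] at h3
    refine h3.congr' ?_
    filter_upwards with w
    ring
  have h2 : Tendsto (fun w : ℂ => ∏ T ∈ V.erase 0, (℘[L] (w + T) - ℘[L] s)) (𝓝[≠] 0)
      (𝓝 (∏ T ∈ V.erase 0, (℘[L] T - ℘[L] s))) := by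
    apply tendsto_finsetProd
    intro T hT
    have hTV : T ∈ V := Finset.mem_of_mem_erase hT
    have hT0 : T ≠ 0 := Finset.ne_of_mem_erase hT
    have hTΛ : T ∉ L.lattice := fun h => hT0 (hVΛ T hTV h)
    have hc : ContinuousAt ℘[L] (0 + T) := by
      simpa using (L.analyticOnNhd_weierstrassP T hTΛ).continuousAt
    have hc2 : ContinuousAt (fun w : ℂ => ℘[L] (w + T) - ℘[L] s) 0 :=
      (ContinuousAt.comp (f := fun w : ℂ => w + T) hc
        (continuousAt_id.add continuousAt_const)).sub continuousAt_const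
    have h := hc2.tendsto.mono_left (nhdsWithin_le_nhds (s := {0}ᶜ))
    simpa using h
  have h3 := h1.mul h2
  rw [one_mul] at h3
  refine h3.congr' ?_
  filter_upwards with w
  rw [hsplit w]
  ring

theorem tendsto_add_nhdsNE_zero (s : ℂ) :
    Tendsto (fun w : ℂ => w + s) (𝓝[≠] 0) (𝓝[≠] s) := by
  refine tendsto_nhdsWithin_of_tendsto_nhds_of_eventually_within _ ?_ ?_
  · have : ContinuousAt (fun w : ℂ => w + s) 0 := by fun_prop
    have h := this.tendsto.mono_left (nhdsWithin_le_nhds (s := {0}ᶜ))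
    simpa using h
  · filter_upwards [self_mem_nhdsWithin] with w hw
    have hw' : w ≠ 0 := hw
    simpa using hw'

/-- **(VS) over `ℂ`, abstract representatives.** `V` is a complete set of representatives of
`(1/p)Λ/Λ` containing `0`; `s` a half period; `D` the half-period constant. -/
theorem prod_sq_eq_of_reps (hodd : Odd p) (hs : s ∉ L.lattice) (h2s : 2 * s ∈ L.lattice)
    (hD0 : D ≠ 0)
    (hD : ∀ z, z ∉ L.lattice → z + s ∉ L.lattice →
      (℘[L] (z + s) - ℘[L] s) * (℘[L] z - ℘[L] s) = D)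
    (h0 : (0 : ℂ) ∈ V)
    (hV1 : ∀ T ∈ V, (p : ℂ) * T ∈ L.lattice)
    (hV2 : ∀ w, (p : ℂ) * w ∈ L.lattice → ∃! T, T ∈ V ∧ w + T ∈ L.lattice) :
    (∏ T ∈ V.erase 0, (℘[L] T - ℘[L] s)) ^ 2 = D ^ (V.card - 1) / (p : ℂ) ^ 4 := by
  have hp : p ≠ 0 := fun h => by simp [h] at hodd
  have hpc : (p : ℂ) ≠ 0 := by exact_mod_cast hp
  have hVΛ : ∀ T ∈ V, T ∈ L.lattice → T = 0 := by
    intro T hT hTΛ
    obtain ⟨T₀, _, huniq⟩ := hV2 0 (by simp)
    rw [huniq T ⟨hT, by simpa using hTΛ⟩, huniq 0 ⟨h0, by simp⟩]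
  obtain ⟨c, hc⟩ := exists_const_of_periodic_of_order_nonneg L (meromorphic_Rfun L (s := s) (V := V) hp)
    (fun z l hl => periodic_Rfun L z hl)
    (fun z => (order_Rfun L hodd hs h2s hD0 hD hV1 hV2 z).ge)
  have hgen1 : ∀ᶠ w in 𝓝[≠] (0 : ℂ), ∀ T ∈ V, w + T ∉ L.lattice :=
    (Filter.eventually_all_finset V).mpr fun T _ => eventually_add_notMem L T 0
  have hgen2 : ∀ᶠ w in 𝓝[≠] (0 : ℂ), ∀ T ∈ V, w + T + s ∉ L.lattice := by
    refine (Filter.eventually_all_finset V).mpr fun T _ => ?_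
    filter_upwards [eventually_add_notMem L (T + s) 0] with w hw
    rwa [add_assoc]
  have hgen3 : ∀ᶠ w in 𝓝[≠] (0 : ℂ), (p : ℂ) * w ∉ L.lattice := by
    simpa using eventually_mul_add_notMem L hpc 0 0
  have hgen4 : ∀ᶠ w in 𝓝[≠] (0 : ℂ), (p : ℂ) * w + s ∉ L.lattice :=
    eventually_mul_add_notMem L hpc s 0
  have hR0 : ∀ᶠ w in 𝓝[≠] (0 : ℂ), Rfun L s p V w = c := hc 0
  have hRs : ∀ᶠ w in 𝓝[≠] (0 : ℂ), Rfun L s p V (w + s) = c :=
    (tendsto_add_nhdsNE_zero s).eventually (hc s)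
  have hFF : ∀ w, (p : ℂ) * w ∉ L.lattice → (p : ℂ) * w + s ∉ L.lattice →
      Ffun L s p (w + s) * Ffun L s p w = D := by
    intro w h3 h4
    unfold Ffun
    have e : (p : ℂ) * (w + s) = (p : ℂ) * w + s + ((p : ℂ) * s - s) := by ring
    rw [e, weierstrassP_add_mem L _ (pred_mul_mem L hodd h2s)]
    exact hD _ h3 h4
  have hGG : ∀ w, (∀ T ∈ V, w + T ∉ L.lattice) → (∀ T ∈ V, w + T + s ∉ L.lattice) →
      Gfun L s V (w + s) * Gfun L s V w = D ^ V.card := by
    intro w h1 h2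
    unfold Gfun
    rw [← Finset.prod_mul_distrib, Finset.prod_congr rfl (g := fun _ => D), Finset.prod_const]
    intro T hT
    have e : w + s + T = w + T + s := by ring
    rw [e]
    exact hD _ (h1 T hT) (h2 T hT)
  have hGne : ∀ w, (∀ T ∈ V, w + T ∉ L.lattice) → (∀ T ∈ V, w + T + s ∉ L.lattice) →
      Gfun L s V w ≠ 0 := by
    intro w h1 h2 h
    have := hGG w h1 h2
    rw [h, mul_zero] at this
    exact pow_ne_zero _ hD0 this.symm
  obtain ⟨k, hk⟩ : ∃ k, V.card = k + 1 :=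
    Nat.exists_eq_succ_of_ne_zero (Finset.card_ne_zero_of_mem h0)
  have hc2 : c ^ 2 * D ^ k = 1 := by
    obtain ⟨w, h1, h2, h3, h4, h5, h6⟩ :=
      (hgen1.and (hgen2.and (hgen3.and (hgen4.and (hR0.and hRs))))).exists
    have hG := hGG w h1 h2
    have hF := hFF w h3 h4
    have hcc : c * c * D ^ V.card = D := by
      rw [← hG]
      nth_rewrite 1 [← h6]
      rw [← h5]
      unfold Rfun
      have hg1 : Gfun L s V w ≠ 0 := hGne w h1 h2
      have hg2 : Gfun L s V (w + s) ≠ 0 := by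
        intro h
        rw [h, zero_mul] at hG
        exact pow_ne_zero _ hD0 hG.symm
      rw [← hF]
      field_simp
    rw [hk, pow_succ] at hcc
    have : (c ^ 2 * D ^ k - 1) * D = 0 := by linear_combination hcc
    rcases mul_eq_zero.mp this with h | h
    · linear_combination h
    · exact absurd h hD0
  have hlim : 1 / (p : ℂ) ^ 2 = c * ∏ T ∈ V.erase 0, (℘[L] T - ℘[L] s) := by
    have hFG : (fun w : ℂ => c * (w ^ 2 * Gfun L s V w)) =ᶠ[𝓝[≠] 0]
        fun w : ℂ => w ^ 2 * Ffun L s p w := by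
      filter_upwards [hgen1, hgen2, hR0] with w h1 h2 h5
      have hg1 : Gfun L s V w ≠ 0 := hGne w h1 h2
      have : Ffun L s p w = c * Gfun L s V w := by
        rw [← h5]
        unfold Rfun
        field_simp
      rw [this]
      ring
    exact tendsto_nhds_unique (tendsto_sq_mul_Ffun L hp)
      (((tendsto_sq_mul_Gfun L h0 hVΛ).const_mul c).congr' hFG)
  rw [hk, Nat.add_sub_cancel]
  set P1 := ∏ T ∈ V.erase 0, (℘[L] T - ℘[L] s) with hP1
  have h4 : (p : ℂ) ^ 4 ≠ 0 := pow_ne_zero _ hpc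
  rw [eq_div_iff h4]
  have h5 : (c * P1) ^ 2 * (p : ℂ) ^ 4 = 1 := by
    rw [← hlim]
    field_simp
  linear_combination (P1 ^ 2 * (p : ℂ) ^ 4) * (-hc2) + D ^ k * h5 

end Main

/-! ### The concrete representatives `(a ω₁ + b ω₂) / p`, `0 ≤ a, b < p` -/

section Concrete

variable {s D : ℂ} {p : ℕ}

/-- The `p`-division point with coordinates `(a, b)`. -/
def divPt (p : ℕ) (ab : ℕ × ℕ) : ℂ :=
  ((ab.1 : ℂ) * L.ω₁ + (ab.2 : ℂ) * L.ω₂) / (p : ℂ)

theorem div_mem_lattice_iff (hp : p ≠ 0) (m n : ℤ) :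
    ((m : ℂ) * L.ω₁ + (n : ℂ) * L.ω₂) / (p : ℂ) ∈ L.lattice ↔ (p : ℤ) ∣ m ∧ (p : ℤ) ∣ n := by
  have hpc : (p : ℂ) ≠ 0 := by exact_mod_cast hp
  have e : ((m : ℂ) * L.ω₁ + (n : ℂ) * L.ω₂) / (p : ℂ) =
      (((m : ℚ) / ((p : ℤ) : ℚ) : ℚ) : ℂ) * L.ω₁ + (((n : ℚ) / ((p : ℤ) : ℚ) : ℚ) : ℂ) * L.ω₂ := by
    push_cast
    field_simp
  have hpz : (p : ℤ) ≠ 0 := by exact_mod_cast hp
  rw [e, PeriodPair.mul_ω₁_add_mul_ω₂_mem_lattice, Rat.den_div_intCast_eq_one_iff _ _ hpz,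
    Rat.den_div_intCast_eq_one_iff _ _ hpz]

theorem divPt_sub (ab ab' : ℕ × ℕ) :
    divPt L p ab - divPt L p ab' =
      ((((ab.1 : ℤ) - (ab'.1 : ℤ) : ℤ) : ℂ) * L.ω₁ +
        (((ab.2 : ℤ) - (ab'.2 : ℤ) : ℤ) : ℂ) * L.ω₂) / (p : ℂ) := by
  unfold divPt
  push_cast
  ring

theorem eq_of_divPt_sub_mem (hp : p ≠ 0) {ab ab' : ℕ × ℕ}
    (hab : ab ∈ Finset.range p ×ˢ Finset.range p) (hab' : ab' ∈ Finset.range p ×ˢ Finset.range p)
    (h : divPt L p ab - divPt L p ab' ∈ L.lattice) : ab = ab' := by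
  rw [divPt_sub, div_mem_lattice_iff L hp] at h
  simp only [Finset.mem_product, Finset.mem_range] at hab hab'
  obtain ⟨⟨k1, hk1⟩, ⟨k2, hk2⟩⟩ := h
  have h1 : k1 = 0 := by
    by_contra hne
    have : (p : ℤ) ≤ |(p : ℤ) * k1| := by
      rw [abs_mul]
      have h1 : (1 : ℤ) ≤ |k1| := Int.one_le_abs hne
      have h2 : (0 : ℤ) ≤ |(p : ℤ)| := abs_nonneg _
      have h3 : |(p : ℤ)| = p := abs_of_nonneg (by positivity)
      nlinarith
    rw [← hk1] at this
    have h3 : |(ab.1 : ℤ) - (ab'.1 : ℤ)| < p := by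
      rw [abs_lt]
      constructor <;> omega
    omega
  have h2 : k2 = 0 := by
    by_contra hne
    have : (p : ℤ) ≤ |(p : ℤ) * k2| := by
      rw [abs_mul]
      have h1 : (1 : ℤ) ≤ |k2| := Int.one_le_abs hne
      have h2 : (0 : ℤ) ≤ |(p : ℤ)| := abs_nonneg _
      have h3 : |(p : ℤ)| = p := abs_of_nonneg (by positivity)
      nlinarith
    rw [← hk2] at this
    have h3 : |(ab.2 : ℤ) - (ab'.2 : ℤ)| < p := by
      rw [abs_lt]
      constructor <;> omega
    omega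
  subst h1 h2
  ext <;> omega

theorem divPt_injOn (hp : p ≠ 0) :
    Set.InjOn (divPt L p) (Finset.range p ×ˢ Finset.range p : Finset (ℕ × ℕ)) := by
  intro ab hab ab' hab' h
  apply eq_of_divPt_sub_mem L hp hab hab'
  rw [h, sub_self]
  exact zero_mem _

/-- The concrete complete set of representatives of `(1/p)Λ/Λ`. -/
def reps (p : ℕ) : Finset ℂ := (Finset.range p ×ˢ Finset.range p).image (divPt L p)

theorem divPt_zero : divPt L p (0, 0) = 0 := by
  simp [divPt]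

theorem zero_mem_reps (hp : p ≠ 0) : (0 : ℂ) ∈ reps L p := by
  unfold reps
  rw [Finset.mem_image]
  exact ⟨(0, 0), by simp [Nat.pos_of_ne_zero hp], divPt_zero L⟩

theorem card_reps (hp : p ≠ 0) : (reps L p).card = p ^ 2 := by
  unfold reps
  rw [Finset.card_image_of_injOn (divPt_injOn L hp), Finset.card_product, Finset.card_range, sq]

theorem mul_mem_of_mem_reps (hp : p ≠ 0) : ∀ T ∈ reps L p, (p : ℂ) * T ∈ L.lattice := by
  intro T hT
  unfold reps at hT
  rw [Finset.mem_image] at hT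
  obtain ⟨ab, _, rfl⟩ := hT
  have hpc : (p : ℂ) ≠ 0 := by exact_mod_cast hp
  have e : (p : ℂ) * divPt L p ab = ((ab.1 : ℤ) : ℂ) * L.ω₁ + ((ab.2 : ℤ) : ℂ) * L.ω₂ := by
    unfold divPt
    push_cast
    field_simp
  rw [e]
  exact PeriodPair.mem_lattice.mpr ⟨_, _, rfl⟩

theorem existsUnique_reps (hp : p ≠ 0) (w : ℂ) (hw : (p : ℂ) * w ∈ L.lattice) :
    ∃! T, T ∈ reps L p ∧ w + T ∈ L.lattice := by
  have hpc : (p : ℂ) ≠ 0 := by exact_mod_cast hp
  have hpz : (p : ℤ) ≠ 0 := by exact_mod_cast hp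
  have hppos : (0 : ℤ) < p := by positivity
  obtain ⟨m, n, hmn⟩ := PeriodPair.mem_lattice.mp hw
  have hw' : w = ((m : ℂ) * L.ω₁ + (n : ℂ) * L.ω₂) / (p : ℂ) := by
    rw [hmn]
    field_simp
  set a : ℕ := ((-m) % (p : ℤ)).toNat with ha
  set b : ℕ := ((-n) % (p : ℤ)).toNat with hb
  have ha0 : 0 ≤ (-m) % (p : ℤ) := Int.emod_nonneg _ hpz
  have hb0 : 0 ≤ (-n) % (p : ℤ) := Int.emod_nonneg _ hpz
  have ha1 : (-m) % (p : ℤ) < p := Int.emod_lt_of_pos _ hppos
  have hb1 : (-n) % (p : ℤ) < p := Int.emod_lt_of_pos _ hppos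
  have hac : (a : ℤ) = (-m) % (p : ℤ) := Int.toNat_of_nonneg ha0
  have hbc : (b : ℤ) = (-n) % (p : ℤ) := Int.toNat_of_nonneg hb0
  have hab : (a, b) ∈ Finset.range p ×ˢ Finset.range p := by
    simp only [Finset.mem_product, Finset.mem_range]
    constructor <;> omega
  have hmem : w + divPt L p (a, b) ∈ L.lattice := by
    have e : w + divPt L p (a, b) =
        (((m + a : ℤ) : ℂ) * L.ω₁ + ((n + b : ℤ) : ℂ) * L.ω₂) / (p : ℂ) := by
      rw [hw']
      unfold divPt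
      push_cast
      ring
    rw [e, div_mem_lattice_iff L hp]
    constructor
    · rw [hac]
      have := Int.emod_add_mul_ediv (-m) (p : ℤ)
      exact ⟨-((-m) / (p : ℤ)), by linarith⟩
    · rw [hbc]
      have := Int.emod_add_mul_ediv (-n) (p : ℤ)
      exact ⟨-((-n) / (p : ℤ)), by linarith⟩
  refine ⟨divPt L p (a, b), ⟨Finset.mem_image_of_mem _ hab, hmem⟩, ?_⟩
  rintro T ⟨hT, hTm⟩
  unfold reps at hT
  rw [Finset.mem_image] at hT
  obtain ⟨ab', hab', rfl⟩ := hT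
  congr 1
  apply eq_of_divPt_sub_mem L hp hab' hab
  have := L.lattice.sub_mem hTm hmem
  have e : w + divPt L p ab' - (w + divPt L p (a, b)) = divPt L p ab' - divPt L p (a, b) := by
    ring
  rwa [e] at this

/-- **(VS) over `ℂ`, lattice form.** For an odd `p`, a half period `s` and the half-period
constant `D`: `(∏_{T ∈ (1/p)Λ/Λ, T ≠ 0} (℘ T - ℘ s))² = D^(p²-1) / p⁴`. -/
theorem prod_sq_eq (hodd : Odd p) (hs : s ∉ L.lattice) (h2s : 2 * s ∈ L.lattice)
    (hD0 : D ≠ 0)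
    (hD : ∀ z, z ∉ L.lattice → z + s ∉ L.lattice →
      (℘[L] (z + s) - ℘[L] s) * (℘[L] z - ℘[L] s) = D) :
    (∏ ab ∈ (Finset.range p ×ˢ Finset.range p).erase (0, 0),
      (℘[L] (divPt L p ab) - ℘[L] s)) ^ 2 = D ^ (p ^ 2 - 1) / (p : ℂ) ^ 4 := by
  have hp : p ≠ 0 := fun h => by simp [h] at hodd
  have key := prod_sq_eq_of_reps L hodd hs h2s hD0 hD (zero_mem_reps L hp)
    (mul_mem_of_mem_reps L hp) (existsUnique_reps L hp)
  rw [card_reps L hp] at key
  rw [← key]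
  congr 1
  have h00 : ((0, 0) : ℕ × ℕ) ∈ Finset.range p ×ˢ Finset.range p := by
    simp [Nat.pos_of_ne_zero hp]
  have herase : (reps L p).erase 0 =
      ((Finset.range p ×ˢ Finset.range p).erase (0, 0)).image (divPt L p) := by
    ext T
    unfold reps
    simp only [Finset.mem_erase, Finset.mem_image]
    constructor
    · rintro ⟨hT0, ab, hab, rfl⟩
      refine ⟨ab, ⟨?_, hab⟩, rfl⟩
      rintro rfl
      exact hT0 (divPt_zero L)
    · rintro ⟨ab, ⟨hne, hab⟩, rfl⟩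
      refine ⟨?_, ab, hab, rfl⟩
      intro h0
      apply hne
      apply divPt_injOn L hp hab h00
      rw [h0, divPt_zero]
  rw [herase, Finset.prod_image]
  intro ab hab ab' hab' h
  exact divPt_injOn L hp (Finset.mem_of_mem_erase hab) (Finset.mem_of_mem_erase hab') h

end Concrete

end Fermat.Agent.S13.CU.ValSum
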