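/-
PROJECT G (S13), complex uniformisation (helper18): transport of the valuation-sum identity (VS)
(`Iface.ValSum`) along a change of variables, over any field.

* `valSum_of_smul` : `ValSum (C • W) p → ValSum W p`, given that `W` has `p² - 1` nonzero
  `p`-torsion points (needed to match the powers of `u`).
* `card_of_smul` : the number of nonzero `p`-torsion points is invariant.
-/
import Fermat.Agent.S13.Iface
import Fermat.Agent.S13.CU.VarChange

set_option autoImplicit false

noncomputable section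

namespace Fermat.Agent.S13.CU.ValSumTransport

open WeierstrassCurve WeierstrassCurve.Affine
open Fermat.Agent.S13.Iface
open Fermat.Agent.S13.CU.VarChange

variable {F : Type*} [Field F] [DecidableEq F] (W : WeierstrassCurve F) (C : VariableChange F)

theorem xc_pointEquiv {T : (C • W).toAffine.Point} (hT : T ≠ 0) :
    xc W (VarChange.pointEquiv W C T) = (C.u : F) ^ 2 * xc (C • W) T + C.r := by
  rcases T with _ | ⟨x, y, h⟩
  · exact absurd rfl hT
  · rw [VarChange.pointEquiv_some]
    rfl

/-- Transport of (VS) along a change of variables; the number of nonzero `p`-torsion points is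
needed to match the powers of `u`. -/
theorem valSum_of_smul (p : ℕ) (h : ValSum (C • W) p)
    (hcard : ∀ S : Finset W.toAffine.Point, (∀ T, T ∈ S ↔ p • T = 0 ∧ T ≠ 0) →
      S.card = p ^ 2 - 1) : ValSum W p := by
  intro e he S hS
  have hu : (C.u : F) ≠ 0 := C.u.ne_zero
  set φ := VarChange.pointEquiv W C with hφ
  set e' : F := (e - C.r) / (C.u : F) ^ 2 with he'
  have hroot : 4 * e' ^ 3 + (C • W).b₂ * e' ^ 2 + 2 * (C • W).b₄ * e' + (C • W).b₆ = 0 := by
    rw [variableChange_b₂, variableChange_b₄, variableChange_b₆, he']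
    simp only [Units.val_inv_eq_inv_val]
    field_simp
    linear_combination he
  set S' : Finset (C • W).toAffine.Point := S.map φ.symm.toEquiv.toEmbedding with hS'
  have hS'mem : ∀ T', T' ∈ S' ↔ p • T' = 0 ∧ T' ≠ 0 := by
    intro T'
    rw [hS', Finset.mem_map_equiv, hS]
    simp only [AddEquiv.toEquiv_eq_coe, AddEquiv.coe_toEquiv_symm, AddEquiv.symm_symm]
    rw [← map_nsmul, Ne, Ne, EmbeddingLike.map_eq_zero_iff, EmbeddingLike.map_eq_zero_iff]
  have key := h e' hroot S' hS'mem
  have hn : S.card = p ^ 2 - 1 := hcard S hS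
  have hder : 12 * e' ^ 2 + 2 * (C • W).b₂ * e' + 2 * (C • W).b₄ =
      (12 * e ^ 2 + 2 * W.b₂ * e + 2 * W.b₄) / (C.u : F) ^ 4 := by
    rw [variableChange_b₂, variableChange_b₄, he']
    simp only [Units.val_inv_eq_inv_val]
    field_simp
    ring
  have hprod : ∏ T' ∈ S', (xc (C • W) T' - e') ^ 2 =
      (∏ T ∈ S, (xc W T - e) ^ 2) / ((C.u : F) ^ 4) ^ (p ^ 2 - 1) := by
    rw [hS', Finset.prod_map, ← hn, ← Finset.prod_const, ← Finset.prod_div_distrib]
    refine Finset.prod_congr rfl fun T hT => ?_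
    have hT0 : T ≠ 0 := ((hS T).mp hT).2
    have hT0' : φ.symm T ≠ 0 := by
      rwa [Ne, EmbeddingLike.map_eq_zero_iff]
    have hx := xc_pointEquiv W C hT0'
    rw [← hφ, AddEquiv.apply_symm_apply] at hx
    simp only [AddEquiv.toEquiv_eq_coe, Equiv.coe_toEmbedding, EquivLike.coe_coe]
    rw [hx, he']
    field_simp
    ring
  rw [hprod, hder, div_pow] at key
  have hu4 : ((C.u : F) ^ 4) ^ (p ^ 2 - 1) ≠ 0 := pow_ne_zero _ (pow_ne_zero _ hu)
  field_simp at key
  linear_combination key

/-- The number of nonzero `p`-torsion points is invariant under a change of variables. -/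
theorem card_of_smul (p n : ℕ)
    (hcard' : ∀ S' : Finset (C • W).toAffine.Point, (∀ T, T ∈ S' ↔ p • T = 0 ∧ T ≠ 0) →
      S'.card = n)
    (S : Finset W.toAffine.Point) (hS : ∀ T, T ∈ S ↔ p • T = 0 ∧ T ≠ 0) : S.card = n := by
  set φ := VarChange.pointEquiv W C with hφ
  set S' : Finset (C • W).toAffine.Point := S.map φ.symm.toEquiv.toEmbedding with hS'
  have hS'mem : ∀ T', T' ∈ S' ↔ p • T' = 0 ∧ T' ≠ 0 := by
    intro T'
    rw [hS', Finset.mem_map_equiv, hS]
    simp only [AddEquiv.toEquiv_eq_coe, AddEquiv.coe_toEquiv_symm, AddEquiv.symm_symm]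
    rw [← map_nsmul, Ne, Ne, EmbeddingLike.map_eq_zero_iff, EmbeddingLike.map_eq_zero_iff]
  rw [← hcard' S' hS'mem, hS', Finset.card_map]

end Fermat.Agent.S13.CU.ValSumTransport
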