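/-
PROJECT G (S13), complex uniformisation (helper18): the valuation-sum identity (VS) in the
interface spelling `Iface.ValSum`, on the points of Weierstrass curves over `ℂ`.

* `valSum_shortOf (hL : AddData L) (hodd : Odd p) : ValSum (shortOf L) p`
  from the lattice form `ValSum.prod_sq_eq_of_reps`, the half-period identities of `HalfPeriods`
  and the uniformisation homomorphism `UnifHom.toPoint`.
* `card_torsion_shortOf` : `shortOf L` has `p² - 1` nonzero `p`-torsion points.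
* `valSum_of_smul_eq_shortOf` : (VS) for any `W` over `ℂ` with `C • W = shortOf L`.
-/
import Fermat.Agent.S13.Iface
import Fermat.Agent.S13.CU.UnifHom
import Fermat.Agent.S13.CU.HalfPeriods
import Fermat.Agent.S13.CU.ValSum
import Fermat.Agent.S13.CU.ValSumTransport

set_option autoImplicit false

noncomputable section

namespace Fermat.Agent.S13.CU.ValSumPoint

open Complex Filter Topology
open scoped PeriodPair
open WeierstrassCurve.Affine
open Fermat.Agent.S13.Iface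
open Fermat.Agent.S13.CU.Defs
open Fermat.Agent.S13.CU.UnifHom
open Fermat.Agent.S13.CU.HalfPeriods
open Fermat.Agent.S13.CU.ValSum

variable {L : PeriodPair}

/-! ### Representatives -/

theorem eq_of_mem_reps_of_sub_mem {p : ℕ} (hp : p ≠ 0) {t t' : ℂ} (ht : t ∈ reps L p)
    (ht' : t' ∈ reps L p) (h : t - t' ∈ L.lattice) : t = t' := by
  have hw : (p : ℂ) * (-t') ∈ L.lattice := by
    have := L.lattice.neg_mem (mul_mem_of_mem_reps L hp t' ht')
    rwa [← mul_neg] at this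
  obtain ⟨T₀, _, huniq⟩ := existsUnique_reps L hp (-t') hw
  have h1 : t = T₀ := huniq t ⟨ht, by rwa [neg_add_eq_sub]⟩
  have h2 : t' = T₀ := huniq t' ⟨ht', by simp⟩
  rw [h1, h2]

theorem eq_zero_of_mem_reps_of_mem {p : ℕ} (hp : p ≠ 0) {t : ℂ} (ht : t ∈ reps L p)
    (h : t ∈ L.lattice) : t = 0 :=
  eq_of_mem_reps_of_sub_mem hp ht (zero_mem_reps L hp) (by simpa using h)

theorem xc_toPoint (hL : AddData L) {z : ℂ} (hz : z ∉ L.lattice) :
    xc (shortOf L) (toPoint hL z) = ℘[L] z := by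
  rw [toPoint_of_not_mem hL hz]
  rfl

theorem nsmul_toPoint (hL : AddData L) (p : ℕ) (z : ℂ) :
    p • toPoint hL z = toPoint hL ((p : ℂ) * z) := by
  rw [← map_nsmul, nsmul_eq_mul]

/-- The nonzero `p`-torsion points are the images of the nonzero representatives. -/
theorem torsion_eq_image (hL : AddData L) {p : ℕ} (hp : p ≠ 0)
    (S : Finset (shortOf L).toAffine.Point) (hS : ∀ T, T ∈ S ↔ p • T = 0 ∧ T ≠ 0) :
    S = ((reps L p).erase 0).image (toPoint hL) := by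
  ext T
  rw [hS, Finset.mem_image]
  constructor
  · rintro ⟨hpT, hT0⟩
    obtain ⟨z, rfl⟩ := toPoint_surjective hL T
    rw [nsmul_toPoint, toPoint_eq_zero_iff] at hpT
    have hw : (p : ℂ) * (-z) ∈ L.lattice := by
      have := L.lattice.neg_mem hpT
      rwa [← mul_neg] at this
    obtain ⟨t, ⟨ht, htz⟩, -⟩ := existsUnique_reps L hp (-z) hw
    have heq : toPoint hL t = toPoint hL z := by
      rw [toPoint_eq_iff]
      rwa [neg_add_eq_sub] at htz
    refine ⟨t, ?_, heq⟩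
    rw [Finset.mem_erase]
    refine ⟨?_, ht⟩
    rintro rfl
    apply hT0
    rw [← heq, map_zero]
  · rintro ⟨t, ht, rfl⟩
    rw [Finset.mem_erase] at ht
    obtain ⟨ht0, ht⟩ := ht
    constructor
    · rw [nsmul_toPoint, toPoint_eq_zero_iff]
      exact mul_mem_of_mem_reps L hp t ht
    · rw [Ne, toPoint_eq_zero_iff]
      exact fun h => ht0 (eq_zero_of_mem_reps_of_mem hp ht h)

theorem prod_torsion_eq (hL : AddData L) {p : ℕ} (hp : p ≠ 0)
    (S : Finset (shortOf L).toAffine.Point) (hS : ∀ T, T ∈ S ↔ p • T = 0 ∧ T ≠ 0) (e : ℂ) :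
    ∏ T ∈ S, (xc (shortOf L) T - e) ^ 2 = (∏ t ∈ (reps L p).erase 0, (℘[L] t - e)) ^ 2 := by
  have hinj : Set.InjOn (toPoint hL) (((reps L p).erase 0 : Finset ℂ) : Set ℂ) := by
    intro t ht t' ht' h
    rw [Finset.mem_coe, Finset.mem_erase] at ht ht'
    rw [toPoint_eq_iff] at h
    exact eq_of_mem_reps_of_sub_mem hp ht.2 ht'.2 h
  rw [torsion_eq_image hL hp S hS, Finset.prod_image hinj, ← Finset.prod_pow]
  refine Finset.prod_congr rfl fun t ht => ?_
  rw [Finset.mem_erase] at ht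
  rw [xc_toPoint hL (fun h => ht.1 (eq_zero_of_mem_reps_of_mem hp ht.2 h))]

/-- (VS) on `shortOf L` for the root `e = ℘ s` attached to a half period `s`. -/
theorem valSum_at (hL : AddData L) {p : ℕ} (hodd : Odd p) {s D : ℂ} (hs : s ∉ L.lattice)
    (h2s : 2 * s ∈ L.lattice) (hD0 : D ≠ 0)
    (hD : ∀ z, z ∉ L.lattice → z + s ∉ L.lattice →
      (℘[L] (z + s) - ℘[L] s) * (℘[L] z - ℘[L] s) = D)
    (hder : 12 * ℘[L] s ^ 2 - L.g₂ = 4 * D)
    (S : Finset (shortOf L).toAffine.Point) (hS : ∀ T, T ∈ S ↔ p • T = 0 ∧ T ≠ 0) :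
    (p : ℂ) ^ 4 * 4 ^ (p ^ 2 - 1) * ∏ T ∈ S, (xc (shortOf L) T - ℘[L] s) ^ 2 =
      (12 * ℘[L] s ^ 2 + 2 * (shortOf L).b₂ * ℘[L] s + 2 * (shortOf L).b₄) ^ (p ^ 2 - 1) := by
  have hp : p ≠ 0 := fun h => by simp [h] at hodd
  have hpc : (p : ℂ) ≠ 0 := by exact_mod_cast hp
  have hb2 : (shortOf L).b₂ = 0 := by simp [WeierstrassCurve.b₂]
  have hb4 : (shortOf L).b₄ = -L.g₂ / 2 := by
    simp [WeierstrassCurve.b₄]
    ring
  have key := prod_sq_eq_of_reps L hodd hs h2s hD0 hD (zero_mem_reps L hp)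
    (mul_mem_of_mem_reps L hp) (existsUnique_reps L hp)
  rw [card_reps L hp] at key
  rw [prod_torsion_eq hL hp S hS, key, hb2, hb4]
  have e1 : 12 * ℘[L] s ^ 2 + 2 * 0 * ℘[L] s + 2 * (-L.g₂ / 2) = 4 * D := by
    rw [← hder]
    ring
  rw [e1, mul_pow]
  field_simp

theorem der_e₁ : 12 * e₁ L ^ 2 - L.g₂ = 4 * ((e₃ L - e₁ L) * (e₂ L - e₁ L)) := by
  rw [g₂_eq L]
  linear_combination (8 * e₁ L) * e_sum L

theorem der_e₂ : 12 * e₂ L ^ 2 - L.g₂ = 4 * ((e₃ L - e₂ L) * (e₁ L - e₂ L)) := by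
  rw [g₂_eq L]
  linear_combination (8 * e₂ L) * e_sum L

theorem der_e₃ : 12 * e₃ L ^ 2 - L.g₂ = 4 * ((e₂ L - e₃ L) * (e₁ L - e₃ L)) := by
  rw [g₂_eq L]
  linear_combination (8 * e₃ L) * e_sum L

/-- **(VS) for the lattice curve `shortOf L`**, in the interface spelling. -/
theorem valSum_shortOf (hL : AddData L) {p : ℕ} (hodd : Odd p) : ValSum (shortOf L) p := by
  intro e he S hS
  have hb2 : (shortOf L).b₂ = 0 := by simp [WeierstrassCurve.b₂]
  have hb4 : (shortOf L).b₄ = -L.g₂ / 2 := by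
    simp [WeierstrassCurve.b₄]
    ring
  have hb6 : (shortOf L).b₆ = -L.g₃ := by
    simp [WeierstrassCurve.b₆]
    ring
  have hcubic : 4 * e ^ 3 - L.g₂ * e - L.g₃ = 0 := by
    rw [hb2, hb4, hb6] at he
    linear_combination he
  rw [cubic_eq L] at hcubic
  have h12 : e₁ L - e₂ L ≠ 0 := sub_ne_zero.mpr (e₂_ne_e₁ L).symm
  have h13 : e₁ L - e₃ L ≠ 0 := sub_ne_zero.mpr (e₃_ne_e₁ L).symm
  have h23 : e₂ L - e₃ L ≠ 0 := sub_ne_zero.mpr (e₃_ne_e₂ L).symm
  have h21 : e₂ L - e₁ L ≠ 0 := sub_ne_zero.mpr (e₂_ne_e₁ L)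
  have h31 : e₃ L - e₁ L ≠ 0 := sub_ne_zero.mpr (e₃_ne_e₁ L)
  have h32 : e₃ L - e₂ L ≠ 0 := sub_ne_zero.mpr (e₃_ne_e₂ L)
  have h4 : (4 : ℂ) ≠ 0 := by norm_num
  rcases mul_eq_zero.mp ((mul_eq_zero.mp hcubic).resolve_left h4) with h | h
  · rcases mul_eq_zero.mp h with h | h
    · have he1 : e = ℘[L] (L.ω₁ / 2) := sub_eq_zero.mp h
      rw [he1]
      exact valSum_at hL hodd L.ω₁_div_two_notMem_lattice (two_mul_ω₁_div_two_mem L)
        (mul_ne_zero h31 h21) (fun z hz hzs => halfProd_ω₁ L hz hzs) (der_e₁ (L := L)) S hS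
    · have he2 : e = ℘[L] (L.ω₂ / 2) := sub_eq_zero.mp h
      rw [he2]
      exact valSum_at hL hodd L.ω₂_div_two_notMem_lattice (two_mul_ω₂_div_two_mem L)
        (mul_ne_zero h32 h12) (fun z hz hzs => halfProd_ω₂ L hz hzs) (der_e₂ (L := L)) S hS
  · have he3 : e = ℘[L] ((L.ω₁ + L.ω₂) / 2) := sub_eq_zero.mp h
    rw [he3]
    exact valSum_at hL hodd (ω₃_div_two_notMem_lattice L) (two_mul_ω₃_div_two_mem L)
      (mul_ne_zero h23 h13) (fun z hz hzs => halfProd_ω₃ L hz hzs) (der_e₃ (L := L)) S hS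

/-- `shortOf L` has exactly `p² - 1` nonzero `p`-torsion points. -/
theorem card_torsion_shortOf (hL : AddData L) {p : ℕ} (hp : p ≠ 0)
    (S : Finset (shortOf L).toAffine.Point) (hS : ∀ T, T ∈ S ↔ p • T = 0 ∧ T ≠ 0) :
    S.card = p ^ 2 - 1 := by
  have hinj : Set.InjOn (toPoint hL) (((reps L p).erase 0 : Finset ℂ) : Set ℂ) := by
    intro t ht t' ht' h
    rw [Finset.mem_coe, Finset.mem_erase] at ht ht'
    rw [toPoint_eq_iff] at h
    exact eq_of_mem_reps_of_sub_mem hp ht.2 ht'.2 h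
  rw [torsion_eq_image hL hp S hS, Finset.card_image_of_injOn hinj,
    Finset.card_erase_of_mem (zero_mem_reps L hp), card_reps L hp]

/-- **(VS) over `ℂ`** for every Weierstrass curve which a change of variables brings to a lattice
curve `shortOf L`. -/
theorem valSum_of_smul_eq_shortOf (hL : AddData L) (W : WeierstrassCurve ℂ)
    (C : WeierstrassCurve.VariableChange ℂ) (hC : C • W = shortOf L) {p : ℕ} (hodd : Odd p) :
    ValSum W p := by
  have hp : p ≠ 0 := fun h => by simp [h] at hodd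
  have h1 : ValSum (C • W) p := by
    rw [hC]
    exact valSum_shortOf hL hodd
  have h2 : ∀ S' : Finset (C • W).toAffine.Point, (∀ T, T ∈ S' ↔ p • T = 0 ∧ T ≠ 0) →
      S'.card = p ^ 2 - 1 := by
    rw [hC]
    exact card_torsion_shortOf hL hp
  exact ValSumTransport.valSum_of_smul W C p h1 (ValSumTransport.card_of_smul W C p _ h2)

end Fermat.Agent.S13.CU.ValSumPoint
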