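import Fermat.Agent.S13.CU.DescentIface
import Fermat.Agent.S13.CU.TorsionC
import Fermat.Agent.S13.CU.ValSumPoint
import Fermat.Agent.S13.CU.UnifIso
import Fermat.Agent.S13.CU.Uniformize
import Fermat.Agent.S05.FreyInst

/-!
# PROJECT G (S13): end of the complex-uniformisation block

* `valSum_complex`, `torsionCard_complex` : (VS) and (T) for every Weierstrass curve over `ℂ` with
  `Δ ≠ 0`;
* `torsionCard_rat`, `valSum_rat` : (T) and (VS) over `ℚ̄` for the base change of a curve over `ℚ`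
  with `Δ ≠ 0`;
* `torsionCard_frey`, `natCard_frey`, `valSum_frey` : the Frey curve.
-/

set_option autoImplicit false

namespace Fermat.Agent.S13.CU.FreyInputs

open WeierstrassCurve WeierstrassCurve.Affine
open Fermat.Agent.S13

local notation "Qbar" => AlgebraicClosure ℚ

/-- **(VS) over `ℂ`.** -/
theorem valSum_complex (W : WeierstrassCurve ℂ) (hW : W.Δ ≠ 0) {p : ℕ} (hodd : Odd p) :
    Iface.ValSum W p := by
  obtain ⟨L, C, hC⟩ := Uniformize.exists_variableChange W hW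
  exact ValSumPoint.valSum_of_smul_eq_shortOf (UnifIso.addData L) W C hC hodd

/-- **(T) over `ℂ`.** -/
theorem torsionCard_complex (W : WeierstrassCurve ℂ) (hW : W.Δ ≠ 0) {n : ℕ} (hn : 0 < n) :
    Iface.TorsionCard W n :=
  TorsionC.torsionCard W hW n hn

theorem baseChange_Δ_ne_zero (W₀ : WeierstrassCurve ℚ) (hW : W₀.Δ ≠ 0) :
    (W₀.baseChange ℂ).Δ ≠ 0 := by
  show (W₀.map (algebraMap ℚ ℂ)).Δ ≠ 0
  rw [WeierstrassCurve.map_Δ]
  exact fun h => hW ((map_eq_zero_iff _ (algebraMap ℚ ℂ).injective).mp h)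

/-- **(T) over `ℚ̄`** for a curve over `ℚ`. -/
theorem torsionCard_rat (W₀ : WeierstrassCurve ℚ) (hW : W₀.Δ ≠ 0) {n : ℕ} (hn : 0 < n) :
    Iface.TorsionCard (W₀.baseChange Qbar) n :=
  DescentIface.torsionCard_qbar W₀ hn
    (torsionCard_complex _ (baseChange_Δ_ne_zero W₀ hW) hn)

/-- **(VS) over `ℚ̄`** for a curve over `ℚ`. -/
theorem valSum_rat (W₀ : WeierstrassCurve ℚ) (hW : W₀.Δ ≠ 0) {p : ℕ} (hodd : Odd p) :
    Iface.ValSum (W₀.baseChange Qbar) p := by
  have hp : 0 < p := hodd.pos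
  exact DescentIface.valSum_qbar W₀ hp
    (torsionCard_complex _ (baseChange_Δ_ne_zero W₀ hW) hp)
    (valSum_complex _ (baseChange_Δ_ne_zero W₀ hW) hodd)

theorem frey_Δ_ne_zero (P : FreyPackage) : P.freyCurve.Δ ≠ 0 := by
  have h := Fermat.Agent.S05.FreyInst.Δ_ne_zero P ℚ
  have h2 : (P.freyCurve⁄ℚ).Δ = P.freyCurve.Δ := by
    show (P.freyCurve.map (algebraMap ℚ ℚ)).Δ = P.freyCurve.Δ
    rw [WeierstrassCurve.map_Δ]
    rfl
  rwa [h2] at h

/-- **(T) for the Frey curve** over `ℚ̄`. -/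
theorem torsionCard_frey (P : FreyPackage) :
    Iface.TorsionCard (P.freyCurve.baseChange Qbar) P.p :=
  torsionCard_rat P.freyCurve (frey_Δ_ne_zero P) P.hppos

/-- **(T) for the Frey curve** in the prelude's spelling. -/
theorem natCard_frey (P : FreyPackage) :
    Nat.card (Submodule.torsionBy ℤ (P.freyCurve⁄Qbar).Point P.p) = P.p ^ 2 :=
  torsionCard_frey P

/-- **(VS) for the Frey curve** over `ℚ̄`. -/
theorem valSum_frey (P : FreyPackage) : Iface.ValSum (P.freyCurve.baseChange Qbar) P.p :=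
  valSum_rat P.freyCurve (frey_Δ_ne_zero P) P.hp_odd

end Fermat.Agent.S13.CU.FreyInputs
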