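/-
PROJECT G (S13), block CU, slice G-CU-A8 = (A8-Frey) (helper8): from the end interface of the
complex-uniformisation block (`S13/Iface`: `TorsionCard`, `ValSum`, in Mathlib coordinates) to
the Legendre coordinates `X = 4 x - r₀` of `S05/FreyLeg`, and to the three legs
`legA / legB / legC` of the Frey curve - in exactly the shape consumed by `S13/Local/Excl.excl`:

  `(∏_{T ≠ 0, p T = 0} (X T - e₂))² = (e₂ (e₂ - e₁))^(p² - 1) / p⁴`.

Pure algebra.
-/
import Mathlib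
import Fermat.Agent.S05.FreyLegInst
import Fermat.Agent.S13.Iface

set_option autoImplicit false
set_option linter.unusedSectionVars false
set_option linter.unusedVariables false

noncomputable section

namespace Fermat.Agent.S13.CU.Transport

open WeierstrassCurve WeierstrassCurve.Affine Fermat.Agent.S05.FreyLeg Fermat.Agent.S13.Iface

variable {F : Type*} [Field F] [DecidableEq F]

/-! ### Counting the nonzero torsion points -/

/-- Under (T), the `Finset` of nonzero `n`-torsion points has `n ^ 2 - 1` elements. -/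
theorem card_of_torsionCard {W : WeierstrassCurve F} {n : ℕ} (h : TorsionCard W n)
    (S : Finset W.toAffine.Point) (hS : ∀ T, T ∈ S ↔ n • T = 0 ∧ T ≠ 0) :
    S.card = n ^ 2 - 1 := by
  classical
  have h0 : (0 : W.toAffine.Point) ∉ S := fun h0 => ((hS 0).mp h0).2 rfl
  have hset : ((insert 0 S : Finset W.toAffine.Point) : Set W.toAffine.Point)
      = (Submodule.torsionBy ℤ W.toAffine.Point n : Set W.toAffine.Point) := by
    ext T
    rw [Finset.mem_coe, Finset.mem_insert, hS, SetLike.mem_coe, mem_torsionBy_iff_nsmul]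
    constructor
    · rintro (rfl | ⟨h1, -⟩)
      · exact smul_zero n
      · exact h1
    · intro h1
      by_cases hT : T = 0
      · exact Or.inl hT
      · exact Or.inr ⟨h1, hT⟩
  have h1 : Nat.card (Submodule.torsionBy ℤ W.toAffine.Point n)
      = (insert 0 S : Finset W.toAffine.Point).card := by
    have h2 : Nat.card (Submodule.torsionBy ℤ W.toAffine.Point n)
        = (Submodule.torsionBy ℤ W.toAffine.Point n : Set W.toAffine.Point).ncard :=
      Nat.card_coe_set_eq _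
    rw [h2, ← hset, Set.ncard_coe_finset]
  rw [TorsionCard, h1, Finset.card_insert_of_notMem h0] at h
  omega

/-! ### Legendre coordinates -/

section Leg

variable {W : WeierstrassCurve F} {r0 e1 e2 : F}

theorem legX_eq_xc {T : W.toAffine.Point} (hT : T ≠ 0) : legX W r0 T = 4 * xc W T - r0 := by
  cases T with
  | zero => exact absurd rfl hT
  | some x y h => rfl

theorem isLeg_b₂ (hW : IsLeg W r0 e1 e2) : W.b₂ = -(3 * r0 + e1 + e2) := by
  rw [WeierstrassCurve.b₂, hW.a1, ← hW.c2]; ring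

theorem isLeg_b₄ (hW : IsLeg W r0 e1 e2) :
    8 * W.b₄ = r0 * (r0 + e1) + r0 * (r0 + e2) + (r0 + e1) * (r0 + e2) := by
  rw [WeierstrassCurve.b₄, hW.a1, hW.a3, ← hW.c1]; ring

theorem isLeg_b₆ (hW : IsLeg W r0 e1 e2) : W.b₆ = 0 := by
  rw [WeierstrassCurve.b₆, hW.a3, hW.a6]; ring

theorem sixteen_ne_zero (h2 : (2 : F) ≠ 0) : (16 : F) ≠ 0 := by
  have : (16 : F) = 2 * 2 * 2 * 2 := by norm_num
  rw [this]
  exact mul_ne_zero (mul_ne_zero (mul_ne_zero h2 h2) h2) h2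

theorem four_ne_zero' (h2 : (2 : F) ≠ 0) : (4 : F) ≠ 0 := by
  have : (4 : F) = 2 * 2 := by norm_num
  rw [this]
  exact mul_ne_zero h2 h2

/-- The `2`-division polynomial in Legendre form. -/
theorem isLeg_twoDiv (hW : IsLeg W r0 e1 e2) (e : F) :
    16 * (4 * e ^ 3 + W.b₂ * e ^ 2 + 2 * W.b₄ * e + W.b₆)
      = (4 * e - r0) * (4 * e - r0 - e1) * (4 * e - r0 - e2) := by
  have h4 := isLeg_b₄ hW
  have hc0 := hW.c0
  rw [isLeg_b₂ hW, isLeg_b₆ hW]
  linear_combination (4 * e) * h4 + hc0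

/-- `e = (r₀ + e₂) / 4` is a root of the `2`-division polynomial. -/
theorem isLeg_root (hW : IsLeg W r0 e1 e2) (h2 : (2 : F) ≠ 0) {e : F} (he : 4 * e = r0 + e2) :
    4 * e ^ 3 + W.b₂ * e ^ 2 + 2 * W.b₄ * e + W.b₆ = 0 := by
  have h16 := isLeg_twoDiv hW e
  have h0 : 4 * e - r0 - e2 = 0 := by linear_combination he
  rw [h0, mul_zero] at h16
  exact (mul_eq_zero.mp h16).resolve_left (sixteen_ne_zero h2)

/-- The derivative of the `2`-division polynomial at that root. -/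
theorem isLeg_deriv (hW : IsLeg W r0 e1 e2) {e : F} (he : 4 * e = r0 + e2) :
    4 * (12 * e ^ 2 + 2 * W.b₂ * e + 2 * W.b₄) = e2 * (e2 - e1) := by
  have h4 := isLeg_b₄ hW
  have hr : r0 = 4 * e - e2 := by linear_combination -he
  rw [isLeg_b₂ hW]
  have e8 : 4 * (12 * e ^ 2 + 2 * -(3 * r0 + e1 + e2) * e + 2 * W.b₄)
      = 48 * e ^ 2 - 8 * (3 * r0 + e1 + e2) * e + 8 * W.b₄ := by ring
  rw [e8, h4, hr]
  ring

/-- **(VS) on a leg**, from the interface `ValSum` in Mathlib coordinates: the shape consumed by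
`S13/Local/Excl.excl` (with `n := p ^ 2 - 1`). -/
theorem valSum_leg (hW : IsLeg W r0 e1 e2) (h2 : (2 : F) ≠ 0) {p : ℕ} (hp : (p : F) ≠ 0)
    (hT : TorsionCard W p) (hVS : ValSum W p)
    (S : Finset W.toAffine.Point) (hS : ∀ T, T ∈ S ↔ p • T = 0 ∧ T ≠ 0) :
    (∏ T ∈ S, (legX W r0 T - e2)) ^ 2 = (e2 * (e2 - e1)) ^ (p ^ 2 - 1) / (p : F) ^ 4 := by
  have h4 : (4 : F) ≠ 0 := four_ne_zero' h2
  obtain ⟨e, he⟩ : ∃ e : F, 4 * e = r0 + e2 := ⟨(r0 + e2) / 4, by field_simp⟩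
  have key := hVS e (isLeg_root hW h2 he) S hS
  have hcard := card_of_torsionCard hT S hS
  have h1 : ∀ T ∈ S, (legX W r0 T - e2) ^ 2 = 16 * (xc W T - e) ^ 2 := by
    intro T hT'
    rw [legX_eq_xc ((hS T).mp hT').2]
    have : e2 = 4 * e - r0 := by linear_combination -he
    rw [this]
    ring
  have hpp : (p : F) ^ 4 ≠ 0 := pow_ne_zero 4 hp
  rw [← Finset.prod_pow, Finset.prod_congr rfl h1, Finset.prod_mul_distrib, Finset.prod_const,
    hcard, eq_div_iff hpp, ← isLeg_deriv hW he, mul_pow, ← key]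
  have : (16 : F) = 4 * 4 := by norm_num
  rw [this, mul_pow]
  ring

end Leg

/-! ### The three legs of the Frey curve -/

section Frey

open Fermat.Agent.S05.FreyLegInst Fermat.Agent.S05.FreyInst

variable (P : FreyPackage) (L : Type*) [Field L] [Algebra ℚ L] [DecidableEq L]

theorem natCast_p_ne_zero : ((P.p : ℕ) : L) ≠ 0 := by
  have := Fermat.Agent.S05.FreyInst.charZero L
  exact Nat.cast_ne_zero.mpr P.pp.ne_zero

/-- (VS) on `legA`: `(e₁, e₂) = (a ^ p, -b ^ p)`. -/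
theorem valSum_legA (hT : TorsionCard (P.freyCurve⁄L) P.p) (hVS : ValSum (P.freyCurve⁄L) P.p)
    (S : Finset (P.freyCurve⁄L).toAffine.Point) (hS : ∀ T, T ∈ S ↔ P.p • T = 0 ∧ T ≠ 0) :
    (∏ T ∈ S, ((legA P L).X T - (-cB P L))) ^ 2
      = ((-cB P L) * ((-cB P L) - cA P L)) ^ (P.p ^ 2 - 1) / ((P.p : ℕ) : L) ^ 4 :=
  valSum_leg (isLegA P L) (two_ne_zero' L) (natCast_p_ne_zero P L) hT hVS S hS

/-- (VS) on `legB`: `(e₁, e₂) = (-b ^ p, a ^ p)`. -/
theorem valSum_legB (hT : TorsionCard (P.freyCurve⁄L) P.p) (hVS : ValSum (P.freyCurve⁄L) P.p)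
    (S : Finset (P.freyCurve⁄L).toAffine.Point) (hS : ∀ T, T ∈ S ↔ P.p • T = 0 ∧ T ≠ 0) :
    (∏ T ∈ S, ((legB P L).X T - cA P L)) ^ 2
      = (cA P L * (cA P L - (-cB P L))) ^ (P.p ^ 2 - 1) / ((P.p : ℕ) : L) ^ 4 :=
  valSum_leg (isLegB P L) (two_ne_zero' L) (natCast_p_ne_zero P L) hT hVS S hS

/-- (VS) on `legC`: `(e₁, e₂) = (-c ^ p, -a ^ p)`, shifted by `r₀ = a ^ p`. -/
theorem valSum_legC (hT : TorsionCard (P.freyCurve⁄L) P.p) (hVS : ValSum (P.freyCurve⁄L) P.p)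
    (S : Finset (P.freyCurve⁄L).toAffine.Point) (hS : ∀ T, T ∈ S ↔ P.p • T = 0 ∧ T ≠ 0) :
    (∏ T ∈ S, ((legC P L).X T - (-cA P L))) ^ 2
      = ((-cA P L) * ((-cA P L) - (-cC P L))) ^ (P.p ^ 2 - 1) / ((P.p : ℕ) : L) ^ 4 :=
  valSum_leg (isLegC P L) (two_ne_zero' L) (natCast_p_ne_zero P L) hT hVS S hS

end Frey

end Fermat.Agent.S13.CU.Transport
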