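/-
PROJECT G (S13), complex uniformisation (A6): THE ADDITION THEOREM FOR `℘` (helper24).

For a period pair `L` (Mathlib `PeriodPair`), with `x_i = ℘ z_i`, `Y_i = ℘' z_i`,
`lam = (Y₁ - Y₂) / (2 (x₁ - x₂))`:

* `weierstrassP_add`      : `℘ (z + w) = lam² - ℘ z - ℘ w`;
* `derivWeierstrassP_add` : `℘' (z + w) = 2 lam (℘ z - ℘ (z + w)) - ℘' z`;
* the duplication formulas (`w → z`).

Proof without any pole analysis: `(∂_z - ∂_w) (lam² - x₁ - x₂) = 0` is an algebraic identity (from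
`Y² = 4x³ - g₂x - g₃` and `℘'' = 6℘² - g₂/2`), so `t ↦ R(t, c - t)` is locally constant on the
complement of a countable closed set, hence constant; its value is read off at `t → 0`.

Inputs (hypotheses, discharged from `CU/Bijection`): `ODE L` (`℘'' = 6℘² - g₂/2`) and `Inj L`
(`(℘, ℘')` is injective modulo the lattice).
-/
import Mathlib

set_option autoImplicit false

open Complex Filter Topology
open PeriodPair

namespace Fermat.Agent.S13.CU.Addition

variable (L : PeriodPair)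

/-- `℘'' = 6 ℘² - g₂ / 2` off the lattice. -/
def ODE : Prop :=
  ∀ z : ℂ, z ∉ L.lattice → HasDerivAt ℘'[L] (6 * ℘[L] z ^ 2 - L.g₂ / 2) z

/-- `z ↦ (℘ z, ℘' z)` is injective modulo the lattice. -/
def Inj : Prop :=
  ∀ u w : ℂ, u ∉ L.lattice → w ∉ L.lattice → ℘[L] u = ℘[L] w → ℘'[L] u = ℘'[L] w →
    u - w ∈ L.lattice

variable {L}

/-! ### Basic derivative facts -/

theorem hasDerivAt_weierstrassP {z : ℂ} (hz : z ∉ L.lattice) :
    HasDerivAt ℘[L] (℘'[L] z) z := by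
  have h1 : DifferentiableAt ℂ ℘[L] z :=
    (L.differentiableOn_weierstrassP z hz).differentiableAt
      (L.isClosed_lattice.isOpen_compl.mem_nhds hz)
  have h2 := h1.hasDerivAt
  rwa [L.deriv_weierstrassP] at h2

theorem neg_notMem {z : ℂ} (hz : z ∉ L.lattice) : -z ∉ L.lattice := fun h =>
  hz (by simpa using L.lattice.neg_mem h)

theorem sub_notMem_of_add {c t : ℂ} (h : c - t ∉ L.lattice) : t - c ∉ L.lattice := fun h' =>
  h (by simpa using L.lattice.neg_mem h')

/-- `t ↦ ℘ (c - t)` has derivative `-℘' (c - t)`. -/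
theorem hasDerivAt_weierstrassP_sub {c t : ℂ} (h : c - t ∉ L.lattice) :
    HasDerivAt (fun s => ℘[L] (c - s)) (-℘'[L] (c - t)) t := by
  have h1 : HasDerivAt (fun s : ℂ => c - s) (-1) t := by
    simpa using (hasDerivAt_id t).const_sub c
  have h2 := HasDerivAt.comp t (hasDerivAt_weierstrassP (L := L) h) h1
  convert! h2 using 1
  ring

theorem hasDerivAt_derivWeierstrassP_sub (hO : ODE L) {c t : ℂ} (h : c - t ∉ L.lattice) :
    HasDerivAt (fun s => ℘'[L] (c - s)) (-(6 * ℘[L] (c - t) ^ 2 - L.g₂ / 2)) t := by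
  have h1 : HasDerivAt (fun s : ℂ => c - s) (-1) t := by
    simpa using (hasDerivAt_id t).const_sub c
  have h2 := HasDerivAt.comp t (hO _ h) h1
  convert! h2 using 1
  ring

/-! ### The chord function and its derivative along `z + w = c` -/

/-- The slope of the chord through `(℘ z, ℘' z)` and `(℘ w, ℘' w)` (in the `(℘, ℘'/2)` model). -/
noncomputable def lam (L : PeriodPair) (z w : ℂ) : ℂ :=
  (℘'[L] z - ℘'[L] w) / (2 * (℘[L] z - ℘[L] w))

/-- The candidate for `℘ (z + w)`. -/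
noncomputable def R (L : PeriodPair) (z w : ℂ) : ℂ := lam L z w ^ 2 - ℘[L] z - ℘[L] w

theorem alg_R (x1 x2 Y1 Y2 g2 g3 : ℂ) (hd : x1 - x2 ≠ 0)
    (e1 : Y1 ^ 2 = 4 * x1 ^ 3 - g2 * x1 - g3) (e2 : Y2 ^ 2 = 4 * x2 ^ 3 - g2 * x2 - g3) :
    0 = 2 * ((Y1 - Y2) / (2 * (x1 - x2))) *
        (((6 * x1 ^ 2 - g2 / 2 - -(6 * x2 ^ 2 - g2 / 2)) * (2 * (x1 - x2)) -
          (Y1 - Y2) * (2 * (Y1 - -Y2))) / (2 * (x1 - x2)) ^ 2) - Y1 - -Y2 := by
  field_simp
  linear_combination (2 * (Y1 - Y2)) * e1 - (2 * (Y1 - Y2)) * e2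

/-- **Key identity**: along `z + w = c` the chord function has derivative `0`. -/
theorem hasDerivAt_R_sub (hO : ODE L) {c t : ℂ} (ht : t ∉ L.lattice) (hct : c - t ∉ L.lattice)
    (hne : ℘[L] t ≠ ℘[L] (c - t)) :
    HasDerivAt (fun s => R L s (c - s)) 0 t := by
  have hx1 := hasDerivAt_weierstrassP ht
  have hY1 := hO t ht
  have hx2 := hasDerivAt_weierstrassP_sub hct
  have hY2 := hasDerivAt_derivWeierstrassP_sub hO hct
  have hden : 2 * (℘[L] t - ℘[L] (c - t)) ≠ 0 :=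
    mul_ne_zero two_ne_zero (sub_ne_zero.mpr hne)
  have hlam : HasDerivAt (fun s => lam L s (c - s)) _ t :=
    (hY1.sub hY2).div ((hx1.sub hx2).const_mul 2) hden
  have hR := ((hlam.pow 2).sub hx1).sub hx2
  have e1 := L.derivWeierstrassP_sq t ht
  have e2 := L.derivWeierstrassP_sq (c - t) hct
  convert! hR using 1
  have hd : ℘[L] t - ℘[L] (c - t) ≠ 0 := sub_ne_zero.mpr hne
  simp only [Pi.sub_apply, lam, Nat.cast_ofNat, show (2 - 1 : ℕ) = 1 from rfl, pow_one]
  exact alg_R _ _ _ _ _ _ hd e1 e2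


/-! ### The hypothesis (A4) in the weak form used here -/

variable (L) in
/-- `℘ u = ℘ w` only if `u ≡ ± w` modulo the lattice. -/
def EqIff : Prop :=
  ∀ u w : ℂ, u ∉ L.lattice → w ∉ L.lattice → ℘[L] u = ℘[L] w →
    u - w ∈ L.lattice ∨ u + w ∈ L.lattice

theorem eqIff_of_inj (hI : Inj L) : EqIff L := by
  intro u w hu hw h
  have e1 := L.derivWeierstrassP_sq u hu
  have e2 := L.derivWeierstrassP_sq w hw
  have h2 : (℘'[L] u - ℘'[L] w) * (℘'[L] u + ℘'[L] w) = 0 := by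
    rw [h] at e1
    linear_combination e1 - e2
  rcases mul_eq_zero.mp h2 with h3 | h3
  · exact Or.inl (hI u w hu hw h (sub_eq_zero.mp h3))
  · right
    have := hI u (-w) hu (neg_notMem hw) (by rw [L.weierstrassP_neg]; exact h)
      (by rw [L.derivWeierstrassP_neg]; linear_combination h3)
    simpa using this

theorem weierstrassP_eq_of_sub_mem {u w : ℂ} (h : u - w ∈ L.lattice) : ℘[L] u = ℘[L] w := by
  have := L.weierstrassP_add_coe w ⟨u - w, h⟩
  simpa using this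

theorem derivWeierstrassP_eq_of_sub_mem {u w : ℂ} (h : u - w ∈ L.lattice) :
    ℘'[L] u = ℘'[L] w := by
  have := L.derivWeierstrassP_add_coe w ⟨u - w, h⟩
  simpa using this

/-! ### The good set `U c` -/

/-- The set of `t` at which `t ↦ R L t (c - t)` is manifestly differentiable. -/
def U (L : PeriodPair) (c : ℂ) : Set ℂ :=
  {t | t ∉ L.lattice ∧ c - t ∉ L.lattice ∧ 2 * t - c ∉ L.lattice}

theorem countable_lattice : (L.lattice : Set ℂ).Countable := by
  have : Countable L.lattice := L.latticeEquivProd.toEquiv.countable_iff.mpr inferInstance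
  exact Set.countable_coe_iff.mp this

theorem U_eq (c : ℂ) :
    U L c = ((L.lattice : Set ℂ) ∪ (fun t => c - t) ⁻¹' (L.lattice : Set ℂ) ∪
      (fun t => 2 * t - c) ⁻¹' (L.lattice : Set ℂ))ᶜ := by
  ext t
  simp only [U, Set.mem_ofPred_eq, Set.mem_compl_iff, Set.mem_union, Set.mem_preimage,
    SetLike.mem_coe, not_or, and_assoc]

theorem isOpen_U (c : ℂ) : IsOpen (U L c) := by
  rw [U_eq]
  rw [isOpen_compl_iff]
  refine (L.isClosed_lattice.union ?_).union ?_
  · exact L.isClosed_lattice.preimage (by fun_prop)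
  · exact L.isClosed_lattice.preimage (by fun_prop)

theorem isPreconnected_U (c : ℂ) : IsPreconnected (U L c) := by
  rw [U_eq]
  refine (Set.Countable.isPathConnected_compl_of_one_lt_rank ?_ ?_).isConnected.isPreconnected
  · rw [Complex.rank_real_complex]; norm_num
  · refine (countable_lattice.union ?_).union ?_
    · refine countable_lattice.preimage_of_injOn ?_
      intro a _ b _ h
      simpa using h
    · refine countable_lattice.preimage_of_injOn ?_
      intro a _ b _ h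
      simpa using h

theorem ne_of_mem_U (hE : EqIff L) {c t : ℂ} (hc : c ∉ L.lattice) (ht : t ∈ U L c) :
    ℘[L] t ≠ ℘[L] (c - t) := by
  intro h
  rcases hE t (c - t) ht.1 ht.2.1 h with h1 | h1
  · exact ht.2.2 (by convert! h1 using 1; ring)
  · exact hc (by convert! h1 using 1; ring)

/-- `t ↦ R L t (c - t)` is constant on `U L c`. -/
theorem R_const (hO : ODE L) (hE : EqIff L) {c : ℂ} (hc : c ∉ L.lattice) {t₁ t₂ : ℂ}
    (h₁ : t₁ ∈ U L c) (h₂ : t₂ ∈ U L c) : R L t₁ (c - t₁) = R L t₂ (c - t₂) := by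
  have hd : ∀ t ∈ U L c, HasDerivAt (fun s => R L s (c - s)) 0 t := fun t ht =>
    hasDerivAt_R_sub hO ht.1 ht.2.1 (ne_of_mem_U hE hc ht)
  exact (isOpen_U c).is_const_of_deriv_eq_zero (isPreconnected_U c)
    (fun t ht => (hd t ht).differentiableAt.differentiableWithinAt)
    (fun t ht => (hd t ht).deriv) h₁ h₂


/-! ### The value of the constant: `t → 0` -/

theorem weierstrassP_eq_except (t : ℂ) : ℘[L] t = ℘[L - (0 : ℂ)] t + 1 / t ^ 2 := by
  have h := L.weierstrassPExcept_def (0 : L.lattice) t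
  simp only [ZeroMemClass.coe_zero, sub_zero] at h
  rw [h]
  simp

theorem derivWeierstrassP_eq_except (t : ℂ) : ℘'[L] t = ℘'[L - (0 : ℂ)] t - 2 / t ^ 3 := by
  have h := L.derivWeierstrassPExcept_def (0 : L.lattice) t
  simp only [ZeroMemClass.coe_zero, sub_zero] at h
  rw [h]
  ring

/-- The regularised form of `t ↦ R L t (c - t)` near `t = 0`. -/
noncomputable def psi (L : PeriodPair) (c t : ℂ) : ℂ :=
  (t ^ 4 * (℘'[L - (0 : ℂ)] t - ℘'[L] (c - t)) ^ 2 - 4 * t * (℘'[L - (0 : ℂ)] t - ℘'[L] (c - t))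
      - 8 * (℘[L - (0 : ℂ)] t - ℘[L] (c - t)) - 4 * t ^ 2 * (℘[L - (0 : ℂ)] t - ℘[L] (c - t)) ^ 2) /
    (4 * (1 + t ^ 2 * (℘[L - (0 : ℂ)] t - ℘[L] (c - t))) ^ 2)
  - ℘[L - (0 : ℂ)] t - ℘[L] (c - t)

theorem psi_zero (c : ℂ) : psi L c 0 = ℘[L] c := by
  simp only [psi, L.weierstrassPExcept_zero, sub_zero]
  ring

theorem alg_psi (t a a' B B' : ℂ) (ht : t ≠ 0) (hne : a + 1 / t ^ 2 ≠ B) :
    ((a' - 2 / t ^ 3 - B') / (2 * (a + 1 / t ^ 2 - B))) ^ 2 - (a + 1 / t ^ 2) - B =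
      (t ^ 4 * (a' - B') ^ 2 - 4 * t * (a' - B') - 8 * (a - B) - 4 * t ^ 2 * (a - B) ^ 2) /
        (4 * (1 + t ^ 2 * (a - B)) ^ 2) - a - B := by
  have h1 : 1 + t ^ 2 * (a - B) ≠ 0 := by
    intro h
    apply hne
    field_simp
    linear_combination h
  have h2 : a + 1 / t ^ 2 - B = (1 + t ^ 2 * (a - B)) / t ^ 2 := by
    field_simp
    ring
  have h3 : a' - 2 / t ^ 3 - B' = (t ^ 3 * (a' - B') - 2) / t ^ 3 := by
    field_simp
    ring
  rw [h2, h3]
  field_simp
  ring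

theorem R_eq_psi {c t : ℂ} (ht : t ≠ 0) (hne : ℘[L] t ≠ ℘[L] (c - t)) :
    R L t (c - t) = psi L c t := by
  rw [weierstrassP_eq_except t] at hne
  simp only [R, lam, psi]
  rw [weierstrassP_eq_except t, derivWeierstrassP_eq_except t]
  exact alg_psi t _ _ _ _ ht hne

theorem continuousAt_psi (hO : ODE L) {c : ℂ} (hc : c ∉ L.lattice) :
    ContinuousAt (psi L c) 0 := by
  have hc0 : c - 0 ∉ L.lattice := by simpa using hc
  have ha : ContinuousAt ℘[L - (0 : ℂ)] 0 := (L.analyticAt_weierstrassPExcept 0).continuousAt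
  have ha' : ContinuousAt ℘'[L - (0 : ℂ)] 0 := (L.analyticAt_derivWeierstrassPExcept 0).continuousAt
  have hB : ContinuousAt (fun t => ℘[L] (c - t)) 0 :=
    (hasDerivAt_weierstrassP_sub hc0).continuousAt
  have hB' : ContinuousAt (fun t => ℘'[L] (c - t)) 0 :=
    (hasDerivAt_derivWeierstrassP_sub hO hc0).continuousAt
  have hid : ContinuousAt (fun t : ℂ => t) 0 := continuousAt_id
  unfold psi
  refine ((ContinuousAt.div ?_ ?_ ?_).sub ha).sub hB
  · exact ((((hid.pow 4).mul ((ha'.sub hB').pow 2)).sub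
      ((continuousAt_const.mul hid).mul (ha'.sub hB'))).sub
      (continuousAt_const.mul (ha.sub hB))).sub
      ((continuousAt_const.mul (hid.pow 2)).mul ((ha.sub hB).pow 2))
  · exact continuousAt_const.mul ((continuousAt_const.add ((hid.pow 2).mul (ha.sub hB))).pow 2)
  · simp

theorem eventually_mem_U {c : ℂ} (hc : c ∉ L.lattice) : ∀ᶠ t in 𝓝[≠] (0 : ℂ), t ∈ U L c := by
  have h1 : ∀ᶠ t in 𝓝[≠] (0 : ℂ), t ∉ L.lattice := by
    have := L.compl_lattice_sdiff_singleton_mem_nhds 0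
    filter_upwards [nhdsWithin_le_nhds this, self_mem_nhdsWithin] with t ht ht0 hmem
    exact ht ⟨hmem, ht0⟩
  have h2 : ∀ᶠ t in 𝓝 (0 : ℂ), c - t ∉ L.lattice := by
    have hcont : ContinuousAt (fun t : ℂ => c - t) 0 := by fun_prop
    have : (L.lattice : Set ℂ)ᶜ ∈ 𝓝 (c - 0) :=
      L.isClosed_lattice.isOpen_compl.mem_nhds (by simpa using hc)
    exact hcont this
  have h3 : ∀ᶠ t in 𝓝 (0 : ℂ), 2 * t - c ∉ L.lattice := by
    have hcont : ContinuousAt (fun t : ℂ => 2 * t - c) 0 := by fun_prop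
    have : (L.lattice : Set ℂ)ᶜ ∈ 𝓝 (2 * 0 - c) :=
      L.isClosed_lattice.isOpen_compl.mem_nhds (by simpa using neg_notMem hc)
    exact hcont this
  filter_upwards [h1, nhdsWithin_le_nhds h2, nhdsWithin_le_nhds h3] with t a b c
  exact ⟨a, b, c⟩

/-- The constant value of `t ↦ R L t (c - t)` on `U L c` is `℘ c`. -/
theorem R_eq_of_mem_U (hO : ODE L) (hE : EqIff L) {c : ℂ} (hc : c ∉ L.lattice) {t : ℂ}
    (ht : t ∈ U L c) : R L t (c - t) = ℘[L] c := by
  have hev : ∀ᶠ s in 𝓝[≠] (0 : ℂ), psi L c s = R L t (c - t) := by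
    filter_upwards [eventually_mem_U hc, self_mem_nhdsWithin] with s hs hs0
    rw [← R_eq_psi hs0 (ne_of_mem_U hE hc hs)]
    exact R_const hO hE hc hs ht
  have h1 : Tendsto (psi L c) (𝓝[≠] (0 : ℂ)) (𝓝 (psi L c 0)) :=
    (continuousAt_psi hO hc).tendsto.mono_left nhdsWithin_le_nhds
  have h2 : Tendsto (psi L c) (𝓝[≠] (0 : ℂ)) (𝓝 (R L t (c - t))) :=
    (tendsto_congr' hev).mpr tendsto_const_nhds
  rw [← psi_zero c]
  exact tendsto_nhds_unique h2 h1

/-- **Addition theorem for `℘`.** -/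
theorem weierstrassP_add (hO : ODE L) (hE : EqIff L) {z w : ℂ} (hz : z ∉ L.lattice)
    (hw : w ∉ L.lattice) (hzw : z + w ∉ L.lattice) (hne : ℘[L] z ≠ ℘[L] w) :
    ℘[L] (z + w) = ((℘'[L] z - ℘'[L] w) / (2 * (℘[L] z - ℘[L] w))) ^ 2 - ℘[L] z - ℘[L] w := by
  have hcz : z + w - z = w := by ring
  have hU : z ∈ U L (z + w) := by
    refine ⟨hz, by rwa [hcz], fun h => hne (weierstrassP_eq_of_sub_mem ?_)⟩
    convert! h using 1
    ring
  have := R_eq_of_mem_U hO hE hzw hU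
  rw [hcz] at this
  rw [← this]
  rfl

end Fermat.Agent.S13.CU.Addition
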