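/-
PROJECT G (S13), complex uniformisation (A6), part 2 (helper24): the `y`-coordinate of the addition
theorem and the duplication formulas.

* `derivWeierstrassP_add` : `℘' (z + w) = 2 lam (℘ z - ℘ (z + w)) - ℘' z` (`lam` the chord slope);
* `weierstrassP_two_mul`, `derivWeierstrassP_two_mul` : the same with the tangent slope
  `lamT = (6 ℘ z ^ 2 - g₂ / 2) / (2 ℘' z)` (limit `w → z`).

With `(x, y) = (℘, ℘' / 2)` these are exactly Mathlib's `addX`, `addY` on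
`Y² = X³ - (g₂/4) X - g₃/4`.
-/
import Fermat.Agent.S13.CU.Addition

set_option autoImplicit false

open Complex Filter Topology
open PeriodPair

namespace Fermat.Agent.S13.CU.AdditionDeriv

open Fermat.Agent.S13.CU.Addition

variable {L : PeriodPair}

/-! ### The `y`-coordinate -/

theorem alg_dlam (x1 x2 Y1 Y2 g2 g3 : ℂ) (hd : x1 - x2 ≠ 0)
    (e1 : Y1 ^ 2 = 4 * x1 ^ 3 - g2 * x1 - g3) (e2 : Y2 ^ 2 = 4 * x2 ^ 3 - g2 * x2 - g3) :
    ((6 * x1 ^ 2 - g2 / 2) * (2 * (x1 - x2)) - (Y1 - Y2) * (2 * Y1)) / (2 * (x1 - x2)) ^ 2 =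
      2 * x1 + x2 - ((Y1 - Y2) / (2 * (x1 - x2))) ^ 2 := by
  field_simp
  linear_combination (-1 : ℂ) * e1 + e2

theorem continuousAt_weierstrassP {z : ℂ} (hz : z ∉ L.lattice) : ContinuousAt ℘[L] z :=
  (hasDerivAt_weierstrassP hz).continuousAt

theorem continuousAt_derivWeierstrassP (hO : ODE L) {z : ℂ} (hz : z ∉ L.lattice) :
    ContinuousAt ℘'[L] z :=
  (hO z hz).continuousAt

theorem eventually_notMem {z : ℂ} (hz : z ∉ L.lattice) : ∀ᶠ s in 𝓝 z, s ∉ L.lattice :=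
  L.isClosed_lattice.isOpen_compl.mem_nhds hz

/-- Derivative of the chord slope in its first argument. -/
theorem hasDerivAt_lam (hO : ODE L) {z w : ℂ} (hz : z ∉ L.lattice)
    (hne : ℘[L] z ≠ ℘[L] w) :
    HasDerivAt (fun s => lam L s w)
      (((6 * ℘[L] z ^ 2 - L.g₂ / 2) * (2 * (℘[L] z - ℘[L] w)) -
        (℘'[L] z - ℘'[L] w) * (2 * ℘'[L] z)) / (2 * (℘[L] z - ℘[L] w)) ^ 2) z := by
  have hx1 := hasDerivAt_weierstrassP hz
  have hY1 := hO z hz
  have hden : 2 * (℘[L] z - ℘[L] w) ≠ 0 := mul_ne_zero two_ne_zero (sub_ne_zero.mpr hne)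
  have h := ((hY1.sub_const (℘'[L] w)).div ((hx1.sub_const (℘[L] w)).const_mul 2) hden)
  exact h

/-- **Addition theorem, `y`-coordinate.** -/
theorem derivWeierstrassP_add (hO : ODE L) (hE : EqIff L) {z w : ℂ} (hz : z ∉ L.lattice)
    (hw : w ∉ L.lattice) (hzw : z + w ∉ L.lattice) (hne : ℘[L] z ≠ ℘[L] w) :
    ℘'[L] (z + w) =
      2 * ((℘'[L] z - ℘'[L] w) / (2 * (℘[L] z - ℘[L] w))) * (℘[L] z - ℘[L] (z + w)) - ℘'[L] z := by
  -- near `z`, `℘ (s + w) = R L s w`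
  have hev : (fun s => ℘[L] (s + w)) =ᶠ[𝓝 z] fun s => R L s w := by
    have h1 : ∀ᶠ s in 𝓝 z, s ∉ L.lattice := eventually_notMem hz
    have h2 : ∀ᶠ s in 𝓝 z, s + w ∉ L.lattice := by
      have hc : ContinuousAt (fun s : ℂ => s + w) z := by fun_prop
      exact hc (eventually_notMem hzw)
    have h3 : ∀ᶠ s in 𝓝 z, ℘[L] s ≠ ℘[L] w :=
      (continuousAt_weierstrassP hz).eventually_ne hne
    filter_upwards [h1, h2, h3] with s a b c
    exact weierstrassP_add hO hE a hw b c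
  -- derivative of the left-hand side
  have hl : HasDerivAt (fun s => ℘[L] (s + w)) (℘'[L] (z + w)) z := by
    have h1 : HasDerivAt (fun s : ℂ => s + w) 1 z := (hasDerivAt_id z).add_const w
    have h2 := HasDerivAt.comp z (hasDerivAt_weierstrassP (L := L) hzw) h1
    convert! h2 using 1
    ring
  -- derivative of the right-hand side
  have hr := ((hasDerivAt_lam hO hz hne).pow 2).sub (hasDerivAt_weierstrassP hz)
  have hr' : HasDerivAt (fun s => R L s w) _ z := hr.sub_const (℘[L] w)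
  have huniq := hl.unique (hr'.congr_of_eventuallyEq hev)
  have e1 := L.derivWeierstrassP_sq z hz
  have e2 := L.derivWeierstrassP_sq w hw
  have hd : ℘[L] z - ℘[L] w ≠ 0 := sub_ne_zero.mpr hne
  have hx3 := weierstrassP_add hO hE hz hw hzw hne
  rw [huniq, alg_dlam _ _ _ _ _ _ hd e1 e2, hx3]
  simp only [lam, Nat.cast_ofNat, show (2 - 1 : ℕ) = 1 from rfl, pow_one]
  ring

/-! ### Duplication -/

/-- The tangent slope. -/
noncomputable def lamT (L : PeriodPair) (z : ℂ) : ℂ :=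
  (6 * ℘[L] z ^ 2 - L.g₂ / 2) / (2 * ℘'[L] z)

theorem tendsto_lam (hO : ODE L) {z : ℂ} (hz : z ∉ L.lattice) (hd : ℘'[L] z ≠ 0) :
    Tendsto (fun w => lam L z w) (𝓝[≠] z) (𝓝 (lamT L z)) := by
  have h1 := (hO z hz).tendsto_slope
  have h2 := (hasDerivAt_weierstrassP hz).tendsto_slope
  have h3 : Tendsto (fun w => slope ℘'[L] z w / (2 * slope ℘[L] z w)) (𝓝[≠] z)
      (𝓝 ((6 * ℘[L] z ^ 2 - L.g₂ / 2) / (2 * ℘'[L] z))) :=
    h1.div (h2.const_mul 2) (mul_ne_zero two_ne_zero hd)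
  refine (tendsto_congr' ?_).mpr h3
  filter_upwards [self_mem_nhdsWithin] with w hw
  have hwz : w - z ≠ 0 := sub_ne_zero.mpr hw
  simp only [lam, slope, vsub_eq_sub, smul_eq_mul]
  by_cases hx : ℘[L] z - ℘[L] w = 0
  · have hx' : ℘[L] w - ℘[L] z = 0 := by linear_combination -hx
    simp [hx, hx']
  · have hx' : ℘[L] w - ℘[L] z ≠ 0 := fun h => hx (by linear_combination -h)
    field_simp
    ring

theorem eventually_good {z : ℂ} (hz : z ∉ L.lattice) (h2 : z + z ∉ L.lattice)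
    (hd : ℘'[L] z ≠ 0) :
    ∀ᶠ w in 𝓝[≠] z, w ∉ L.lattice ∧ z + w ∉ L.lattice ∧ ℘[L] z ≠ ℘[L] w := by
  have h1 : ∀ᶠ w in 𝓝 z, w ∉ L.lattice := eventually_notMem hz
  have h2' : ∀ᶠ w in 𝓝 z, z + w ∉ L.lattice := by
    have hc : ContinuousAt (fun s : ℂ => z + s) z := by fun_prop
    exact hc (eventually_notMem h2)
  have h3 : ∀ᶠ w in 𝓝[≠] z, ℘[L] w ≠ ℘[L] z := (hasDerivAt_weierstrassP hz).eventually_ne hd
  filter_upwards [nhdsWithin_le_nhds h1, nhdsWithin_le_nhds h2', h3] with w a b c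
  exact ⟨a, b, fun h => c h.symm⟩

/-- **Duplication formula for `℘`.** -/
theorem weierstrassP_two_mul (hO : ODE L) (hE : EqIff L) {z : ℂ} (hz : z ∉ L.lattice)
    (h2 : z + z ∉ L.lattice) (hd : ℘'[L] z ≠ 0) :
    ℘[L] (z + z) = ((6 * ℘[L] z ^ 2 - L.g₂ / 2) / (2 * ℘'[L] z)) ^ 2 - ℘[L] z - ℘[L] z := by
  have hcz : ContinuousAt (fun w : ℂ => z + w) z := by fun_prop
  have hl : Tendsto (fun w => ℘[L] (z + w)) (𝓝[≠] z) (𝓝 (℘[L] (z + z))) :=
    (ContinuousAt.comp (f := fun w : ℂ => z + w) (g := ℘[L]) (x := z)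
      (continuousAt_weierstrassP h2) hcz).tendsto.mono_left nhdsWithin_le_nhds
  have hw : Tendsto ℘[L] (𝓝[≠] z) (𝓝 (℘[L] z)) :=
    (continuousAt_weierstrassP hz).tendsto.mono_left nhdsWithin_le_nhds
  have hr : Tendsto (fun w => lam L z w ^ 2 - ℘[L] z - ℘[L] w) (𝓝[≠] z)
      (𝓝 (lamT L z ^ 2 - ℘[L] z - ℘[L] z)) :=
    (((tendsto_lam hO hz hd).pow 2).sub tendsto_const_nhds).sub hw
  have hev : (fun w => ℘[L] (z + w)) =ᶠ[𝓝[≠] z] fun w => lam L z w ^ 2 - ℘[L] z - ℘[L] w := by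
    filter_upwards [eventually_good hz h2 hd] with w hw
    exact weierstrassP_add hO hE hz hw.1 hw.2.1 hw.2.2
  exact tendsto_nhds_unique hl ((tendsto_congr' hev).mpr hr)

/-- **Duplication formula for `℘'`.** -/
theorem derivWeierstrassP_two_mul (hO : ODE L) (hE : EqIff L) {z : ℂ} (hz : z ∉ L.lattice)
    (h2 : z + z ∉ L.lattice) (hd : ℘'[L] z ≠ 0) :
    ℘'[L] (z + z) =
      2 * ((6 * ℘[L] z ^ 2 - L.g₂ / 2) / (2 * ℘'[L] z)) * (℘[L] z - ℘[L] (z + z)) - ℘'[L] z := by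
  have hcz : ContinuousAt (fun w : ℂ => z + w) z := by fun_prop
  have hl : Tendsto (fun w => ℘'[L] (z + w)) (𝓝[≠] z) (𝓝 (℘'[L] (z + z))) :=
    (ContinuousAt.comp (f := fun w : ℂ => z + w) (g := ℘'[L]) (x := z)
      (continuousAt_derivWeierstrassP hO h2) hcz).tendsto.mono_left nhdsWithin_le_nhds
  have hx3 : Tendsto (fun w => ℘[L] (z + w)) (𝓝[≠] z) (𝓝 (℘[L] (z + z))) :=
    (ContinuousAt.comp (f := fun w : ℂ => z + w) (g := ℘[L]) (x := z)
      (continuousAt_weierstrassP h2) hcz).tendsto.mono_left nhdsWithin_le_nhds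
  have hr : Tendsto (fun w => 2 * lam L z w * (℘[L] z - ℘[L] (z + w)) - ℘'[L] z) (𝓝[≠] z)
      (𝓝 (2 * lamT L z * (℘[L] z - ℘[L] (z + z)) - ℘'[L] z)) :=
    (((tendsto_lam hO hz hd).const_mul 2).mul (tendsto_const_nhds.sub hx3)).sub
      tendsto_const_nhds
  have hev : (fun w => ℘'[L] (z + w)) =ᶠ[𝓝[≠] z]
      fun w => 2 * lam L z w * (℘[L] z - ℘[L] (z + w)) - ℘'[L] z := by
    filter_upwards [eventually_good hz h2 hd] with w hw
    exact derivWeierstrassP_add hO hE hz hw.1 hw.2.1 hw.2.2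
  exact tendsto_nhds_unique hl ((tendsto_congr' hev).mpr hr)

end Fermat.Agent.S13.CU.AdditionDeriv
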