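/-
PROJECT G (S13), complex uniformisation (helper18): (VS) over `ℂ`, UNCONDITIONAL, in the interface
spelling `Iface.ValSum`.

* `valSum_shortOf L (hodd : Odd p) : Iface.ValSum (shortOf L) p`;
* `valSum_of_Δ_ne_zero W (hW : W.Δ ≠ 0) (hodd : Odd p) : Iface.ValSum W p` for every Weierstrass
  curve over `ℂ` with nonzero discriminant.

Assembly of `ValSumPoint` (reindexing of the lattice form `ValSum.prod_sq_eq_of_reps` by the
uniformisation), `UnifIso.addData` and `Uniformize.exists_variableChange`.
-/
import Fermat.Agent.S13.CU.ValSumPoint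
import Fermat.Agent.S13.CU.UnifIso
import Fermat.Agent.S13.CU.Uniformize

set_option autoImplicit false

namespace Fermat.Agent.S13.CU.ValSumAll

open Fermat.Agent.S13.Iface Fermat.Agent.S13.CU.Defs

/-- **(VS) for the lattice curves**, unconditional. -/
theorem valSum_shortOf (L : PeriodPair) {p : ℕ} (hodd : Odd p) : ValSum (shortOf L) p :=
  ValSumPoint.valSum_shortOf (UnifIso.addData L) hodd

/-- `shortOf L` has exactly `p² - 1` nonzero `p`-torsion points. -/
theorem card_torsion_shortOf (L : PeriodPair) {p : ℕ} (hp : p ≠ 0)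
    (S : Finset (shortOf L).toAffine.Point) (hS : ∀ T, T ∈ S ↔ p • T = 0 ∧ T ≠ 0) :
    S.card = p ^ 2 - 1 :=
  ValSumPoint.card_torsion_shortOf (UnifIso.addData L) hp S hS

/-- **(VS) over `ℂ`**: every Weierstrass curve over `ℂ` with `Δ ≠ 0` satisfies the valuation-sum
identity at every odd `p`. -/
theorem valSum_of_Δ_ne_zero (W : WeierstrassCurve ℂ) (hW : W.Δ ≠ 0) {p : ℕ} (hodd : Odd p) :
    ValSum W p := by
  obtain ⟨L, C, hC⟩ := Uniformize.exists_variableChange W hW
  exact ValSumPoint.valSum_of_smul_eq_shortOf (UnifIso.addData L) W C hC hodd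

end Fermat.Agent.S13.CU.ValSumAll
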