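import Fermat.Agent.S13.Iface
import Fermat.Agent.S13.CU.Defs
import Fermat.Agent.S13.CU.HalfPeriods

/-!
# PROJECT G (S13), complex uniformisation: from the lattice form of (VS) to `Iface.ValSum`

`LatticeValSum L p` is the statement (A10) for the lattice of `L` (abstract representatives of the
`p`-torsion of `ℂ ⧸ Λ`).  Given the group isomorphism `ℂ ⧸ Λ ≃+ (shortOf L)(ℂ)` with its coordinate
formula, and the cardinality of the `p`-torsion of `ℂ ⧸ Λ`, it yields `Iface.ValSum (shortOf L) p`.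
-/

set_option autoImplicit false

noncomputable section

namespace Fermat.Agent.S13.CU.ValSumShort

open Fermat.Agent.S13.Iface Fermat.Agent.S13.CU.Defs Fermat.Agent.S13.CU.HalfPeriods
open scoped PeriodPair

open scoped Classical in
/-- The lattice form of (VS): for every half period `s` with half-period constant `D` and every
finite family `T` of representatives of the `p`-torsion of `ℂ ⧸ Λ`. -/
def LatticeValSum (L : PeriodPair) (p : ℕ) : Prop :=
  ∀ (s D : ℂ), s ∉ L.lattice → 2 * s ∈ L.lattice → D ≠ 0 →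
    (∀ z, z ∉ L.lattice → z + s ∉ L.lattice →
      (℘[L] (z + s) - ℘[L] s) * (℘[L] z - ℘[L] s) = D) →
    ∀ (ι : Type) [Fintype ι] (T : ι → ℂ), (∀ i, (p : ℂ) * T i ∈ L.lattice) →
      (∀ i j, T i - T j ∈ L.lattice → i = j) →
      (∀ z, (p : ℂ) * z ∈ L.lattice → ∃ i, z - T i ∈ L.lattice) →
      (p : ℂ) ^ 4 * ∏ i with T i ∉ L.lattice, (℘[L] (T i) - ℘[L] s) ^ 2 =
        D ^ (Fintype.card ι - 1)

variable (L : PeriodPair)

theorem shortOf_b₂ : (shortOf L).b₂ = 0 := by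
  simp [WeierstrassCurve.b₂]

theorem shortOf_b₄ : (shortOf L).b₄ = -L.g₂ / 2 := by
  simp only [WeierstrassCurve.b₄, shortOf_a₁, shortOf_a₃, shortOf_a₄]
  ring

theorem shortOf_b₆ : (shortOf L).b₆ = -L.g₃ := by
  simp only [WeierstrassCurve.b₆, shortOf_a₃, shortOf_a₆]
  ring

/-- The roots of the `2`-division polynomial of `shortOf L` are `e₁, e₂, e₃`. -/
theorem root_cases {e : ℂ}
    (he : 4 * e ^ 3 + (shortOf L).b₂ * e ^ 2 + 2 * (shortOf L).b₄ * e + (shortOf L).b₆ = 0) :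
    e = e₁ L ∨ e = e₂ L ∨ e = e₃ L := by
  rw [shortOf_b₂, shortOf_b₄, shortOf_b₆] at he
  have h : 4 * ((e - e₁ L) * (e - e₂ L) * (e - e₃ L)) = 0 := by
    rw [← cubic_eq L e]
    linear_combination he
  rcases mul_eq_zero.mp h with h | h
  · norm_num at h
  rcases mul_eq_zero.mp h with h | h
  · rcases mul_eq_zero.mp h with h | h
    · exact Or.inl (sub_eq_zero.mp h)
    · exact Or.inr (Or.inl (sub_eq_zero.mp h))
  · exact Or.inr (Or.inr (sub_eq_zero.mp h))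

/-- For each root `e` there are a half period `s` with `℘ s = e` and a constant `D` with
`12 e² + 2 b₂ e + 2 b₄ = 4 D`. -/
theorem exists_half {e : ℂ}
    (he : 4 * e ^ 3 + (shortOf L).b₂ * e ^ 2 + 2 * (shortOf L).b₄ * e + (shortOf L).b₆ = 0) :
    ∃ s D : ℂ, s ∉ L.lattice ∧ 2 * s ∈ L.lattice ∧ D ≠ 0 ∧ ℘[L] s = e ∧
      (∀ z, z ∉ L.lattice → z + s ∉ L.lattice →
        (℘[L] (z + s) - ℘[L] s) * (℘[L] z - ℘[L] s) = D) ∧
      12 * e ^ 2 + 2 * (shortOf L).b₂ * e + 2 * (shortOf L).b₄ = 4 * D := by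
  have hs := e_sum L
  have hg := g₂_eq L
  have h21 : e₂ L - e₁ L ≠ 0 := sub_ne_zero.mpr (e₂_ne_e₁ L)
  have h31 : e₃ L - e₁ L ≠ 0 := sub_ne_zero.mpr (e₃_ne_e₁ L)
  have h32 : e₃ L - e₂ L ≠ 0 := sub_ne_zero.mpr (e₃_ne_e₂ L)
  have h12 : e₁ L - e₂ L ≠ 0 := sub_ne_zero.mpr (e₂_ne_e₁ L).symm
  have h13 : e₁ L - e₃ L ≠ 0 := sub_ne_zero.mpr (e₃_ne_e₁ L).symm
  have h23 : e₂ L - e₃ L ≠ 0 := sub_ne_zero.mpr (e₃_ne_e₂ L).symm
  rw [shortOf_b₂, shortOf_b₄]
  rcases root_cases L he with rfl | rfl | rfl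
  · refine ⟨L.ω₁ / 2, (e₃ L - e₁ L) * (e₂ L - e₁ L), L.ω₁_div_two_notMem_lattice,
      two_mul_ω₁_div_two_mem L, mul_ne_zero h31 h21, rfl, fun z hz hzh => halfProd_ω₁ L hz hzh, ?_⟩
    rw [hg]
    linear_combination (8 * e₁ L) * hs
  · refine ⟨L.ω₂ / 2, (e₃ L - e₂ L) * (e₁ L - e₂ L), L.ω₂_div_two_notMem_lattice,
      two_mul_ω₂_div_two_mem L, mul_ne_zero h32 h12, rfl, fun z hz hzh => halfProd_ω₂ L hz hzh, ?_⟩
    rw [hg]
    linear_combination (8 * e₂ L) * hs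
  · refine ⟨(L.ω₁ + L.ω₂) / 2, (e₂ L - e₃ L) * (e₁ L - e₃ L), ω₃_div_two_notMem_lattice L,
      two_mul_ω₃_div_two_mem L, mul_ne_zero h23 h13, rfl, fun z hz hzh => halfProd_ω₃ L hz hzh, ?_⟩
    rw [hg]
    linear_combination (8 * e₃ L) * hs


variable {L}

theorem mk_eq_zero_iff (z : ℂ) :
    (QuotientAddGroup.mk z : ℂ ⧸ L.lattice.toAddSubgroup) = 0 ↔ z ∈ L.lattice := by
  rw [QuotientAddGroup.eq_zero_iff]
  exact Iff.rfl

theorem mk_natCast_mul (p : ℕ) (z : ℂ) :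
    (QuotientAddGroup.mk ((p : ℂ) * z) : ℂ ⧸ L.lattice.toAddSubgroup) =
      p • (QuotientAddGroup.mk z : ℂ ⧸ L.lattice.toAddSubgroup) := by
  rw [← nsmul_eq_mul]
  rfl

theorem mem_torsion_iff (p : ℕ) (q : ℂ ⧸ L.lattice.toAddSubgroup) :
    q ∈ Submodule.torsionBy ℤ (ℂ ⧸ L.lattice.toAddSubgroup) p ↔ p • q = 0 := by
  rw [Submodule.mem_torsionBy_iff, natCast_zsmul]

open scoped Classical in
/-- (VS) for `shortOf L` in the interface form, from the lattice form, the uniformisation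
isomorphism with its coordinate formula, and the count of the `p`-torsion of `ℂ ⧸ Λ`. -/
theorem valSum_shortOf (p : ℕ) (hp : 0 < p)
    (φ : (ℂ ⧸ L.lattice.toAddSubgroup) ≃+ (shortOf L).toAffine.Point)
    (hφ : ∀ z : ℂ, z ∉ L.lattice → xc (shortOf L) (φ (QuotientAddGroup.mk z)) = ℘[L] z)
    (hcard : Nat.card (Submodule.torsionBy ℤ (ℂ ⧸ L.lattice.toAddSubgroup) p) = p ^ 2)
    (hA10 : LatticeValSum L p) : ValSum (shortOf L) p := by
  intro e he S hS
  obtain ⟨s, D, hs, h2s, hD0, hse, hprod, hRHS⟩ := exists_half L he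
  have : Finite (Submodule.torsionBy ℤ (ℂ ⧸ L.lattice.toAddSubgroup) p) :=
    Nat.finite_of_card_ne_zero (by rw [hcard]; positivity)
  let _ : Fintype (Submodule.torsionBy ℤ (ℂ ⧸ L.lattice.toAddSubgroup) p) := Fintype.ofFinite _
  have hcardV : Fintype.card (Submodule.torsionBy ℤ (ℂ ⧸ L.lattice.toAddSubgroup) p) = p ^ 2 := by
    rw [← Nat.card_eq_fintype_card, hcard]
  let T : Submodule.torsionBy ℤ (ℂ ⧸ L.lattice.toAddSubgroup) p → ℂ :=
    fun i => Quotient.out (i : ℂ ⧸ L.lattice.toAddSubgroup)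
  have hmk : ∀ i, (QuotientAddGroup.mk (T i) : ℂ ⧸ L.lattice.toAddSubgroup) = i :=
    fun i => QuotientAddGroup.out_eq' _
  have hT : ∀ i, (p : ℂ) * T i ∈ L.lattice := by
    intro i
    rw [← mk_eq_zero_iff, mk_natCast_mul, hmk]
    exact (mem_torsion_iff p _).mp i.2
  have hinj : ∀ i j, T i - T j ∈ L.lattice → i = j := by
    intro i j hij
    apply Subtype.ext
    rw [← hmk i, ← hmk j]
    exact (QuotientAddGroup.eq_iff_sub_mem).mpr hij
  have hsurj : ∀ z, (p : ℂ) * z ∈ L.lattice → ∃ i, z - T i ∈ L.lattice := by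
    intro z hz
    have hzV : (QuotientAddGroup.mk z : ℂ ⧸ L.lattice.toAddSubgroup) ∈
        Submodule.torsionBy ℤ (ℂ ⧸ L.lattice.toAddSubgroup) p := by
      rw [mem_torsion_iff, ← mk_natCast_mul, mk_eq_zero_iff]
      exact hz
    refine ⟨⟨_, hzV⟩, ?_⟩
    have := hmk ⟨_, hzV⟩
    exact (QuotientAddGroup.eq_iff_sub_mem).mp this.symm
  have key := hA10 s D hs h2s hD0 hprod _ T hT hinj hsurj
  rw [hcardV, hse] at key
  -- reindex
  have hre : ∏ P ∈ S, (xc (shortOf L) P - e) ^ 2 =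
      ∏ i with T i ∉ L.lattice, (℘[L] (T i) - e) ^ 2 := by
    symm
    refine Finset.prod_bij (fun i _ => φ (i : ℂ ⧸ L.lattice.toAddSubgroup)) ?_ ?_ ?_ ?_
    · intro i hi
      rw [Finset.mem_filter] at hi
      rw [hS]
      refine ⟨?_, ?_⟩
      · rw [← map_nsmul, (mem_torsion_iff p _).mp i.2, map_zero]
      · intro h0
        apply hi.2
        rw [← mk_eq_zero_iff, hmk]
        exact (AddEquiv.map_eq_zero_iff φ).mp h0
    · intro i _ j _ hij
      exact Subtype.ext (φ.injective hij)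
    · intro P hP
      rw [hS] at hP
      have hV : φ.symm P ∈ Submodule.torsionBy ℤ (ℂ ⧸ L.lattice.toAddSubgroup) p := by
        rw [mem_torsion_iff, ← map_nsmul, hP.1, map_zero]
      refine ⟨⟨_, hV⟩, ?_, φ.apply_symm_apply P⟩
      rw [Finset.mem_filter]
      refine ⟨Finset.mem_univ _, ?_⟩
      intro hmem
      apply hP.2
      have h1 : (QuotientAddGroup.mk (T ⟨_, hV⟩) : ℂ ⧸ L.lattice.toAddSubgroup) = 0 :=
        (mk_eq_zero_iff _).mpr hmem
      rw [hmk] at h1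
      have h2 : φ.symm P = 0 := h1
      exact (AddEquiv.map_eq_zero_iff φ.symm).mp h2
    · intro i hi
      rw [Finset.mem_filter] at hi
      have := hφ (T i) hi.2
      rw [hmk] at this
      rw [this]
  rw [hre, hRHS, mul_pow, ← key]
  ring

end Fermat.Agent.S13.CU.ValSumShort
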